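import Mathlib
import Fermat.Prelude.Def_GaloisRep_Residual
import Fermat.Prelude.Def_EllipticCurve_FrobeniusTrace
import Fermat.Prelude.Def_FLTPrelim_Ramification
import Fermat.Agent.S30.Density.PrimeSum
import Fermat.Agent.S30.Density.FrobSetup

/-!
# PROJECT D (S48), part A, brick A6 = CHEBOTAREV: the typed seams

Everything here is a `def ... : Prop`; the bricks prove implications between them.

```
 C1 LatticeSum + C2 Tent + C3 Unfold  ⟹ (C4)  LContinuous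
 (C5a) EulerLog ;  LContinuous + EulerLog  ⟹ (C5b)  PrimeCharSumBounded
 PrimeCharSumBounded                  ⟹ (C6)  NormResidueDensity
 NormResidueDensity                   ⟹ (C7)  CycloFrobDensity
 CycloFrobDensity                     ⟹ (C8+C9) CrossLower
 CrossLower                           ⟹ (C10) NFChebLower
 NFChebLower                          ⟹ (C11) ChebLower      (consumer: A5b, helper29)
```
-/

set_option autoImplicit false

noncomputable section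

namespace Fermat.Agent.S48.A.Cheb.Seams

open NumberField IsDedekindDomain Filter Topology Asymptotics
open Fermat.Agent.S30.Density Fermat.Agent.S30.Density.ZetaEuler Fermat.Agent.S30.Density.PrimeSum

local notation "Γℚ" => (AlgebraicClosure ℚ ≃ₐ[ℚ] AlgebraicClosure ℚ)

/-! ### The analytic seams -/

/-- The term of the twisted Dedekind series: `χ(N I) · N I ^ (-s)` (the zero ideal contributes `0`). -/
def lterm (M : Type) [Field M] [NumberField M] {m : ℕ} (χ : DirichletCharacter ℂ m) (s : ℝ)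
    (I : Ideal (𝓞 M)) : ℂ :=
  χ ((Ideal.absNorm I : ℕ) : ZMod m) * (((Ideal.absNorm I : ℝ) ^ (-s) : ℝ) : ℂ)

/-- `L_M(s, χ ∘ N) = ∑_I χ(N I) N I ^ (-s)`, a sum over all ideals of `𝓞 M` (real `s > 1`). -/
def lfun (M : Type) [Field M] [NumberField M] {m : ℕ} (χ : DirichletCharacter ℂ m) (s : ℝ) : ℂ :=
  ∑' I : Ideal (𝓞 M), lterm M χ s I

/-- `χ ∘ N` is non-trivial on the ideals of `M` prime to `m`. -/
def NormNontrivial (M : Type) [Field M] [NumberField M] {m : ℕ} (χ : DirichletCharacter ℂ m) : Prop :=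
  ∃ v : HeightOneSpectrum (𝓞 M), χ ((nrm v : ℕ) : ZMod m) ≠ 0 ∧ χ ((nrm v : ℕ) : ZMod m) ≠ 1

/-- **(S-LC)** `L_M(s, χ ∘ N)` extends continuously to `[1, 2]` when `χ ∘ N` is non-trivial. -/
def LContinuous : Prop :=
  ∀ (M : Type) [Field M] [NumberField M] (m : ℕ) [NeZero m] (χ : DirichletCharacter ℂ m),
    NormNontrivial M χ →
    ∃ F : ℝ → ℂ, ContinuousOn F (Set.Icc 1 2) ∧ ∀ s : ℝ, 1 < s → s ≤ 2 → lfun M χ s = F s

/-- **(S-EL)** the logarithm of the Euler product of `L_M(s, χ ∘ N)`: a continuous `l` on `(1, 2]`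
with `exp (l s) = L_M(s, χ ∘ N)` and `l s = ∑_v χ(N v) N v ^ (-s) + O(1)`
(`l s = ∑_v - log (1 - χ(N v) N v ^ (-s))`). -/
def EulerLog : Prop :=
  ∀ (M : Type) [Field M] [NumberField M] (m : ℕ) [NeZero m] (χ : DirichletCharacter ℂ m),
    ∃ l : ℝ → ℂ, ContinuousOn l (Set.Ioc 1 2) ∧ ∃ C : ℝ, ∀ s : ℝ, 1 < s → s ≤ 2 →
      Complex.exp (l s) = lfun M χ s ∧
      ‖l s - ∑' v : HeightOneSpectrum (𝓞 M),
        χ ((nrm v : ℕ) : ZMod m) * ((pterm s v : ℝ) : ℂ)‖ ≤ C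

/-- **(S-PD)** `∑_v χ(N v) N v ^ (-s) = O(1)` on `(1, 2]` when `χ ∘ N` is non-trivial (`m` prime:
the only case used, and `Gal(M(ζ_m)/M)` is then cyclic). -/
def PrimeCharSumBounded : Prop :=
  ∀ (M : Type) [Field M] [NumberField M] (m : ℕ) [Fact m.Prime] (χ : DirichletCharacter ℂ m),
    NormNontrivial M χ →
    ∃ C : ℝ, ∀ s : ℝ, 1 < s → s ≤ 2 →
      ‖∑' v : HeightOneSpectrum (𝓞 M), χ ((nrm v : ℕ) : ZMod m) * ((pterm s v : ℝ) : ℂ)‖ ≤ C

/-- The residues mod `m` of the norms of the finite places of `M` prime to `m`, closed under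
multiplication (a subgroup of `(ZMod m)ˣ`, written as a submonoid of `ZMod m`). -/
def normResidues (M : Type) [Field M] [NumberField M] (m : ℕ) : Submonoid (ZMod m) :=
  Submonoid.closure {a | ∃ v : HeightOneSpectrum (𝓞 M), (nrm v).Coprime m ∧ a = ((nrm v : ℕ) : ZMod m)}

/-- **(S-NRD)** Dirichlet's theorem over `M` for norm residues: every class of the group generated
by the norm residues has logarithmic density `1 / (order of that group)`. -/
def NormResidueDensity : Prop :=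
  ∀ (M : Type) [Field M] [NumberField M] (m : ℕ) [Fact m.Prime] (a : ZMod m),
    a ∈ normResidues M m →
    HasLogDensity M {v | ((nrm v : ℕ) : ZMod m) = a} (1 / (Nat.card (normResidues M m) : ℝ))

/-! ### The algebraic seams -/

/-- **(S-CF)** Chebotarev for a cyclotomic layer `E = M(ζ)`, `ζ` a primitive `m`-th root of unity,
`Gal(E/M) = ⟨g⟩`: the finite places of `M` having a prime of `E` above them at which `g` is an
arithmetic Frobenius have logarithmic density `1 / [E : M]`. -/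
def CycloFrobDensity : Prop :=
  ∀ (M E : Type) [Field M] [NumberField M] [Field E] [NumberField E] [Algebra M E] [IsGalois M E]
    (m : ℕ) [Fact m.Prime] (ζ : E), IsPrimitiveRoot ζ m → IntermediateField.adjoin M {ζ} = ⊤ →
    ∀ g : E ≃ₐ[M] E, Subgroup.zpowers g = ⊤ →
    HasLogDensity M
      {q | ∃ Q : Ideal (𝓞 E), Q.IsPrime ∧ Q.LiesOver q.asIdeal ∧ IsArithFrobAt (𝓞 M) g Q}
      (1 / (Module.finrank M E : ℝ))

/-- `σ` is the arithmetic Frobenius at some prime of `L` over `p`, unramified over `ℤ`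
(so the Frobenius class of `p` in `L / ℚ` is the conjugacy class of `σ`). -/
def FrobClassAt (L : Type) [Field L] [NumberField L] (σ : L ≃ₐ[ℚ] L) (p : ℕ) : Prop :=
  ∃ (Q : Ideal (𝓞 L)) (_ : Q.IsPrime), ((p : 𝓞 L) ∈ Q) ∧ Algebra.IsUnramifiedAt ℤ Q ∧
    IsArithFrobAt ℤ σ Q

/-- **(S-D)** Deuring's reduction, lower bound form: if the places of `M = L^⟨g⟩` with Frobenius
exactly `g` in `L / M` have logarithmic density `1 / ord g`, then the rational primes whose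
Frobenius class is the class of `g` have lower logarithmic density `≥ 1 / |C_G(g)|`. -/
def DeuringLower : Prop :=
  ∀ (L : Type) [Field L] [NumberField L] [IsGalois ℚ L] (g : L ≃ₐ[ℚ] L) (S : Finset ℕ),
    HasLogDensity (FrobSetup.fixM g)
      {q | ∃ Q : Ideal (𝓞 L), Q.IsPrime ∧ Q.LiesOver q.asIdeal ∧
        IsArithFrobAt (𝓞 (FrobSetup.fixM g)) (FrobSetup.sigmaM g) Q}
      (1 / (orderOf g : ℝ)) →
    ∃ C0 : ℝ, ∀ s : ℝ, 1 < s → s ≤ 2 → ∃ F : Finset ℕ,
      (∀ p ∈ F, p.Prime ∧ p ∉ S ∧ FrobClassAt L g p) ∧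
      (1 / (Nat.card (Subgroup.centralizer {g}) : ℝ)) * Real.log (1 / (s - 1)) - C0 ≤
        ∑ p ∈ F, 1 / (p : ℝ) ^ s

/-- **(S-X)** crossing with `ℚ(ζ_m)`: `m` a prime with `Φ_m` irreducible over `L`
(i.e. `L ∩ ℚ(ζ_m) = ℚ`), `τ` a unit mod `m` whose order is divisible by the order of `σ`. -/
def CrossLower : Prop :=
  ∀ (L : Type) [Field L] [NumberField L] [IsGalois ℚ L] (σ : L ≃ₐ[ℚ] L) (m : ℕ) [Fact m.Prime],
    Irreducible (Polynomial.cyclotomic m L) →
    ∀ τ : (ZMod m)ˣ, orderOf σ ∣ orderOf τ → ∀ S : Finset ℕ,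
    ∃ C0 : ℝ, ∀ s : ℝ, 1 < s → s ≤ 2 → ∃ F : Finset ℕ,
      (∀ p ∈ F, p.Prime ∧ p ∉ S ∧ ((p : ℕ) : ZMod m) = (τ : ZMod m) ∧ FrobClassAt L σ p) ∧
      (1 / ((Nat.card (Subgroup.centralizer {σ}) : ℝ) * ((m : ℝ) - 1))) * Real.log (1 / (s - 1)) - C0 ≤
        ∑ p ∈ F, 1 / (p : ℝ) ^ s

/-- **(S-NF)** Chebotarev, lower bound, number field form, one conjugacy class. -/
def NFChebLower : Prop :=
  ∀ (L : Type) [Field L] [NumberField L] [IsGalois ℚ L] (σ : L ≃ₐ[ℚ] L) (S : Finset ℕ) (ε : ℝ),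
    0 < ε →
    ∃ C0 : ℝ, ∀ s : ℝ, 1 < s → s ≤ 2 → ∃ F : Finset ℕ,
      (∀ p ∈ F, p.Prime ∧ p ∉ S ∧ FrobClassAt L σ p) ∧
      (1 / (Nat.card (Subgroup.centralizer {σ}) : ℝ) - ε) * Real.log (1 / (s - 1)) - C0 ≤
        ∑ p ∈ F, 1 / (p : ℝ) ^ s

/-- **(I6)** Chebotarev, lower bound, in the Prelude's language (the literal consumed by the
assembly A5b). -/
def ChebLower : Prop :=
  ∀ (G : Type) [Group G] [Finite G] (ρ : Γℚ →* G), GaloisFactorsThroughFiniteLevel ρ →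
    Function.Surjective ρ → ∀ (S : Finset ℕ) (C : Set G), (∀ g h, g ∈ C → h * g * h⁻¹ ∈ C) →
    ∀ ε : ℝ, 0 < ε → ∃ C0 : ℝ, ∀ s : ℝ, 1 < s → s ≤ 2 → ∃ F : Finset ℕ,
      (∀ p ∈ F, p.Prime ∧ p ∉ S ∧
        ∀ A : ValuationSubring (AlgebraicClosure ℚ), A.LiesOverPrime p →
          (∀ σ ∈ A.inertiaSubgroupIn ℚ, ρ σ = 1) ∧ ∀ σ : Γℚ, A.IsFrobeniusAt σ p → ρ σ ∈ C) ∧
      ((C.ncard : ℝ) / (Nat.card G : ℝ) - ε) * Real.log (1 / (s - 1)) - C0 ≤
        ∑ p ∈ F, 1 / (p : ℝ) ^ s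

end Fermat.Agent.S48.A.Cheb.Seams
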