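import Mathlib
import Fermat.Agent.S48.A.Cheb.Seams
import Fermat.Agent.S48.A.Cheb.Cross.Gal
import Fermat.Agent.S48.A.Cheb.Cross.Adjoin
import Fermat.Agent.S48.A.Cheb.Cross.Frob

/-!
# S48 / part A / A6 (Chebotarev) / brick C9: crossing with `ℚ(ζ_m)`

`Seams.CycloFrobDensity → Seams.DeuringLower → Seams.CrossLower`.
-/

set_option autoImplicit false
set_option linter.style.haveILetI false
set_option linter.unusedSectionVars false

noncomputable section

namespace Fermat.Agent.S48.A.Cheb.Cross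

open NumberField Fermat.Agent.S30.Density Fermat.Agent.S48.A.Cheb.Seams

/-- the crossing argument for an arbitrary model `L'` of `L(ζ_m)` -/
theorem crossLower_aux (hCF : CycloFrobDensity) (hD : DeuringLower)
    (L : Type) [Field L] [NumberField L] [IsGalois ℚ L]
    (L' : Type) [Field L'] [NumberField L'] [Algebra L L'] [IsGalois ℚ L']
    (σ : L ≃ₐ[ℚ] L) (m : ℕ) [Fact m.Prime] [IsCyclotomicExtension {m} L L']
    (hirr : Irreducible (Polynomial.cyclotomic m L)) (τ : (ZMod m)ˣ)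
    (hdvd : orderOf σ ∣ orderOf τ) (S : Finset ℕ) :
    ∃ C0 : ℝ, ∀ s : ℝ, 1 < s → s ≤ 2 → ∃ F : Finset ℕ,
      (∀ p ∈ F, p.Prime ∧ p ∉ S ∧ ((p : ℕ) : ZMod m) = (τ : ZMod m) ∧ FrobClassAt L σ p) ∧
      (1 / ((Nat.card (Subgroup.centralizer {σ}) : ℝ) * ((m : ℝ) - 1))) *
          Real.log (1 / (s - 1)) - C0 ≤ ∑ p ∈ F, 1 / (p : ℝ) ^ s := by
  have hm : m.Prime := Fact.out
  haveI : NeZero m := ⟨hm.ne_zero⟩
  obtain ⟨ζ, hζ⟩ := IsCyclotomicExtension.exists_isPrimitiveRoot L L' (Set.mem_singleton m)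
    (NeZero.ne m)
  obtain ⟨g, hgσ, hgτ⟩ := Gal.exists_aut (K := ℚ) hζ hirr σ τ
  have hord : orderOf g = orderOf τ := Gal.orderOf_eq hζ hgσ hgτ hdvd
  have hadj : IntermediateField.adjoin (FrobSetup.fixM g) {ζ} = ⊤ :=
    Adjoin.adjoin_fixM_eq_top g ζ fun j hj =>
      Gal.pow_eq_one_of_apply_zeta (L := L) hζ (by rw [hgσ, hgτ]; exact hdvd) hj
  have hdens := hCF (FrobSetup.fixM g) L' m ζ hζ hadj (FrobSetup.sigmaM g)
    (FrobSetup.zpowers_sigmaM g)
  rw [← FrobSetup.orderOf_eq_finrank _ (FrobSetup.zpowers_sigmaM g), FrobSetup.orderOf_sigmaM]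
    at hdens
  obtain ⟨C0, hC0⟩ := hD L' g (insert m S) hdens
  refine ⟨C0, fun s hs1 hs2 => ?_⟩
  obtain ⟨F, hF1, hF2⟩ := hC0 s hs1 hs2
  refine ⟨F, fun p hp => ?_, ?_⟩
  · obtain ⟨hpp, hpS, hfr⟩ := hF1 p hp
    have hpm : p ≠ m := fun h => hpS (h ▸ Finset.mem_insert_self _ _)
    refine ⟨hpp, fun h => hpS (Finset.mem_insert_of_mem h), ?_, ?_⟩
    · rw [Frob.natCast_eq_autToPow hζ g hpp hpm hfr, hgτ]
    · have := Frob.frobClassAt_restrict (L := L) g hfr
      rwa [hgσ] at this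
  · refine le_trans ?_ hF2
    have hlog : 0 ≤ Real.log (1 / (s - 1)) := by
      apply Real.log_nonneg
      rw [le_div_iff₀ (by linarith)]
      linarith
    have hcard : Nat.card (Subgroup.centralizer {g}) ≤
        Nat.card (Subgroup.centralizer {σ}) * (m - 1) := Gal.card_centralizer_le hζ hgσ
    have hpos : (0 : ℝ) < (Nat.card (Subgroup.centralizer {g}) : ℝ) := by
      exact_mod_cast Nat.card_pos
    have hcardR : (Nat.card (Subgroup.centralizer {g}) : ℝ) ≤
        (Nat.card (Subgroup.centralizer {σ}) : ℝ) * ((m : ℝ) - 1) := by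
      have h1 : ((m - 1 : ℕ) : ℝ) = (m : ℝ) - 1 := by
        rw [Nat.cast_sub hm.one_lt.le, Nat.cast_one]
      rw [← h1]
      exact_mod_cast hcard
    have hinv : 1 / ((Nat.card (Subgroup.centralizer {σ}) : ℝ) * ((m : ℝ) - 1)) ≤
        1 / (Nat.card (Subgroup.centralizer {g}) : ℝ) :=
      one_div_le_one_div_of_le hpos hcardR
    have := mul_le_mul_of_nonneg_right hinv hlog
    linarith

/-- **C9**: `CycloFrobDensity` and `DeuringLower` imply `CrossLower`. -/
theorem crossLower (hCF : CycloFrobDensity) (hD : DeuringLower) : CrossLower := by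
  intro L _ _ _ σ m _ hirr τ hdvd S
  have hm : m.Prime := Fact.out
  haveI : NeZero m := ⟨hm.ne_zero⟩
  haveI : NumberField (CyclotomicField m L) :=
    IsCyclotomicExtension.numberField {m} L (CyclotomicField m L)
  haveI : IsGalois ℚ (CyclotomicField m L) :=
    Gal.isGalois_of_cyclotomic ℚ L (CyclotomicField m L) m
  exact crossLower_aux hCF hD L (CyclotomicField m L) σ m hirr τ hdvd S

end Fermat.Agent.S48.A.Cheb.Cross

end
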