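/-
PROJECT D (S48, Deligne–Serre), PART A, brick A6 / C8 (helper25): DEURING'S REDUCTION, lower bound.

`L / ℚ` finite Galois, `g ∈ Gal(L/ℚ)` of order `n`, `M = L^⟨g⟩`.  If the finite places `q` of `M`
having a prime of `L` above them at which `g` (as a generator of `Gal(L/M)`) is the Frobenius have
logarithmic density `1 / n`, then the rational primes `p ∉ S` whose Frobenius class in `L / ℚ` is
the class of `g` satisfy `∑ p ^ (-s) ≥ (1 / |C(g)|) log (1 / (s - 1)) - C₀` on `(1, 2]`.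

Route: restrict to the places `q` of degree one over primes outside `S` and `disc L` (density
unchanged); such a `q` has norm a prime `p`, and the prime `Q` of `L` above it is unramified over
`ℤ` with `ℤ`-Frobenius `g`, so `FrobClassAt L g p`; the map `q ↦ p` has fibres of size at most
`|C(g)| / n` (`(q, k) ↦ h_q g ^ k` is an injection of `fibre × Fin n` into the centraliser of `g`,
where `Q_q = h_q • Q₀`).
-/
import Mathlib
import Fermat.Agent.S30.Density.PrimeSum
import Fermat.Agent.S30.Density.PrimeSumExtra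
import Fermat.Agent.S30.Density.FrobSetup
import Fermat.Agent.S30.Density.FrobElement
import Fermat.Agent.S30.Density.CyclicExtra
import Fermat.Agent.S30.Density.Frobenius
import Fermat.Agent.S48.A.Cheb.Seams

set_option autoImplicit false

noncomputable section

namespace Fermat.Agent.S48.A.Cheb.Deuring

open NumberField IsDedekindDomain Ideal Filter Topology Asymptotics IntermediateField
open Fermat.Agent.S30.Density Fermat.Agent.S30.Density.ZetaEuler Fermat.Agent.S30.Density.PrimeSum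
open Fermat.Agent.S48.A.Cheb.Seams

open scoped Pointwise

variable {L : Type} [Field L] [NumberField L] [IsGalois ℚ L] (g : L ≃ₐ[ℚ] L)

/-- the set of places of `M = L^⟨g⟩` of the seam `DeuringLower` -/
def frobPlaces : Set (HeightOneSpectrum (𝓞 (FrobSetup.fixM g))) :=
  {q | ∃ Q : Ideal (𝓞 L), Q.IsPrime ∧ Q.LiesOver q.asIdeal ∧
    IsArithFrobAt (𝓞 (FrobSetup.fixM g)) (FrobSetup.sigmaM g) Q}

/-- the good places: degree one, over a prime outside `S` and the discriminant of `L` -/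
def goodPlaces (S : Finset ℕ) : Set (HeightOneSpectrum (𝓞 (FrobSetup.fixM g))) :=
  frobPlaces g ∩ Frobenius.good (FrobSetup.fixM g) (Frobenius.badSet L S)

/-! ### A good place gives a Frobenius class -/

/-- data attached to a good place `q` with a prime `Q` of `L` above it: `Q` lies over the prime
`p = N q`, is unramified over `ℤ`, and `g` is the `ℤ`-Frobenius at `Q`. -/
theorem frob_of_good {S : Finset ℕ} {q : HeightOneSpectrum (𝓞 (FrobSetup.fixM g))}
    (hq1 : (nrm q).Prime) (hq2 : nrm q ∉ Frobenius.badSet L S)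
    (Q : Ideal (𝓞 L)) [hQ : Q.IsPrime] [hQq : Q.LiesOver q.asIdeal]
    (hF : IsArithFrobAt (𝓞 (FrobSetup.fixM g)) (FrobSetup.sigmaM g) Q) :
    Q.LiesOver (span {((nrm q : ℕ) : ℤ)}) ∧ Algebra.IsUnramifiedAt ℤ Q ∧ IsArithFrobAt ℤ g Q := by
  set l := nrm q with hl
  have hql : q.asIdeal.LiesOver (span {(l : ℤ)}) := by
    have := PrimeSum.liesOver_pOf q
    rwa [← PrimeSum.nrm_eq_pOf_of_prime hq1] at this
  have : Q.LiesOver (span {(l : ℤ)}) := Ideal.LiesOver.trans Q q.asIdeal _
  have hdisc := Frobenius.not_dvd_discr_of_not_mem_badSet (L := L) hq1 hq2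
  have hunr : Algebra.IsUnramifiedAt ℤ Q :=
    FrobElement.isUnramifiedAt_of_not_dvd_discr hq1 hdisc Q
  refine ⟨inferInstance, hunr, ?_⟩
  have h1 : IsArithFrobAt (𝓞 (FrobSetup.fixM g)) (FrobSetup.sigmaM g ^ 1) Q := by
    rwa [pow_one]
  have h2 := CyclicExtra.isArithFrobAt_int g 1 Q h1 ?_
  · rwa [pow_one] at h2
  · rw [← Ideal.over_def Q q.asIdeal, ← Ideal.over_def Q (Ideal.span {(l : ℤ)}),
      Int.card_ideal_quot, hl]
    change Nat.card (𝓞 (FrobSetup.fixM g) ⧸ q.asIdeal) = absNorm q.asIdeal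
    rw [Ideal.absNorm_apply, Submodule.cardQuot_apply]

theorem frobClassAt_of_good {S : Finset ℕ} {q : HeightOneSpectrum (𝓞 (FrobSetup.fixM g))}
    (hq : q ∈ goodPlaces g S) : (nrm q).Prime ∧ nrm q ∉ S ∧ FrobClassAt L g (nrm q) := by
  obtain ⟨⟨Q, hQ, hQq, hF⟩, hq1, hq2⟩ := hq
  obtain ⟨h1, h2, h3⟩ := frob_of_good (hQ := hQ) (hQq := hQq) g hq1 hq2 Q hF
  refine ⟨hq1, fun h => hq2 (Finset.mem_union_left _ h), Q, hQ, ?_, h2, h3⟩
  exact FrobElement.natCast_mem_of_liesOver Q (nrm q)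

/-! ### The fibres of `q ↦ N q` -/

/-- **The fibre bound**: good places of the same norm are at most `|C(g)| / ord g`. -/
theorem card_mul_orderOf_le {S : Finset ℕ} (p : ℕ)
    (T : Finset (HeightOneSpectrum (𝓞 (FrobSetup.fixM g))))
    (hT : ∀ q ∈ T, q ∈ goodPlaces g S ∧ nrm q = p) :
    T.card * orderOf g ≤ Nat.card (Subgroup.centralizer ({g} : Set (L ≃ₐ[ℚ] L))) := by
  classical
  rcases T.eq_empty_or_nonempty with rfl | ⟨q₀, hq₀⟩
  · simp
  -- primes above the places of `T`
  have hQ : ∀ q : T, ∃ (Q : Ideal (𝓞 L)) (_ : Q.IsPrime), Q.LiesOver q.1.asIdeal ∧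
      Q.LiesOver (span {(p : ℤ)}) ∧ Algebra.IsUnramifiedAt ℤ Q ∧ IsArithFrobAt ℤ g Q := by
    rintro ⟨q, hq⟩
    obtain ⟨⟨⟨Q, hQ, hQq, hF⟩, hq1, hq2⟩, hqp⟩ := hT q hq
    obtain ⟨h1, h2, h3⟩ := frob_of_good (hQ := hQ) (hQq := hQq) g hq1 hq2 Q hF
    rw [hqp] at h1
    exact ⟨Q, hQ, hQq, h1, h2, h3⟩
  choose Qf hQprime hQover hQp hQunr hQfrob using hQ
  set Q₀ := Qf ⟨q₀, hq₀⟩ with hQ₀
  have := hQprime ⟨q₀, hq₀⟩
  -- every `Qf q` is a translate of `Q₀`
  have hh : ∀ q : T, ∃ h : L ≃ₐ[ℚ] L, Qf q = h • Q₀ := by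
    intro q
    have := hQprime q
    refine Algebra.IsInvariant.exists_smul_of_under_eq ℤ (𝓞 L) (L ≃ₐ[ℚ] L) Q₀ (Qf q) ?_
    rw [← (hQp ⟨q₀, hq₀⟩).over, ← (hQp q).over]
  choose h hh using hh
  -- `h q` centralises `g`
  have hcent : ∀ q : T, h q * g * (h q)⁻¹ = g := by
    intro q
    have := hQprime q
    have := hQunr q
    have h1 : IsArithFrobAt ℤ (h q * g * (h q)⁻¹) (Qf q) := by
      rw [hh q]
      exact (hQfrob ⟨q₀, hq₀⟩).conj (h q)
    have h2 : MulSemiringAction.toAlgHom ℤ (𝓞 L) (h q * g * (h q)⁻¹) =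
        MulSemiringAction.toAlgHom ℤ (𝓞 L) g := by
      refine AlgHom.IsArithFrobAt.eq_of_isUnramifiedAt h1 (hQfrob q) ?_
      intro x hx
      refine mem_nonZeroDivisors_of_ne_zero ?_
      rintro rfl
      exact hx (Qf q).zero_mem
    exact FrobElement.eq_of_forall_smul_eq fun x => by
      have := DFunLike.congr_fun h2 x
      simpa [MulSemiringAction.toAlgHom_apply] using this
  have hgQ₀ : ∀ k : ℕ, (g ^ k) • Q₀ = Q₀ := by
    intro k
    have h1 : g ∈ MulAction.stabilizer (L ≃ₐ[ℚ] L) Q₀ := (hQfrob ⟨q₀, hq₀⟩).mem_stabilizer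
    exact MulAction.mem_stabilizer_iff.mp (Subgroup.pow_mem _ h1 k)
  -- the injection `T × Fin (orderOf g) → C(g)`
  have hmem : ∀ (q : T) (k : ℕ), h q * g ^ k ∈ Subgroup.centralizer ({g} : Set (L ≃ₐ[ℚ] L)) := by
    intro q k
    rw [Subgroup.mem_centralizer_singleton_iff]
    have h1 : h q * g = g * h q := by
      have := hcent q
      calc h q * g = (h q * g * (h q)⁻¹) * h q := by group
        _ = g * h q := by rw [this]
    calc h q * g ^ k * g = h q * (g ^ k * g) := by rw [mul_assoc]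
      _ = h q * (g * g ^ k) := by rw [← pow_succ, ← pow_succ']
      _ = (h q * g) * g ^ k := by rw [mul_assoc]
      _ = (g * h q) * g ^ k := by rw [h1]
      _ = g * (h q * g ^ k) := by rw [mul_assoc]
  let F : T × Fin (orderOf g) → Subgroup.centralizer ({g} : Set (L ≃ₐ[ℚ] L)) :=
    fun x => ⟨h x.1 * g ^ (x.2 : ℕ), hmem x.1 x.2⟩
  have hFinj : Function.Injective F := by
    rintro ⟨q, k⟩ ⟨q', k'⟩ hqq
    have h1 : h q * g ^ (k : ℕ) = h q' * g ^ (k' : ℕ) := congrArg Subtype.val hqq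
    have h2 : Qf q = Qf q' := by
      rw [hh q, hh q', ← hgQ₀ k, ← mul_smul, h1, mul_smul, hgQ₀ k', hgQ₀ k]
    have h3 : q = q' := by
      apply Subtype.ext
      apply HeightOneSpectrum.ext
      rw [(hQover q).over, (hQover q').over, h2]
    subst h3
    have h4 : g ^ (k : ℕ) = g ^ (k' : ℕ) := mul_left_cancel h1
    have h5 : (k : ℕ) = k' :=
      pow_injOn_Iio_orderOf (Set.mem_Iio.mpr k.2) (Set.mem_Iio.mpr k'.2) h4
    rw [Fin.ext h5]
  have := Nat.card_le_card_of_injective F hFinj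
  simpa [Nat.card_prod] using this

/-! ### The main theorem -/

theorem rpow_neg_eq_one_div (p : ℕ) (s : ℝ) : ((p : ℝ)) ^ (-s) = 1 / (p : ℝ) ^ s := by
  rw [Real.rpow_neg (Nat.cast_nonneg p), one_div]

/-- comparison of a finite sum over good places with the sum over the primes below -/
theorem sum_pterm_le {S : Finset ℕ} (s : ℝ)
    (T : Finset (HeightOneSpectrum (𝓞 (FrobSetup.fixM g))))
    (hT : ∀ q ∈ T, q ∈ goodPlaces g S) :
    (orderOf g : ℝ) * ∑ q ∈ T, pterm s q ≤
      (Nat.card (Subgroup.centralizer ({g} : Set (L ≃ₐ[ℚ] L))) : ℝ) *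
        ∑ p ∈ T.image (fun q => nrm q), 1 / (p : ℝ) ^ s := by
  classical
  have h1 : ∑ q ∈ T, pterm s q =
      ∑ p ∈ T.image (fun q => nrm q), ((T.filter fun q => nrm q = p).card : ℝ) * (1 / (p : ℝ) ^ s) := by
    rw [Finset.sum_image' (f := fun p : ℕ => ((T.filter fun q => nrm q = p).card : ℝ) *
      (1 / (p : ℝ) ^ s)) (g := fun q => nrm q) (h := fun q => pterm s q)]
    intro q _
    have : ∀ q' ∈ T.filter (fun q' => nrm q' = nrm q), pterm s q' = 1 / ((nrm q : ℕ) : ℝ) ^ s := by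
      intro q' hq'
      rw [pterm, (Finset.mem_filter.mp hq').2, rpow_neg_eq_one_div]
    rw [Finset.sum_congr rfl this, Finset.sum_const, nsmul_eq_mul]
  rw [h1, Finset.mul_sum, Finset.mul_sum]
  refine Finset.sum_le_sum fun p _ => ?_
  have h2 := card_mul_orderOf_le g (S := S) p (T.filter fun q => nrm q = p) (by
    intro q hq
    exact ⟨hT q (Finset.mem_filter.mp hq).1, (Finset.mem_filter.mp hq).2⟩)
  have h3 : (orderOf g : ℝ) * ((T.filter fun q => nrm q = p).card : ℝ) ≤
      (Nat.card (Subgroup.centralizer ({g} : Set (L ≃ₐ[ℚ] L))) : ℝ) := by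
    rw [mul_comm]
    exact_mod_cast h2
  have h4 : (0 : ℝ) ≤ 1 / (p : ℝ) ^ s := by positivity
  calc (orderOf g : ℝ) * (((T.filter fun q => nrm q = p).card : ℝ) * (1 / (p : ℝ) ^ s))
      = ((orderOf g : ℝ) * ((T.filter fun q => nrm q = p).card : ℝ)) * (1 / (p : ℝ) ^ s) := by ring
    _ ≤ _ := mul_le_mul_of_nonneg_right h3 h4

/-- the good places still have logarithmic density `1 / ord g` -/
theorem hasLogDensity_goodPlaces (S : Finset ℕ)
    (hA : HasLogDensity (FrobSetup.fixM g) (frobPlaces g) (1 / (orderOf g : ℝ))) :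
    HasLogDensity (FrobSetup.fixM g) (goodPlaces g S) (1 / (orderOf g : ℝ)) := by
  have h1 : HasLogDensity (FrobSetup.fixM g) (degreeOne (FrobSetup.fixM g))ᶜ 0 :=
    HasLogDensity.of_bounded fun s hs => setSum_compl_degreeOne_le _ hs.le
  have h2 := hA.inter_of_compl h1
  have h3 : HasLogDensity (FrobSetup.fixM g)
      {q : HeightOneSpectrum (𝓞 (FrobSetup.fixM g)) | nrm q ∈ Frobenius.badSet L S} 0 :=
    HasLogDensity.of_finite (Frobenius.finite_nrm_mem _ _)
  have h4 := h2.diff_zero h3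
  convert h4 using 1
  ext q
  constructor
  · rintro ⟨hq1, hq2, hq3⟩
    exact ⟨⟨hq1, hq2⟩, hq3⟩
  · rintro ⟨⟨hq1, hq2⟩, hq3⟩
    exact ⟨hq1, hq2, hq3⟩

/-- **C8: Deuring's reduction, lower bound.** -/
theorem deuringLower : DeuringLower := by
  intro L _ _ _ g S hA
  classical
  have hgood := hasLogDensity_goodPlaces g S hA
  -- unpack the `O(1)`
  obtain ⟨c, hc⟩ := hgood.bound
  rw [eventually_nhdsWithin_iff] at hc
  obtain ⟨δ, hδ, hball⟩ := Metric.eventually_nhds_iff.mp hc
  set n : ℝ := (orderOf g : ℝ) with hn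
  set N : ℝ := (Nat.card (Subgroup.centralizer ({g} : Set (L ≃ₐ[ℚ] L))) : ℝ) with hN
  have hnpos : 0 < n := by
    rw [hn]
    exact_mod_cast orderOf_pos g
  have hNpos : 0 < N := by
    rw [hN]
    exact_mod_cast Nat.card_pos
  refine ⟨(|c| + 1) * n / N + (1 / N) * |Real.log (1 / δ)|, fun s hs1 hs2 => ?_⟩
  have hC1 : 0 ≤ (|c| + 1) * n / N := by positivity
  have hC2 : 0 ≤ (1 / N) * |Real.log (1 / δ)| := by positivity
  by_cases hsδ : s < 1 + δ
  · -- near `1`: use the density
    have hdist : dist s 1 < δ := by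
      rw [Real.dist_eq, abs_lt]
      constructor <;> linarith
    have hb := hball hdist (Set.mem_Ioi.mpr hs1)
    simp only [norm_one, mul_one, Real.norm_eq_abs] at hb
    have hb' : 1 / n * Real.log (1 / (s - 1)) - |c| ≤
        setSum (FrobSetup.fixM g) (goodPlaces g S) s := by
      have := (abs_le.mp (hb.trans (le_abs_self c))).1
      linarith
    -- a finite partial sum within `1` of the sum
    have hsum := PrimeSum.summable_set (FrobSetup.fixM g) (goodPlaces g S) hs1
    obtain ⟨u, hu⟩ : ∃ u : Finset (goodPlaces g S),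
        setSum (FrobSetup.fixM g) (goodPlaces g S) s - 1 < ∑ v ∈ u, pterm s v.1 := by
      have := hsum.hasSum.eventually (lt_mem_nhds (sub_one_lt _))
      exact this.exists
    let T : Finset (HeightOneSpectrum (𝓞 (FrobSetup.fixM g))) :=
      u.map (Function.Embedding.subtype _)
    have hTsum : ∑ q ∈ T, pterm s q = ∑ v ∈ u, pterm s v.1 := by
      rw [Finset.sum_map]
      rfl
    have hTmem : ∀ q ∈ T, q ∈ goodPlaces g S := by
      intro q hq
      rw [Finset.mem_map] at hq
      obtain ⟨w, _, rfl⟩ := hq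
      exact w.2
    refine ⟨T.image (fun q => nrm q), ?_, ?_⟩
    · intro p hp
      obtain ⟨q, hq, rfl⟩ := Finset.mem_image.mp hp
      exact frobClassAt_of_good g (hTmem q hq)
    · have hcmp := sum_pterm_le g s T hTmem
      rw [hTsum] at hcmp
      -- `n * (1/n log - |c| - 1) ≤ n * ∑_u ≤ N * ∑_F`
      have h5 : n * (1 / n * Real.log (1 / (s - 1)) - |c| - 1) ≤
          N * ∑ p ∈ T.image (fun q => nrm q), 1 / (p : ℝ) ^ s := by
        refine le_trans (mul_le_mul_of_nonneg_left ?_ hnpos.le) hcmp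
        linarith
      have h6 : n * (1 / n * Real.log (1 / (s - 1)) - |c| - 1) =
          Real.log (1 / (s - 1)) - (|c| + 1) * n := by
        field_simp
        ring
      rw [h6] at h5
      have h7 : (Real.log (1 / (s - 1)) - (|c| + 1) * n) / N ≤
          ∑ p ∈ T.image (fun q => nrm q), 1 / (p : ℝ) ^ s := by
        rw [div_le_iff₀ hNpos]
        linarith
      have h8 : 1 / N * Real.log (1 / (s - 1)) -
          ((|c| + 1) * n / N + (1 / N) * |Real.log (1 / δ)|) ≤
          (Real.log (1 / (s - 1)) - (|c| + 1) * n) / N := by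
        have : (Real.log (1 / (s - 1)) - (|c| + 1) * n) / N =
            1 / N * Real.log (1 / (s - 1)) - (|c| + 1) * n / N := by ring
        rw [this]
        linarith
      exact h8.trans h7
  · -- away from `1`: the empty set
    refine ⟨∅, by simp, ?_⟩
    simp only [Finset.sum_empty]
    have hs' : δ ≤ s - 1 := by linarith [not_lt.mp hsδ]
    have hpos : 0 < s - 1 := by linarith
    have hlog : Real.log (1 / (s - 1)) ≤ Real.log (1 / δ) := by
      apply Real.log_le_log (by positivity)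
      exact one_div_le_one_div_of_le hδ hs'
    have h1 : 1 / N * Real.log (1 / (s - 1)) ≤ 1 / N * |Real.log (1 / δ)| := by
      apply mul_le_mul_of_nonneg_left (hlog.trans (le_abs_self _))
      positivity
    linarith

end Fermat.Agent.S48.A.Cheb.Deuring

end
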