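import Mathlib
import Fermat.Agent.S48.A.Cheb.Seams
import Fermat.Agent.S48.A.Defs
import Fermat.Agent.S56.Cheb.Dict
import Fermat.Agent.S30.Density.Frobenius

/-!
# PROJECT D (S48), part A, brick A6 = CHEBOTAREV, brick C11: the dictionary

`chebLower_of_nfChebLower : Seams.NFChebLower → Seams.ChebLower`.

From the number field form of Chebotarev's theorem (one conjugacy class of a finite Galois
extension of `ℚ`, Frobenius at SOME unramified prime above `p`) to the form in the Prelude's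
language consumed by the assembly (a finite quotient `ρ` of `G_ℚ`, a conjugation-closed set `C`,
EVERY place of `ℚ̄` above `p` and EVERY Frobenius element there).

* `ElemFrob`, `elemFrob_of_frobClassAt` : the Frobenius datum of `Seams.FrobClassAt` in
  element-level terms (no `NumberField` instance, no `Algebra.IsUnramifiedAt` in the statement);
* `NFChebLowerAlg`, `nfChebLowerAlg_of_nfChebLower` : transport to an arbitrary `ℚ`-algebra
  structure (needed for `↥L'`, `L'` an intermediate field of `ℚ̄`);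
* `forall_place`, `isConj_of_elemFrob` : all places and all Frobenius elements above `p`;
  the Frobenius class is well defined;
* `card_class_mul_card_centralizer`, `sum_one_div_card_centralizer`, `union_bound` :
  the class equation `∑_{c ⊆ T} 1 / |C(g_c)| = |T| / |Γ|` and the disjoint union of the sets
  of primes belonging to the classes inside `T`;
* `ncard_preimage_div` : `|f⁻¹ C| / |Γ| = |C| / |G|` for a surjective homomorphism `f : Γ → G`.
-/

set_option autoImplicit false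
set_option linter.unusedSectionVars false
set_option linter.style.haveILetI false

noncomputable section

namespace Fermat.Agent.S48.A.Cheb.Dict

open NumberField Ideal
open Fermat.Agent.S30.Density

/-- The element-level Frobenius datum. -/
def ElemFrob (L : Type) [Field L] [Algebra ℚ L] (σ : L ≃ₐ[ℚ] L) (p : ℕ) : Prop :=
  ∃ Q : Ideal (𝓞 L), Q.IsMaximal ∧ ((p : 𝓞 L) ∈ Q) ∧
    (∀ x : 𝓞 L, ∃ y ∈ Q, σ (x : L) - (x : L) ^ p = (y : L)) ∧
    (∀ ρ : L ≃ₐ[ℚ] L, (∀ x : 𝓞 L, ∃ y ∈ Q, ρ (x : L) - (x : L) = (y : L)) → ρ = 1)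

theorem elemFrob_of_frobClassAt (L : Type) [Field L] [NumberField L] [IsGalois ℚ L]
    (σ : L ≃ₐ[ℚ] L) {p : ℕ} (hp : p.Prime) (h : Seams.FrobClassAt L σ p) : ElemFrob L σ p := by
  obtain ⟨Q, hQ, hpQ, hunr, hF⟩ := h
  haveI := hQ
  haveI : Fact p.Prime := ⟨hp⟩
  haveI hmax : (span {(p : ℤ)}).IsMaximal := Int.ideal_span_isMaximal_of_prime p
  have h1 : Q.under ℤ = span {(p : ℤ)} := by
    symm
    apply hmax.eq_of_le (Ideal.IsPrime.under ℤ Q).ne_top
    rw [Ideal.span_singleton_le_iff_mem, Ideal.under_def, Ideal.mem_comap]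
    simpa using hpQ
  haveI hQl : Q.LiesOver (span {(p : ℤ)}) := ⟨h1.symm⟩
  have hQne : Q ≠ ⊥ := by
    rintro rfl
    have h0 : (p : 𝓞 L) = 0 := by simpa using hpQ
    exact (Nat.cast_ne_zero.mpr hp.ne_zero) h0
  refine ⟨Q, hQ.isMaximal hQne, hpQ, ?_, ?_⟩
  · intro x
    have h3 := (Frobenius.isArithFrobAt_iff Q p σ).mp hF x
    exact ⟨_, h3, rfl⟩
  · intro ρ hρ
    have he : (span {(p : ℤ)}).ramificationIdxIn (𝓞 L) = 1 := by
      rw [Ideal.ramificationIdxIn_eq_ramificationIdx (span {(p : ℤ)}) Q Gal(L/ℚ)]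
      exact Ideal.ramificationIdx_eq_one Q ℤ
    haveI : (span {(p : ℤ)}).IsPrime := hmax.isPrime
    refine CyclicFrob.eq_one_of_forall_sub_mem (G := Gal(L/ℚ)) (span {(p : ℤ)}) Q he ?_
    intro x
    obtain ⟨y, hy, hxy⟩ := hρ x
    have : ρ • x - x = y := RingOfIntegers.ext hxy
    rw [this]
    exact hy

/-- `NFChebLower` for an arbitrary `ℚ`-algebra structure, element-level. -/
def NFChebLowerAlg : Prop :=
  ∀ (L : Type) [Field L] [Algebra ℚ L] [FiniteDimensional ℚ L] [IsGalois ℚ L]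
    (σ : L ≃ₐ[ℚ] L) (S : Finset ℕ) (ε : ℝ), 0 < ε →
    ∃ C0 : ℝ, ∀ s : ℝ, 1 < s → s ≤ 2 → ∃ F : Finset ℕ,
      (∀ p ∈ F, p.Prime ∧ p ∉ S ∧ ElemFrob L σ p) ∧
      (1 / (Nat.card (Subgroup.centralizer {σ}) : ℝ) - ε) * Real.log (1 / (s - 1)) - C0 ≤
        ∑ p ∈ F, 1 / (p : ℝ) ^ s

theorem nfChebLowerAlg_of_nfChebLower (h : Seams.NFChebLower) : NFChebLowerAlg := by
  intro L _ instA _ _ σ S ε hε
  haveI : CharZero L := algebraRat.charZero L
  obtain rfl : instA = DivisionRing.toRatAlgebra := Subsingleton.elim _ _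
  haveI : NumberField L := { to_charZero := inferInstance, to_finiteDimensional := inferInstance }
  obtain ⟨C0, hC0⟩ := h L σ S ε hε
  refine ⟨C0, fun s hs1 hs2 => ?_⟩
  obtain ⟨F, hF, hsum⟩ := hC0 s hs1 hs2
  exact ⟨F, fun p hp => ⟨(hF p hp).1, (hF p hp).2.1,
    elemFrob_of_frobClassAt L σ (hF p hp).1 (hF p hp).2.2⟩, hsum⟩

section Place

local notation "Qb" => AlgebraicClosure ℚ

open Fermat.Agent.S56.Cheb.Dict Fermat.Agent.S30.Density.Bridge Fermat.Agent.CFT.LocalBridge
  Fermat.Agent.Lib.FrobeniusExists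
open scoped Pointwise

theorem forall_place (L' : IntermediateField ℚ Qb) [FiniteDimensional ℚ L'] [IsGalois ℚ L']
    (g : L' ≃ₐ[ℚ] L') {p : ℕ} (hp : p.Prime) (h : ElemFrob L' g p) :
    ∀ P : ValuationSubring Qb, P.LiesOverPrime p →
      (∀ σ ∈ P.inertiaSubgroupIn ℚ, res L' σ = 1) ∧
      ∀ φ : Qb ≃ₐ[ℚ] Qb, P.IsFrobeniusAt φ p →
        ∃ τ : Qb ≃ₐ[ℚ] Qb, res L' φ = res L' τ * g * (res L' τ)⁻¹ := by
  obtain ⟨Q, hQ, hpQ, hfrob, hinert⟩ := h
  obtain ⟨A, hA⟩ := exists_valuationSubring_of_ideal L' Q hQ.ne_top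
  have hAl : A.LiesOverPrime p := by
    have := hA _ hpQ
    rw [incl_apply] at this
    show (p : Qb) ∈ A.nonunits
    simpa using this
  intro P hP
  obtain ⟨τ, rfl⟩ := exists_smul_eq_of_liesOverPrime hp hAl hP
  refine ⟨fun σ hσ => ?_, fun φ hφ => ⟨τ, ?_⟩⟩
  · rw [mem_inertiaSubgroupIn_smul_iff] at hσ
    have h1 : res L' (τ⁻¹ * σ * τ) = 1 := res_eq_one_of_mem_inertia hQ hA hinert hσ
    rw [map_mul, map_mul, map_inv] at h1
    have := congrArg (fun u => res L' τ * u * (res L' τ)⁻¹) h1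
    simpa [mul_assoc] using this
  · rw [isFrobeniusAt_smul_iff] at hφ
    have h1 : res L' (τ⁻¹ * φ * τ) = g := res_eq_of_isFrobeniusAt hQ hA hinert hp hfrob hφ
    rw [map_mul, map_mul, map_inv] at h1
    rw [← h1]
    group

theorem isConj_of_elemFrob (L' : IntermediateField ℚ Qb) [FiniteDimensional ℚ L'] [IsGalois ℚ L']
    (g h : L' ≃ₐ[ℚ] L') {p : ℕ} (hp : p.Prime) (hg : ElemFrob L' g p) (hh : ElemFrob L' h p) :
    IsConj g h := by
  obtain ⟨A, φ, hA, hφ⟩ := exists_valuationSubring_isFrobeniusAt p hp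
  obtain ⟨τ, h1⟩ := (forall_place L' g hp hg A hA).2 φ hφ
  obtain ⟨τ', h2⟩ := (forall_place L' h hp hh A hA).2 φ hφ
  rw [isConj_iff]
  refine ⟨(res L' τ')⁻¹ * res L' τ, ?_⟩
  have h3 : res L' τ * g * (res L' τ)⁻¹ = res L' τ' * h * (res L' τ')⁻¹ := by rw [← h1, ← h2]
  have h4 : h = (res L' τ')⁻¹ * (res L' τ * g * (res L' τ)⁻¹) * res L' τ' := by
    rw [h3]; group
  rw [h4]; group

end Place

section GroupCount

variable {Γ : Type*} [Group Γ] [Finite Γ]

/-- orbit–stabiliser for conjugation: `|cl(g)| · |C(g)| = |Γ|`. -/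
theorem card_class_mul_card_centralizer (g : Γ) :
    Nat.card {h : Γ // ConjClasses.mk h = ConjClasses.mk g} *
      Nat.card (Subgroup.centralizer {g}) = Nat.card Γ := by
  rw [Subgroup.nat_card_centralizer_nat_card_stabilizer]
  have h1 : Nat.card {h : Γ // ConjClasses.mk h = ConjClasses.mk g} =
      Nat.card (MulAction.orbit (ConjAct Γ) g) := by
    apply Nat.card_congr
    refine Equiv.subtypeEquivRight (fun h => ?_)
    rw [ConjAct.orbit_eq_carrier_conjClasses, ConjClasses.mem_carrier_iff_mk_eq]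
  rw [h1, Nat.card_congr (MulAction.orbitEquivQuotientStabilizer (ConjAct Γ) g)]
  have h2 := Subgroup.card_eq_card_quotient_mul_card_subgroup (MulAction.stabilizer (ConjAct Γ) g)
  rw [← h2]
  exact Nat.card_congr ConjAct.toConjAct.toEquiv.symm

theorem mem_of_isConj {T : Set Γ} (hT : ∀ g h, g ∈ T → h * g * h⁻¹ ∈ T) {g h : Γ}
    (hc : IsConj g h) (hg : g ∈ T) : h ∈ T := by
  obtain ⟨c, rfl⟩ := isConj_iff.mp hc
  exact hT g c hg

theorem mk_out (c : ConjClasses Γ) : ConjClasses.mk (Quotient.out c) = c := Quotient.out_eq c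

/-- `∑_{classes c ⊆ T} 1 / |C(g_c)| = |T| / |Γ|`. -/
theorem sum_one_div_card_centralizer (T : Set Γ) (hT : ∀ g h, g ∈ T → h * g * h⁻¹ ∈ T)
    (cls : Finset (ConjClasses Γ)) (hcls : ∀ c, c ∈ cls ↔ Quotient.out c ∈ T) :
    ∑ c ∈ cls, (1 / (Nat.card (Subgroup.centralizer {Quotient.out c}) : ℝ)) =
      (T.ncard : ℝ) / (Nat.card Γ : ℝ) := by
  classical
  haveI := Fintype.ofFinite Γ
  have hΓ : (Nat.card Γ : ℝ) ≠ 0 := by
    have : 0 < Nat.card Γ := Nat.card_pos
    positivity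
  -- each term
  have hterm : ∀ c : ConjClasses Γ,
      (1 / (Nat.card (Subgroup.centralizer {Quotient.out c}) : ℝ)) =
        (Nat.card {h : Γ // ConjClasses.mk h = c} : ℝ) / (Nat.card Γ : ℝ) := by
    intro c
    have h1 := card_class_mul_card_centralizer (Quotient.out c)
    rw [mk_out] at h1
    have h2 : (Nat.card (Subgroup.centralizer {Quotient.out c}) : ℝ) ≠ 0 := by
      have : 0 < Nat.card (Subgroup.centralizer {Quotient.out c}) := Nat.card_pos
      positivity
    rw [eq_div_iff hΓ, ← h1]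
    push_cast
    field_simp
  rw [Finset.sum_congr rfl (fun c _ => hterm c), ← Finset.sum_div]
  congr 1
  -- the count
  have hT' : ∀ h : Γ, h ∈ T ↔ ConjClasses.mk h ∈ cls := by
    intro h
    rw [hcls]
    have hc : IsConj (Quotient.out (ConjClasses.mk h)) h := by
      rw [← ConjClasses.mk_eq_mk_iff_isConj, mk_out]
    exact ⟨fun hh => mem_of_isConj hT hc.symm hh, fun hh => mem_of_isConj hT hc hh⟩
  have h3 : T.ncard = (Finset.univ.filter (fun h : Γ => h ∈ T)).card := by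
    rw [← Set.ncard_coe_finset]
    congr 1
    ext h
    simp
  rw [h3, Finset.card_eq_sum_card_fiberwise (f := ConjClasses.mk) (t := cls)
    (fun h hh => (hT' h).mp (Finset.mem_filter.mp hh).2)]
  push_cast
  refine Finset.sum_congr rfl (fun c hc => ?_)
  congr 1
  rw [Nat.card_eq_fintype_card, Fintype.card_subtype]
  congr 1
  ext h
  simp only [Finset.mem_filter, Finset.mem_univ, true_and]
  refine ⟨fun hh => ⟨?_, hh⟩, fun hh => hh.2⟩
  rw [hT', hh]
  exact hc

/-- Union over the conjugacy classes contained in a conjugation-closed set `T`. -/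
theorem union_bound (Good : Γ → ℕ → Prop)
    (hNF : ∀ (g : Γ) (ε : ℝ), 0 < ε → ∃ C0 : ℝ, ∀ s : ℝ, 1 < s → s ≤ 2 → ∃ F : Finset ℕ,
      (∀ p ∈ F, Good g p) ∧
      (1 / (Nat.card (Subgroup.centralizer {g}) : ℝ) - ε) * Real.log (1 / (s - 1)) - C0 ≤
        ∑ p ∈ F, 1 / (p : ℝ) ^ s)
    (huniq : ∀ g h p, Good g p → Good h p → IsConj g h)
    (T : Set Γ) (hT : ∀ g h, g ∈ T → h * g * h⁻¹ ∈ T) (ε : ℝ) (hε : 0 < ε) :
    ∃ C0 : ℝ, ∀ s : ℝ, 1 < s → s ≤ 2 → ∃ F : Finset ℕ,
      (∀ p ∈ F, ∃ g ∈ T, Good g p) ∧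
      ((T.ncard : ℝ) / (Nat.card Γ : ℝ) - ε) * Real.log (1 / (s - 1)) - C0 ≤
        ∑ p ∈ F, 1 / (p : ℝ) ^ s := by
  classical
  haveI := Fintype.ofFinite Γ
  set cls : Finset (ConjClasses Γ) := Finset.univ.filter (fun c => Quotient.out c ∈ T) with hcls
  have hmem : ∀ c, c ∈ cls ↔ Quotient.out c ∈ T := fun c => by
    rw [hcls, Finset.mem_filter]; simp
  set ε' : ℝ := ε / ((cls.card : ℝ) + 1) with hε'def
  have hε' : 0 < ε' := by positivity
  have hεle : (cls.card : ℝ) * ε' ≤ ε := by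
    rw [hε'def, mul_div_assoc', div_le_iff₀ (by positivity)]
    nlinarith [hε.le, (Nat.cast_nonneg cls.card : (0 : ℝ) ≤ cls.card)]
  choose C0 hC0 using fun c : ConjClasses Γ => hNF (Quotient.out c) ε' hε'
  choose F hF hsum using hC0
  refine ⟨∑ c ∈ cls, C0 c, fun s hs1 hs2 =>
    ⟨cls.biUnion (fun c => F c s hs1 hs2), ?_, ?_⟩⟩
  · intro p hp
    obtain ⟨c, hc, hpc⟩ := Finset.mem_biUnion.mp hp
    exact ⟨Quotient.out c, (hmem c).mp hc, hF c s hs1 hs2 p hpc⟩
  · have hdisj : Set.PairwiseDisjoint (cls : Set (ConjClasses Γ)) (fun c => F c s hs1 hs2) := by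
      intro c _ c' _ hne
      rw [Function.onFun, Finset.disjoint_left]
      intro p hp hp'
      apply hne
      have := huniq _ _ p (hF c s hs1 hs2 p hp) (hF c' s hs1 hs2 p hp')
      rw [← ConjClasses.mk_eq_mk_iff_isConj, mk_out, mk_out] at this
      exact this
    rw [Finset.sum_biUnion hdisj]
    have hlog : 0 ≤ Real.log (1 / (s - 1)) := by
      apply Real.log_nonneg
      rw [le_div_iff₀ (by linarith)]
      linarith
    have h1 : ∑ c ∈ cls, ((1 / (Nat.card (Subgroup.centralizer {Quotient.out c}) : ℝ) - ε') *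
        Real.log (1 / (s - 1)) - C0 c) ≤ ∑ c ∈ cls, ∑ p ∈ F c s hs1 hs2, 1 / (p : ℝ) ^ s :=
      Finset.sum_le_sum (fun c _ => hsum c s hs1 hs2)
    refine le_trans ?_ h1
    rw [Finset.sum_sub_distrib, ← Finset.sum_mul, Finset.sum_sub_distrib,
      sum_one_div_card_centralizer T hT cls hmem, Finset.sum_const, nsmul_eq_mul]
    have h2 : ((T.ncard : ℝ) / (Nat.card Γ : ℝ) - ε) * Real.log (1 / (s - 1)) ≤
        ((T.ncard : ℝ) / (Nat.card Γ : ℝ) - (cls.card : ℝ) * ε') * Real.log (1 / (s - 1)) :=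
      mul_le_mul_of_nonneg_right (by linarith) hlog
    linarith

end GroupCount

section Preimage

variable {Γ G : Type*} [Group Γ] [Group G]

/-- The preimage of a set under a surjective homomorphism is a product with the kernel. -/
def preimageEquiv (f : Γ →* G) (hf : Function.Surjective f) (C : Set G) :
    (C × f.ker) ≃ (f ⁻¹' C) where
  toFun x := ⟨Function.surjInv hf x.1.1 * x.2.1, by
    rw [Set.mem_preimage, map_mul, Function.surjInv_eq hf, MonoidHom.mem_ker.mp x.2.2, mul_one]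
    exact x.1.2⟩
  invFun x := ⟨⟨f x.1, x.2⟩, ⟨(Function.surjInv hf (f x.1))⁻¹ * x.1, by
    rw [MonoidHom.mem_ker, map_mul, map_inv, Function.surjInv_eq hf, inv_mul_cancel]⟩⟩
  left_inv x := by
    obtain ⟨⟨c, hc⟩, ⟨n, hn⟩⟩ := x
    have h1 : f (Function.surjInv hf c * n) = c := by
      rw [map_mul, Function.surjInv_eq hf, MonoidHom.mem_ker.mp hn, mul_one]
    ext
    · exact h1
    · show (Function.surjInv hf (f (Function.surjInv hf c * n)))⁻¹ * (Function.surjInv hf c * n) = n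
      rw [h1, inv_mul_cancel_left]
  right_inv x := by
    obtain ⟨x, hx⟩ := x
    ext
    show Function.surjInv hf (f x) * ((Function.surjInv hf (f x))⁻¹ * x) = x
    rw [mul_inv_cancel_left]

theorem ncard_preimage (f : Γ →* G) (hf : Function.Surjective f) (C : Set G) :
    (f ⁻¹' C).ncard = C.ncard * Nat.card f.ker := by
  rw [← Nat.card_coe_set_eq, ← Nat.card_coe_set_eq, ← Nat.card_prod]
  exact (Nat.card_congr (preimageEquiv f hf C)).symm

theorem ncard_preimage_div [Finite Γ] (f : Γ →* G) (hf : Function.Surjective f) (C : Set G) :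
    ((f ⁻¹' C).ncard : ℝ) / (Nat.card Γ : ℝ) = (C.ncard : ℝ) / (Nat.card G : ℝ) := by
  haveI : Finite G := Finite.of_surjective f hf
  have h1 := ncard_preimage f hf C
  have h2 := ncard_preimage f hf Set.univ
  rw [Set.preimage_univ, Set.ncard_univ, Set.ncard_univ] at h2
  have hk : (Nat.card f.ker : ℝ) ≠ 0 := by
    have : 0 < Nat.card f.ker := Nat.card_pos
    positivity
  have hG : (Nat.card G : ℝ) ≠ 0 := by
    have : 0 < Nat.card G := Nat.card_pos
    positivity
  rw [h1, h2]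
  push_cast
  field_simp

end Preimage

section Main

local notation "Qb" => AlgebraicClosure ℚ

open Fermat.Agent.S56.Cheb.Dict

/-- **(C11)** Chebotarev's lower bound in the Prelude's language from the number field form. -/
theorem chebLower_of_nfChebLower (hNF : Seams.NFChebLower) : Seams.ChebLower := by
  intro G _ _ ρ hfin hsurj S C hC ε hε
  obtain ⟨L, hLfin, hL⟩ := hfin
  classical
  -- the normal closure
  set L' : IntermediateField ℚ Qb := IntermediateField.normalClosure ℚ L Qb with hL'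
  haveI : Normal ℚ Qb := IsAlgClosure.normal ℚ Qb
  haveI : Normal ℚ L' := normalClosure.normal ℚ L Qb
  haveI : FiniteDimensional ℚ L' := normalClosure.is_finiteDimensional ℚ L Qb
  haveI : IsGalois ℚ L' := ⟨⟩
  have hLL' : L ≤ L' := IntermediateField.le_normalClosure L
  -- `ρ` factors through the restriction to `L'`
  have hker : (res L').ker ≤ ρ.ker := by
    intro σ hσ
    rw [MonoidHom.mem_ker] at hσ ⊢
    refine hL σ (fun x hx => ?_)
    have h1 : res L' σ = res L' 1 := by rw [hσ, map_one]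
    have := (res_eq_iff L' σ 1).mp h1 x (hLL' hx)
    simpa using this
  have hsurjres : Function.Surjective (res L') := AlgEquiv.restrictNormalHom_surjective Qb
  set ρb : (L' ≃ₐ[ℚ] L') →* G := (res L').liftOfSurjective hsurjres ⟨ρ, hker⟩ with hρbdef
  have hρb : ∀ σ, ρb (res L' σ) = ρ σ := fun σ =>
    (res L').liftOfRightInverse_comp_apply _ (Function.rightInverse_surjInv hsurjres) ⟨ρ, hker⟩ σ
  have hρbsurj : Function.Surjective ρb := by
    intro x
    obtain ⟨σ, rfl⟩ := hsurj x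
    exact ⟨res L' σ, hρb σ⟩
  -- the union over the classes inside the preimage of `C`
  have hT : ∀ g h : L' ≃ₐ[ℚ] L', g ∈ ρb ⁻¹' C → h * g * h⁻¹ ∈ ρb ⁻¹' C := by
    intro g h hg
    rw [Set.mem_preimage, map_mul, map_mul, map_inv]
    exact hC _ _ hg
  obtain ⟨C0, hC0⟩ := union_bound (Γ := L' ≃ₐ[ℚ] L')
    (fun g p => p.Prime ∧ p ∉ S ∧ ElemFrob L' g p)
    (fun g ε hε => nfChebLowerAlg_of_nfChebLower hNF L' g S ε hε)
    (fun g h p hg hh => isConj_of_elemFrob L' g h hg.1 hg.2.2 hh.2.2)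
    (ρb ⁻¹' C) hT ε hε
  refine ⟨C0, fun s hs1 hs2 => ?_⟩
  obtain ⟨F, hF, hsum⟩ := hC0 s hs1 hs2
  refine ⟨F, fun p hp => ?_, ?_⟩
  · obtain ⟨g, hgT, hpp, hpS, hg⟩ := hF p hp
    refine ⟨hpp, hpS, fun A hA => ?_⟩
    obtain ⟨h1, h2⟩ := forall_place L' g hpp hg A hA
    refine ⟨fun σ hσ => ?_, fun σ hσ => ?_⟩
    · rw [← hρb σ, h1 σ hσ, map_one]
    · obtain ⟨τ, hτ⟩ := h2 σ hσ
      rw [← hρb σ, hτ, map_mul, map_mul, map_inv]
      exact hC _ _ hgT
  · rw [ncard_preimage_div ρb hρbsurj C] at hsum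
    exact hsum

/-- The same, with the target spelled as `Defs.ChebLower` (the two literals are definitionally
equal; this is the name the assembly A5b consumes). -/
theorem defsChebLower_of_nfChebLower (hNF : Seams.NFChebLower) : Fermat.Agent.S48.A.ChebLower :=
  chebLower_of_nfChebLower hNF

end Main

end Fermat.Agent.S48.A.Cheb.Dict
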