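import Mathlib
import Fermat.Agent.S48.A.Cheb.Seams

/-!
# PROJECT D (S48), A6 = Chebotarev, brick C6: `PrimeCharSumBounded → NormResidueDensity`

Orthogonality of the Dirichlet characters mod `m`: for a unit `b` mod `m`
`φ(m) · ∑_{N v = b} N v ^ (-s) = ∑_χ χ(b)⁻¹ P_χ(s)`, `P_χ(s) = ∑_v χ(N v) N v ^ (-s)`.
The characters with `χ ∘ N` non-trivial contribute `O(1)` (the hypothesis), the others contribute
`∑_{v ∤ m} N v ^ (-s) = log (1/(s-1)) + O(1)` each when `b` lies in the group `H` generated by the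
norm residues; so all classes of `H` have the same logarithmic density `c`, and `|H| c = 1`
because the classes of `H` exhaust the places prime to `m`.
-/

set_option autoImplicit false
set_option linter.style.haveILetI false

noncomputable section

namespace Fermat.Agent.S48.A.Cheb.NRD

open NumberField IsDedekindDomain Filter Topology Asymptotics
open Fermat.Agent.S30.Density Fermat.Agent.S30.Density.ZetaEuler Fermat.Agent.S30.Density.PrimeSum
open Fermat.Agent.S48.A.Cheb.Seams

variable {M : Type} [Field M] [NumberField M] {m : ℕ}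

/-- The twisted prime sum `P_χ(s) = ∑_v χ(N v) N v ^ (-s)`. -/
def psum (M : Type) [Field M] [NumberField M] {m : ℕ} (χ : DirichletCharacter ℂ m) (s : ℝ) : ℂ :=
  ∑' v : HeightOneSpectrum (𝓞 M), χ ((nrm v : ℕ) : ZMod m) * ((pterm s v : ℝ) : ℂ)

theorem summable_psum_term (χ : DirichletCharacter ℂ m) {s : ℝ} (hs : 1 < s) :
    Summable fun v : HeightOneSpectrum (𝓞 M) =>
      χ ((nrm v : ℕ) : ZMod m) * ((pterm s v : ℝ) : ℂ) := by
  refine Summable.of_norm_bounded (summable_pterm M hs) fun v => ?_
  rw [norm_mul, Complex.norm_real, Real.norm_of_nonneg (pterm_nonneg s v)]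
  calc ‖χ ((nrm v : ℕ) : ZMod m)‖ * pterm s v ≤ 1 * pterm s v :=
        mul_le_mul_of_nonneg_right (DirichletCharacter.norm_le_one χ _) (pterm_nonneg s v)
    _ = pterm s v := one_mul _

/-- The residue-class prime sum as a sum over all places. -/
theorem setSum_eq_tsum_ite (b : ZMod m) (s : ℝ) :
    setSum M {v | ((nrm v : ℕ) : ZMod m) = b} s =
      ∑' v : HeightOneSpectrum (𝓞 M), if ((nrm v : ℕ) : ZMod m) = b then pterm s v else 0 := by
  classical
  rw [setSum, tsum_subtype {v : HeightOneSpectrum (𝓞 M) | ((nrm v : ℕ) : ZMod m) = b}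
    (fun v => pterm s v)]
  refine tsum_congr fun v => ?_
  exact Set.indicator_apply _ _ _

/-- **Orthogonality.** -/
theorem totient_mul_setSum [NeZero m] {b : ZMod m} (hb : IsUnit b) {s : ℝ} (hs : 1 < s) :
    ((m.totient : ℝ) * setSum M {v | ((nrm v : ℕ) : ZMod m) = b} s : ℂ) =
      ∑ χ : DirichletCharacter ℂ m, χ b⁻¹ * psum M χ s := by
  classical
  have h1 : ∀ χ : DirichletCharacter ℂ m, χ b⁻¹ * psum M χ s =
      ∑' v : HeightOneSpectrum (𝓞 M),
        χ b⁻¹ * (χ ((nrm v : ℕ) : ZMod m) * ((pterm s v : ℝ) : ℂ)) := fun χ => by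
    rw [psum, tsum_mul_left]
  rw [Finset.sum_congr rfl fun χ _ => h1 χ]
  rw [← Summable.tsum_finsetSum fun χ _ => (summable_psum_term χ hs).mul_left _]
  rw [setSum_eq_tsum_ite, Complex.ofReal_tsum, ← tsum_mul_left]
  refine tsum_congr fun v => ?_
  have h2 : ∑ χ : DirichletCharacter ℂ m,
      χ b⁻¹ * (χ ((nrm v : ℕ) : ZMod m) * ((pterm s v : ℝ) : ℂ)) =
      (∑ χ : DirichletCharacter ℂ m, χ b⁻¹ * χ ((nrm v : ℕ) : ZMod m)) *
        ((pterm s v : ℝ) : ℂ) := by
    rw [Finset.sum_mul]
    exact Finset.sum_congr rfl fun χ _ => by ring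
  rw [h2, DirichletCharacter.sum_char_inv_mul_char_eq ℂ hb]
  by_cases h : ((nrm v : ℕ) : ZMod m) = b
  · rw [if_pos h, if_pos h.symm]
    generalize pterm s v = t
    push_cast
    ring
  · rw [if_neg h, if_neg (fun h' => h h'.symm)]
    generalize pterm s v = t
    simp

/-! ### The characters with trivial `χ ∘ N` -/

theorem eq_ite_of_not_normNontrivial {χ : DirichletCharacter ℂ m} (h : ¬ NormNontrivial M χ)
    (v : HeightOneSpectrum (𝓞 M)) :
    χ ((nrm v : ℕ) : ZMod m) = if (nrm v).Coprime m then 1 else 0 := by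
  have h1 : χ ((nrm v : ℕ) : ZMod m) = 0 ∨ χ ((nrm v : ℕ) : ZMod m) = 1 := by
    by_contra hcon
    push Not at hcon
    exact h ⟨v, hcon.1, hcon.2⟩
  by_cases hc : (nrm v).Coprime m
  · rw [if_pos hc]
    have hu : IsUnit ((nrm v : ℕ) : ZMod m) := (ZMod.isUnit_iff_coprime _ _).mpr hc
    rcases h1 with h0 | h1
    · exact absurd h0 (MulChar.apply_ne_zero_iff.mpr hu)
    · exact h1
  · rw [if_neg hc]
    exact MulChar.map_nonunit χ (fun hu => hc ((ZMod.isUnit_iff_coprime _ _).mp hu))

/-- The places prime to `m`. -/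
def cop (M : Type) [Field M] [NumberField M] (m : ℕ) : Set (HeightOneSpectrum (𝓞 M)) :=
  {v | (nrm v).Coprime m}

theorem psum_of_not_normNontrivial {χ : DirichletCharacter ℂ m} (h : ¬ NormNontrivial M χ)
    (s : ℝ) : psum M χ s = ((setSum M (cop M m) s : ℝ) : ℂ) := by
  classical
  rw [psum, setSum, tsum_subtype (cop M m) (fun v => pterm s v), Complex.ofReal_tsum]
  refine tsum_congr fun v => ?_
  rw [eq_ite_of_not_normNontrivial h v]
  by_cases hc : (nrm v).Coprime m
  · rw [if_pos hc, Set.indicator_of_mem (show v ∈ cop M m from hc), one_mul]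
  · rw [if_neg hc, Set.indicator_of_notMem (show v ∉ cop M m from hc), zero_mul]
    simp

/-- Only finitely many places are not prime to the prime `m`. -/
theorem finite_compl_cop [Fact m.Prime] : (cop M m)ᶜ.Finite := by
  have hm : m.Prime := Fact.out
  have h0 : Ideal.span {(m : 𝓞 M)} ≠ ⊥ := by
    rw [Ne, Ideal.span_singleton_eq_bot]
    exact_mod_cast hm.ne_zero
  refine (Ideal.finite_factors h0).subset fun v hv => ?_
  simp only [Set.mem_compl_iff, cop, Set.mem_ofPred_eq] at hv
  have h1 : m ∣ nrm v := by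
    by_contra hnd
    exact hv ((Nat.Prime.coprime_iff_not_dvd hm).mpr hnd).symm
  rw [nrm_eq_pow] at h1
  have h2 : m ∣ pOf v := hm.dvd_of_dvd_pow h1
  have h3 : m = pOf v := (Nat.prime_dvd_prime_iff_eq hm (pOf_prime v)).mp h2
  have h4 : ((pOf v : ℤ) : 𝓞 M) ∈ v.asIdeal := by
    have h5 : v.asIdeal.under ℤ = Ideal.span {(pOf v : ℤ)} :=
      (Ideal.LiesOver.over (P := v.asIdeal) (p := Ideal.span {(pOf v : ℤ)})).symm
    have h6 : (pOf v : ℤ) ∈ v.asIdeal.under ℤ := by
      rw [h5]; exact Ideal.mem_span_singleton_self _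
    simpa [Ideal.under_def] using h6
  rw [Set.mem_ofPred_eq, Ideal.dvd_span_singleton, h3]
  exact_mod_cast h4

theorem hasLogDensity_cop [Fact m.Prime] : HasLogDensity M (cop M m) 1 := by
  have h1 := (hasLogDensity_univ M).diff_zero (HasLogDensity.of_finite (finite_compl_cop (M := M) (m := m)))
  rwa [← Set.compl_eq_univ_sdiff, compl_compl] at h1

/-! ### The group generated by the norm residues -/

theorem isUnit_of_mem_normResidues {a : ZMod m} (ha : a ∈ normResidues M m) : IsUnit a := by
  refine Submonoid.closure_induction (motive := fun a _ => IsUnit a) ?_ isUnit_one ?_ ha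
  · rintro x ⟨v, hv, rfl⟩
    exact (ZMod.isUnit_iff_coprime _ _).mpr hv
  · intro x y _ _ hx hy
    exact hx.mul hy

theorem apply_eq_one_of_mem_normResidues {χ : DirichletCharacter ℂ m}
    (h : ¬ NormNontrivial M χ) {a : ZMod m} (ha : a ∈ normResidues M m) : χ a = 1 := by
  refine Submonoid.closure_induction (motive := fun a _ => χ a = 1) ?_ (map_one χ) ?_ ha
  · rintro x ⟨v, hv, rfl⟩
    rw [eq_ite_of_not_normNontrivial h v, if_pos hv]
  · intro x y _ _ hx hy
    rw [map_mul, hx, hy, one_mul]

theorem mem_normResidues_of_coprime {v : HeightOneSpectrum (𝓞 M)} (hv : (nrm v).Coprime m) :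
    ((nrm v : ℕ) : ZMod m) ∈ normResidues M m :=
  Submonoid.subset_closure ⟨v, hv, rfl⟩

/-! ### All classes of `H` have the same density -/

open scoped Classical in
/-- The number of Dirichlet characters `χ` mod `m` with `χ ∘ N` trivial. -/
def ktriv (M : Type) [Field M] [NumberField M] (m : ℕ) : ℕ :=
  (Finset.univ.filter fun χ : DirichletCharacter ℂ m => ¬ NormNontrivial M χ).card

theorem hasLogDensity_class (hPD : PrimeCharSumBounded) [Fact m.Prime] {a : ZMod m}
    (ha : a ∈ normResidues M m) :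
    HasLogDensity M {v | ((nrm v : ℕ) : ZMod m) = a} ((ktriv M m : ℝ) / (m.totient : ℝ)) := by
  classical
  have hm : m.Prime := Fact.out
  haveI : NeZero m := ⟨hm.ne_zero⟩
  have hφ : (0 : ℝ) < (m.totient : ℝ) := by exact_mod_cast Nat.totient_pos.mpr hm.pos
  have hu : IsUnit a := isUnit_of_mem_normResidues ha
  -- the bounds for the non-trivial characters
  choose! C hC using fun χ : DirichletCharacter ℂ m => hPD M m χ
  set B : ℝ := ∑ χ : DirichletCharacter ℂ m, |C χ| with hB
  -- the key estimate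
  have key : ∀ s : ℝ, 1 < s → s ≤ 2 →
      |(m.totient : ℝ) * setSum M {v | ((nrm v : ℕ) : ZMod m) = a} s -
        (ktriv M m : ℝ) * setSum M (cop M m) s| ≤ B := by
    intro s hs hs2
    have h1 := totient_mul_setSum (M := M) hu hs
    have h2 : ∑ χ : DirichletCharacter ℂ m, χ a⁻¹ * psum M χ s =
        ((ktriv M m : ℝ) * setSum M (cop M m) s : ℂ) +
          ∑ χ ∈ Finset.univ.filter (fun χ : DirichletCharacter ℂ m => NormNontrivial M χ),
            χ a⁻¹ * psum M χ s := by
      rw [← Finset.sum_filter_not_add_sum_filter _ (fun χ : DirichletCharacter ℂ m => NormNontrivial M χ)]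
      congr 1
      rw [Finset.sum_congr rfl (g := fun _ => ((setSum M (cop M m) s : ℝ) : ℂ))]
      · rw [Finset.sum_const, ktriv, nsmul_eq_mul, Complex.ofReal_natCast]
      · intro χ hχ
        have hχ' : ¬ NormNontrivial M χ := (Finset.mem_filter.mp hχ).2
        have h3 : χ a⁻¹ = 1 := by
          have h4 : χ a⁻¹ * χ a = 1 := by
            rw [← map_mul, ZMod.inv_mul_of_unit a hu, map_one]
          rw [apply_eq_one_of_mem_normResidues hχ' ha, mul_one] at h4
          exact h4
        rw [h3, one_mul, psum_of_not_normNontrivial hχ']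
    rw [h2] at h1
    have h5 : (((m.totient : ℝ) * setSum M {v | ((nrm v : ℕ) : ZMod m) = a} s -
        (ktriv M m : ℝ) * setSum M (cop M m) s : ℝ) : ℂ) =
          ∑ χ ∈ Finset.univ.filter (fun χ : DirichletCharacter ℂ m => NormNontrivial M χ),
            χ a⁻¹ * psum M χ s := by
      generalize (∑ χ ∈ Finset.univ.filter
        (fun χ : DirichletCharacter ℂ m => NormNontrivial M χ), χ a⁻¹ * psum M χ s) = S at h1 ⊢
      push_cast at h1 ⊢
      linear_combination h1
    rw [← Real.norm_eq_abs, ← Complex.norm_real, h5]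
    refine (norm_sum_le _ _).trans ?_
    rw [hB]
    refine (Finset.sum_le_sum (g := fun χ => |C χ|) fun χ hχ => ?_).trans
      (Finset.sum_le_sum_of_subset_of_nonneg (Finset.filter_subset _ _) fun _ _ _ => abs_nonneg _)
    have hχ' : NormNontrivial M χ := (Finset.mem_filter.mp hχ).2
    rw [norm_mul]
    have h6 : ‖χ a⁻¹‖ ≤ 1 := DirichletCharacter.norm_le_one χ _
    have h7 : ‖psum M χ s‖ ≤ C χ := hC χ hχ' s hs hs2
    calc ‖χ a⁻¹‖ * ‖psum M χ s‖ ≤ 1 * C χ :=
          mul_le_mul h6 h7 (norm_nonneg _) zero_le_one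
      _ ≤ |C χ| := by rw [one_mul]; exact le_abs_self _
  -- conclusion
  have hcop := hasLogDensity_cop (M := M) (m := m)
  unfold HasLogDensity at hcop ⊢
  have h8 : (fun s : ℝ => (m.totient : ℝ) * setSum M {v | ((nrm v : ℕ) : ZMod m) = a} s -
      (ktriv M m : ℝ) * setSum M (cop M m) s) =O[𝓝[>] (1 : ℝ)] (fun _ => (1 : ℝ)) := by
    refine IsBigO.of_bound B ?_
    filter_upwards [Ioc_mem_nhdsGT (show (1 : ℝ) < 2 by norm_num)] with s hs
    rw [norm_one, mul_one, Real.norm_eq_abs]
    exact key s hs.1 hs.2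
  have h9 := (h8.add (hcop.const_mul_left (ktriv M m : ℝ))).const_mul_left (1 / (m.totient : ℝ))
  refine h9.congr_left fun s => ?_
  field_simp
  ring

/-! ### The classes add up to the places prime to `m` -/

theorem hasLogDensity_finset {c : ℝ} (T : Finset (ZMod m))
    (h : ∀ a ∈ T, HasLogDensity M {v | ((nrm v : ℕ) : ZMod m) = a} c) :
    HasLogDensity M {v | ((nrm v : ℕ) : ZMod m) ∈ T} ((T.card : ℝ) * c) := by
  classical
  induction T using Finset.induction_on with
  | empty =>
    have : {v : HeightOneSpectrum (𝓞 M) | ((nrm v : ℕ) : ZMod m) ∈ (∅ : Finset (ZMod m))} = ∅ := by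
      ext v; simp
    rw [this, Finset.card_empty, Nat.cast_zero, zero_mul]
    exact HasLogDensity.of_finite Set.finite_empty
  | insert a T haT ih =>
    have h1 := h a (Finset.mem_insert_self a T)
    have h2 := ih fun b hb => h b (Finset.mem_insert_of_mem hb)
    have hdisj : Disjoint {v : HeightOneSpectrum (𝓞 M) | ((nrm v : ℕ) : ZMod m) = a}
        {v | ((nrm v : ℕ) : ZMod m) ∈ T} := by
      rw [Set.disjoint_left]
      intro v hv hv'
      rw [Set.mem_ofPred_eq] at hv hv'
      exact haT (hv ▸ hv')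
    have h3 := h1.union h2 hdisj
    have hset : {v : HeightOneSpectrum (𝓞 M) | ((nrm v : ℕ) : ZMod m) ∈ insert a T} =
        {v | ((nrm v : ℕ) : ZMod m) = a} ∪ {v | ((nrm v : ℕ) : ZMod m) ∈ T} := by
      ext v
      simp [Finset.mem_insert]
    rw [hset, Finset.card_insert_of_notMem haT]
    convert h3 using 1
    push_cast
    ring

/-- **C6.** Dirichlet's theorem for norm residues from the boundedness of the twisted prime
sums. -/
theorem normResidueDensity (hPD : PrimeCharSumBounded) : NormResidueDensity := by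
  classical
  intro M _ _ m _ a ha
  have hm : m.Prime := Fact.out
  haveI : NeZero m := ⟨hm.ne_zero⟩
  set c : ℝ := (ktriv M m : ℝ) / (m.totient : ℝ) with hc
  set T : Finset (ZMod m) := Finset.univ.filter fun b => b ∈ normResidues M m with hT
  have h1 : HasLogDensity M {v | ((nrm v : ℕ) : ZMod m) ∈ T} ((T.card : ℝ) * c) :=
    hasLogDensity_finset T fun b hb => hasLogDensity_class hPD (Finset.mem_filter.mp hb).2
  have hset : {v : HeightOneSpectrum (𝓞 M) | ((nrm v : ℕ) : ZMod m) ∈ T} = cop M m := by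
    ext v
    show ((nrm v : ℕ) : ZMod m) ∈ T ↔ (nrm v).Coprime m
    rw [hT, Finset.mem_filter, and_iff_right (Finset.mem_univ _)]
    constructor
    · intro hv
      exact (ZMod.isUnit_iff_coprime _ _).mp (isUnit_of_mem_normResidues hv)
    · exact mem_normResidues_of_coprime
  rw [hset] at h1
  have h2 : (T.card : ℝ) * c = 1 := h1.unique hasLogDensity_cop
  have hcard : Nat.card (normResidues M m) = T.card := by
    rw [Nat.card_eq_fintype_card, hT]
    exact Fintype.card_of_subtype _ fun b => by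
      rw [Finset.mem_filter]
      exact and_iff_right (Finset.mem_univ b)
  have hT0 : (T.card : ℝ) ≠ 0 := by
    intro h0
    rw [h0, zero_mul] at h2
    exact zero_ne_one h2
  have h3 : c = 1 / (Nat.card (normResidues M m) : ℝ) := by
    rw [hcard, eq_div_iff hT0, mul_comm]
    exact h2
  rw [← h3]
  exact hasLogDensity_class hPD ha

end Fermat.Agent.S48.A.Cheb.NRD
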