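import Mathlib
import Fermat.Agent.S48.A.Cheb.Seams
import Fermat.Agent.S48.A.Cheb.NRD
import Fermat.Agent.S30.Density.Frobenius

/-!
# PROJECT D (S48), A6 = Chebotarev, brick C7: `NormResidueDensity → CycloFrobDensity`

`E = M(ζ)`, `ζ` a primitive `m`-th root of unity (`m` prime), `Gal(E/M) = ⟨g⟩`, `g ζ = ζ ^ t`.
For a place `v` of `M` prime to `m` and a prime `Q` of `E` above it, every arithmetic Frobenius
`φ` at `Q` satisfies `φ ζ = ζ ^ (N v)` (Mathlib's `AlgHom.IsArithFrobAt.apply_of_pow_eq_one`), so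
`g` is a Frobenius at `Q` iff `N v ≡ t (mod m)`.  The inertia group at `Q` is trivial (distinct
`m`-th roots of unity stay distinct mod `Q`), main's `Frobenius.exists_good_inert` produces a place
whose Frobenius generates `Gal(E/M)`, hence the group generated by the norm residues is exactly
`⟨t⟩`, of order `[E : M]`; Dirichlet's theorem for norm residues (C6) gives the density.
-/

set_option autoImplicit false
set_option linter.style.haveILetI false
set_option linter.unusedSectionVars false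

noncomputable section

namespace Fermat.Agent.S48.A.Cheb.CycloFrob

open NumberField IsDedekindDomain Filter Topology Asymptotics
open Fermat.Agent.S30.Density Fermat.Agent.S30.Density.ZetaEuler Fermat.Agent.S30.Density.PrimeSum
open Fermat.Agent.S48.A.Cheb.Seams

/-- Distinct powers of a primitive `m`-th root of unity (`m` prime) stay distinct modulo a prime
ideal not containing `m`. -/
theorem pow_eq_of_sub_mem {R : Type*} [CommRing R] [IsDomain R] {m : ℕ} (hm : m.Prime) {ζ : R}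
    (hζ : IsPrimitiveRoot ζ m) {Q : Ideal R} [Q.IsPrime] (hQ : (m : R) ∉ Q) {a b : ℕ}
    (h : ζ ^ a - ζ ^ b ∈ Q) : ζ ^ a = ζ ^ b := by
  set μ : R := ζ ^ (a + (m - 1) * b) with hμ
  have hm1 : m - 1 + 1 = m := Nat.sub_add_cancel hm.one_le
  have h1 : ζ ^ b * μ = ζ ^ a := by
    rw [hμ, ← pow_add]
    have : b + (a + (m - 1) * b) = a + m * b := by
      calc b + (a + (m - 1) * b) = a + (m - 1 + 1) * b := by ring
        _ = a + m * b := by rw [hm1]
    rw [this, pow_add, pow_mul, hζ.pow_eq_one, one_pow, mul_one]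
  have h2 : ζ ^ b * (μ - 1) ∈ Q := by
    have : ζ ^ b * (μ - 1) = ζ ^ a - ζ ^ b := by rw [mul_sub, h1, mul_one]
    rw [this]; exact h
  have h3 : ζ ^ b ∉ Q := by
    intro hb
    have h4 : ζ ^ b * ζ ^ ((m - 1) * b) = 1 := by
      rw [← pow_add]
      have : b + (m - 1) * b = m * b := by
        calc b + (m - 1) * b = (m - 1 + 1) * b := by ring
          _ = m * b := by rw [hm1]
      rw [this, pow_mul, hζ.pow_eq_one, one_pow]
    have h5 : (1 : R) ∈ Q := h4 ▸ Q.mul_mem_right _ hb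
    exact (Ideal.IsPrime.ne_top inferInstance) ((Ideal.eq_top_iff_one Q).mpr h5)
  have h6 : μ - 1 ∈ Q := (Ideal.IsPrime.mem_or_mem inferInstance h2).resolve_left h3
  by_cases hμ1 : μ = 1
  · rw [← h1, hμ1, mul_one]
  · exfalso
    have hcop : (a + (m - 1) * b).Coprime m := by
      rw [Nat.coprime_comm, Nat.Prime.coprime_iff_not_dvd hm]
      intro hd
      exact hμ1 ((hζ.pow_eq_one_iff_dvd _).mpr hd)
    have hμp : IsPrimitiveRoot μ m := hζ.pow_of_coprime _ hcop
    obtain ⟨z, _, hz⟩ := hμp.self_sub_one_pow_dvd_order (k := 1) hm.one_lt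
    rw [pow_one] at hz
    exact hQ (hz ▸ Q.mul_mem_left z h6)

/-- In a monoid, `x` is a power of `x ^ k` when `k` is prime to the order of `x`. -/
theorem mem_powers_pow_of_coprime {G : Type*} [Monoid G] (x : G) {k : ℕ}
    (hk : k.Coprime (orderOf x)) : x ∈ Submonoid.powers (x ^ k) := by
  rcases Nat.lt_or_ge 1 (orderOf x) with h | h
  · obtain ⟨j, _, hj⟩ := Nat.exists_mul_mod_eq_one_of_coprime hk h
    refine ⟨j, ?_⟩
    simp only
    rw [← pow_mul, ← pow_mod_orderOf, hj, pow_one]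
  · have h' : orderOf x = 0 ∨ orderOf x = 1 := by omega
    rcases h' with h' | h'
    · rw [h', Nat.coprime_zero_right] at hk
      subst hk
      exact ⟨1, by simp⟩
    · have hx : x = 1 := orderOf_eq_one_iff.mp h'
      subst hx
      exact ⟨0, by simp⟩

/-- The number of powers of an element of finite order, in any monoid. -/
theorem card_powers_eq {G : Type*} [Monoid G] {x : G} (hx : IsOfFinOrder x) :
    Nat.card (Submonoid.powers x) = orderOf x :=
  (Nat.card_congr (finEquivPowers hx).symm).trans (by simp)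

variable {M E : Type} [Field M] [NumberField M] [Field E] [NumberField E] [Algebra M E]
  [IsGalois M E] {m : ℕ} {ζ : E}

/-- An automorphism of `E = M(ζ)` over `M` is determined by its value at `ζ`. -/
theorem eq_of_apply_eq (htop : IntermediateField.adjoin M {ζ} = ⊤) {g h : E ≃ₐ[M] E}
    (hgh : g ζ = h ζ) : g = h := by
  have hint : IsIntegral M ζ := Algebra.IsIntegral.isIntegral ζ
  have h1 : Algebra.adjoin M {ζ} = ⊤ := by
    have h2 := IntermediateField.adjoin_simple_toSubalgebra_of_isAlgebraic hint.isAlgebraic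
    rw [htop] at h2
    exact h2.symm
  have h2 : (g : E →ₐ[M] E) = (h : E →ₐ[M] E) :=
    AlgHom.ext_of_adjoin_eq_top h1 (by rintro x rfl; exact hgh)
  exact AlgEquiv.coe_toAlgHom_injective h2

/-- `g ζ` is a power of `ζ`. -/
theorem exists_apply_eq_pow [NeZero m] (hζ : IsPrimitiveRoot ζ m) (g : E ≃ₐ[M] E) :
    ∃ t : ℕ, g ζ = ζ ^ t := by
  obtain ⟨i, _, hi⟩ := hζ.eq_pow_of_pow_eq_one (ξ := g ζ) (by rw [← map_pow, hζ.pow_eq_one, map_one])
  exact ⟨i, hi.symm⟩

theorem pow_apply_eq {t : ℕ} {g : E ≃ₐ[M] E} (hg : g ζ = ζ ^ t) (k : ℕ) :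
    (g ^ k) ζ = ζ ^ t ^ k := by
  induction k with
  | zero => simp
  | succ k ih =>
    rw [pow_succ', AlgEquiv.mul_apply, ih, map_pow, hg, ← pow_mul, pow_succ']

/-- `ζ ^ a = ζ ^ b` iff `a = b` in `ZMod m`. -/
theorem pow_eq_pow_iff [NeZero m] (hζ : IsPrimitiveRoot ζ m) (a b : ℕ) :
    ζ ^ a = ζ ^ b ↔ (a : ZMod m) = (b : ZMod m) := by
  rw [(hζ.isOfFinOrder (NeZero.ne m)).pow_eq_pow_iff_modEq, ← hζ.eq_orderOf,
    ZMod.natCast_eq_natCast_iff]

theorem coe_toInteger_pow [NeZero m] (hζ : IsPrimitiveRoot ζ m) (i : ℕ) :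
    ((hζ.toInteger ^ i : 𝓞 E) : E) = ζ ^ i :=
  map_pow (algebraMap (𝓞 E) E) hζ.toInteger i

/-- `(m : 𝓞 E) ∉ Q` when `Q` lies over a place prime to `m`. -/
theorem natCast_notMem (v : HeightOneSpectrum (𝓞 M)) (hv : (nrm v).Coprime m) (Q : Ideal (𝓞 E))
    [Q.LiesOver v.asIdeal] : (m : 𝓞 E) ∉ Q := by
  intro hmQ
  have h1 : (m : 𝓞 M) ∈ v.asIdeal := by
    rw [Ideal.over_def Q v.asIdeal, Ideal.under_def, Ideal.mem_comap, map_natCast]
    exact hmQ
  have h2 : ((nrm v : ℕ) : 𝓞 M) ∈ v.asIdeal := Ideal.absNorm_mem v.asIdeal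
  have h3 : IsCoprime ((nrm v : ℕ) : ℤ) (m : ℤ) := Nat.isCoprime_iff_coprime.mpr hv
  obtain ⟨a, b, hab⟩ := h3
  have h4 : (1 : 𝓞 M) ∈ v.asIdeal := by
    have h5 : (1 : 𝓞 M) = (a : 𝓞 M) * ((nrm v : ℕ) : 𝓞 M) + (b : 𝓞 M) * (m : 𝓞 M) := by
      have := congrArg (fun z : ℤ => (z : 𝓞 M)) hab
      push_cast at this
      exact this.symm
    rw [h5]
    exact v.asIdeal.add_mem (v.asIdeal.mul_mem_left _ h2) (v.asIdeal.mul_mem_left _ h1)
  exact v.isPrime.ne_top ((Ideal.eq_top_iff_one _).mpr h4)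

theorem card_quot_under (v : HeightOneSpectrum (𝓞 M)) (Q : Ideal (𝓞 E)) [Q.LiesOver v.asIdeal] :
    Nat.card (𝓞 M ⧸ Q.under (𝓞 M)) = nrm v := by
  rw [← Ideal.over_def Q v.asIdeal, ← Submodule.cardQuot_apply, ← Ideal.absNorm_apply]

/-- A Frobenius element at a prime over a place `v` prime to `m` raises `ζ` to the power `N v`. -/
theorem frob_apply [NeZero m] (hζ : IsPrimitiveRoot ζ m) (v : HeightOneSpectrum (𝓞 M))
    (hv : (nrm v).Coprime m) (Q : Ideal (𝓞 E)) [Q.LiesOver v.asIdeal] {φ : E ≃ₐ[M] E}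
    (hφ : IsArithFrobAt (𝓞 M) φ Q) : φ ζ = ζ ^ nrm v := by
  have h1 := AlgHom.IsArithFrobAt.apply_of_pow_eq_one hφ (ζ := hζ.toInteger) (m := m)
    hζ.toInteger_isPrimitiveRoot.pow_eq_one (natCast_notMem v hv Q)
  rw [card_quot_under v Q] at h1
  have h2 := congrArg (fun x : 𝓞 E => (x : E)) h1
  simp only [MulSemiringAction.toAlgHom_apply, map_pow] at h2
  exact h2

/-- The inertia group at a prime over a place prime to `m` is trivial. -/
theorem eq_one_of_forall_sub_mem [Fact m.Prime] (hζ : IsPrimitiveRoot ζ m)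
    (htop : IntermediateField.adjoin M {ζ} = ⊤) (v : HeightOneSpectrum (𝓞 M))
    (hv : (nrm v).Coprime m) (Q : Ideal (𝓞 E)) [Q.IsPrime] [Q.LiesOver v.asIdeal]
    {σ : E ≃ₐ[M] E} (hσ : ∀ x : 𝓞 E, σ • x - x ∈ Q) : σ = 1 := by
  have hm : m.Prime := Fact.out
  haveI : NeZero m := ⟨hm.ne_zero⟩
  obtain ⟨i, hi⟩ := exists_apply_eq_pow hζ σ
  have h1 : hζ.toInteger ^ i - hζ.toInteger ^ 1 ∈ Q := by
    have h2 : σ • hζ.toInteger = hζ.toInteger ^ i := by
      apply RingOfIntegers.ext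
      rw [coe_toInteger_pow]
      exact hi
    rw [pow_one, ← h2]
    exact hσ _
  have h3 := pow_eq_of_sub_mem hm hζ.toInteger_isPrimitiveRoot (natCast_notMem v hv Q) h1
  have h4 : ζ ^ i = ζ := by
    have := congrArg (fun x : 𝓞 E => (x : E)) h3
    simp only [coe_toInteger_pow, pow_one] at this
    exact this
  refine eq_of_apply_eq htop ?_
  rw [hi, h4, AlgEquiv.one_apply]

/-- A Frobenius element exists at every prime of `𝓞 E`. -/
theorem exists_frob (Q : Ideal (𝓞 E)) [Q.IsPrime] (hQ : Q ≠ ⊥) :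
    ∃ φ : E ≃ₐ[M] E, IsArithFrobAt (𝓞 M) φ Q := by
  haveI : Finite (𝓞 E ⧸ Q) := Ring.HasFiniteQuotients.finiteQuotient hQ
  exact IsArithFrobAt.exists_of_isInvariant (𝓞 M) (E ≃ₐ[M] E) Q

/-- **Frobenius criterion in the cyclotomic layer.** -/
theorem isArithFrobAt_iff [NeZero m] (hζ : IsPrimitiveRoot ζ m)
    (htop : IntermediateField.adjoin M {ζ} = ⊤) {t : ℕ} {g : E ≃ₐ[M] E} (hg : g ζ = ζ ^ t)
    (v : HeightOneSpectrum (𝓞 M)) (hv : (nrm v).Coprime m) (Q : Ideal (𝓞 E)) [Q.IsPrime]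
    [Q.LiesOver v.asIdeal] :
    IsArithFrobAt (𝓞 M) g Q ↔ ((nrm v : ℕ) : ZMod m) = (t : ZMod m) := by
  constructor
  · intro h
    have h1 := frob_apply hζ v hv Q h
    rw [hg] at h1
    exact ((pow_eq_pow_iff hζ _ _).mp h1).symm
  · intro h
    have hQne : Q ≠ ⊥ := Ideal.ne_bot_of_liesOver_of_ne_bot v.ne_bot Q
    obtain ⟨φ, hφ⟩ := exists_frob (M := M) Q hQne
    have h1 := frob_apply hζ v hv Q hφ
    have h2 : φ = g := by
      refine eq_of_apply_eq htop ?_
      rw [h1, hg]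
      exact (pow_eq_pow_iff hζ _ _).mpr h
    exact h2 ▸ hφ

theorem exists_prime_over (v : HeightOneSpectrum (𝓞 M)) :
    ∃ Q : Ideal (𝓞 E), Q.IsPrime ∧ Q.LiesOver v.asIdeal := by
  obtain ⟨⟨Q, hQ1, hQ2⟩⟩ := (inferInstance : Nonempty (v.asIdeal.primesOver (𝓞 E)))
  exact ⟨Q, hQ1, hQ2⟩

/-- The order of the exponent is the order of the automorphism. -/
theorem orderOf_exponent [NeZero m] (hζ : IsPrimitiveRoot ζ m)
    (htop : IntermediateField.adjoin M {ζ} = ⊤) {t : ℕ} {g : E ≃ₐ[M] E} (hg : g ζ = ζ ^ t) :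
    orderOf (t : ZMod m) = orderOf g := by
  refine orderOf_eq_orderOf_iff.mpr fun k => ?_
  have h1 : g ^ k = 1 ↔ (g ^ k) ζ = ζ := by
    constructor
    · intro h; rw [h, AlgEquiv.one_apply]
    · intro h
      exact eq_of_apply_eq htop (by rw [h, AlgEquiv.one_apply])
  rw [h1, pow_apply_eq hg k]
  have h2 : ζ ^ t ^ k = ζ ↔ ζ ^ t ^ k = ζ ^ 1 := by rw [pow_one]
  rw [h2, pow_eq_pow_iff hζ]
  push_cast
  rfl

/-- Norm residues are powers of the exponent of a generator. -/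
theorem normResidues_le [NeZero m] (hζ : IsPrimitiveRoot ζ m) {t : ℕ} {g : E ≃ₐ[M] E}
    (hg : g ζ = ζ ^ t) (hgen : Subgroup.zpowers g = ⊤) :
    normResidues M m ≤ Submonoid.powers (t : ZMod m) := by
  refine Submonoid.closure_le.mpr ?_
  rintro a ⟨v, hv, rfl⟩
  obtain ⟨Q, hQ1, hQ2⟩ := exists_prime_over (E := E) v
  haveI := hQ1
  haveI := hQ2
  have hQne : Q ≠ ⊥ := Ideal.ne_bot_of_liesOver_of_ne_bot v.ne_bot Q
  obtain ⟨φ, hφ⟩ := exists_frob (M := M) Q hQne
  have h1 := frob_apply hζ v hv Q hφ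
  have h2 : φ ∈ Subgroup.zpowers g := hgen ▸ Subgroup.mem_top φ
  obtain ⟨k, rfl⟩ := mem_powers_iff_mem_zpowers.mpr h2
  rw [pow_apply_eq hg k] at h1
  have h3 := (pow_eq_pow_iff hζ _ _).mp h1
  refine ⟨k, ?_⟩
  simp only
  rw [← h3]
  push_cast
  rfl

/-- The exponent of a generator is a norm residue: there is a place prime to `m` whose Frobenius
generates `Gal(E/M)` (main's `Frobenius.exists_good_inert`). -/
theorem exponent_mem [Fact m.Prime] (hζ : IsPrimitiveRoot ζ m)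
    (htop : IntermediateField.adjoin M {ζ} = ⊤) {t : ℕ} {g : E ≃ₐ[M] E} (hg : g ζ = ζ ^ t)
    (hgen : Subgroup.zpowers g = ⊤) : (t : ZMod m) ∈ normResidues M m := by
  have hm : m.Prime := Fact.out
  haveI : NeZero m := ⟨hm.ne_zero⟩
  obtain ⟨q, ⟨hq1, hq2⟩, hq3⟩ := Frobenius.exists_good_inert g hgen (L := E) {m}
  have hcop : (nrm q).Coprime m := (Nat.coprime_primes hq1 hm).mpr (by simpa using hq2)
  obtain ⟨Q, hQ1, hQ2⟩ := exists_prime_over (E := E) q
  haveI := hQ1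
  haveI := hQ2
  haveI : q.asIdeal.IsMaximal := q.isMaximal
  haveI : IsGaloisGroup Gal(E/M) (𝓞 M) (𝓞 E) :=
    IsGaloisGroup.of_isFractionRing Gal(E/M) (𝓞 M) (𝓞 E) M E
  have hunr : q.asIdeal.ramificationIdxIn (𝓞 E) = 1 := by
    rw [← Ideal.card_inertia_eq_ramificationIdxIn (G := Gal(E/M)) q.asIdeal Q]
    have hbot : Ideal.inertia Gal(E/M) Q = ⊥ := by
      rw [Subgroup.eq_bot_iff_forall]
      intro σ hσ
      exact eq_one_of_forall_sub_mem hζ htop q hcop Q (AddSubgroup.mem_inertia.mp hσ)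
    rw [hbot, Subgroup.card_bot]
  obtain ⟨k, hk1, hk2⟩ := CyclicFrob.exists_coprime_pow_eq_frob g
    (fun τ => hgen ▸ Subgroup.mem_top τ) q.asIdeal q.ne_bot Q hunr hq3
  have h1 := (isArithFrobAt_iff hζ htop (pow_apply_eq hg k) q hcop Q).mp hk2
  have h2 : (t : ZMod m) ^ k ∈ normResidues M m := by
    have h3 := NRD.mem_normResidues_of_coprime hcop
    rw [h1, Nat.cast_pow] at h3
    exact h3
  have h3 : k.Coprime (orderOf (t : ZMod m)) := by
    rw [orderOf_exponent hζ htop hg]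
    exact hk1
  exact (Submonoid.powers_le.mpr h2) (mem_powers_pow_of_coprime _ h3)

/-- **C7.** Chebotarev for the cyclotomic layer from Dirichlet's theorem for norm residues. -/
theorem cycloFrobDensity (hNRD : NormResidueDensity) : CycloFrobDensity := by
  intro M E _ _ _ _ _ _ m _ ζ hζ htop g hgen
  have hm : m.Prime := Fact.out
  haveI : NeZero m := ⟨hm.ne_zero⟩
  obtain ⟨t, hg⟩ := exists_apply_eq_pow hζ g
  have hmem := exponent_mem hζ htop hg hgen
  have hH : normResidues M m = Submonoid.powers (t : ZMod m) :=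
    le_antisymm (normResidues_le hζ hg hgen) (Submonoid.powers_le.mpr hmem)
  have hord : orderOf (t : ZMod m) = Module.finrank M E := by
    rw [orderOf_exponent hζ htop hg, FrobSetup.orderOf_eq_finrank g hgen]
  have hfin : IsOfFinOrder (t : ZMod m) := by
    rw [← orderOf_pos_iff, hord]
    exact Module.finrank_pos
  have hcard : Nat.card (normResidues M m) = Module.finrank M E := by
    rw [hH, card_powers_eq hfin, hord]
  have h1 := hNRD M m (t : ZMod m) hmem
  rw [hcard] at h1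
  have hBA : {v : HeightOneSpectrum (𝓞 M) | ((nrm v : ℕ) : ZMod m) = (t : ZMod m)} ⊆
      {q | ∃ Q : Ideal (𝓞 E), Q.IsPrime ∧ Q.LiesOver q.asIdeal ∧ IsArithFrobAt (𝓞 M) g Q} := by
    intro v hv
    rw [Set.mem_ofPred_eq] at hv
    have hcop : (nrm v).Coprime m := by
      rw [← ZMod.isUnit_iff_coprime, hv]
      exact NRD.isUnit_of_mem_normResidues hmem
    obtain ⟨Q, hQ1, hQ2⟩ := exists_prime_over (E := E) v
    haveI := hQ1
    haveI := hQ2
    exact ⟨Q, hQ1, hQ2, (isArithFrobAt_iff hζ htop hg v hcop Q).mpr hv⟩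
  have hAB : {q : HeightOneSpectrum (𝓞 M) | ∃ Q : Ideal (𝓞 E), Q.IsPrime ∧ Q.LiesOver q.asIdeal ∧
      IsArithFrobAt (𝓞 M) g Q} \ {v | ((nrm v : ℕ) : ZMod m) = (t : ZMod m)} ⊆ (NRD.cop M m)ᶜ := by
    rintro v ⟨⟨Q, hQ1, hQ2, hQ3⟩, hv⟩ hcop
    haveI := hQ1
    haveI := hQ2
    exact hv ((isArithFrobAt_iff hζ htop hg v hcop Q).mp hQ3)
  have h2 := HasLogDensity.of_finite ((NRD.finite_compl_cop (M := M) (m := m)).subset hAB)
  have h3 := h1.union h2 Set.disjoint_sdiff_right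
  rw [Set.union_sdiff_cancel hBA, add_zero] at h3
  exact h3

end Fermat.Agent.S48.A.Cheb.CycloFrob
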