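import Mathlib
import Fermat.Agent.S30.Density.ZetaEuler
import Fermat.Agent.S48.A.Cheb.Seams

/-!
# PROJECT D (S48), part A, brick A6 / C5a: the logarithm of the Euler product

`eulerLog : Seams.EulerLog`: for a number field `M` and a Dirichlet character `χ` mod `m`,
`l s := ∑_v - log (1 - χ(N v) N v ^ (-s))` is continuous on `(1, 2]`, `exp (l s) = L_M(s, χ ∘ N)`
and `l s = ∑_v χ(N v) N v ^ (-s) + O(1)`.

The Euler product itself is proved for an arbitrary completely multiplicative function on the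
ideals of `𝓞 K` with summable norms (`hasProd_euler`).
-/

set_option autoImplicit false

noncomputable section

namespace Fermat.Agent.S48.A.Cheb.EulerLog

open NumberField IsDedekindDomain Filter Topology
open Fermat.Agent.S30.Density.ZetaEuler

variable {K : Type*} [Field K] [NumberField K]

/-! ### The Euler product of a completely multiplicative function on ideals -/

omit [NumberField K] in
theorem map_idealOf (f : Ideal (𝓞 K) →* ℂ) (T : Finset (HeightOneSpectrum (𝓞 K))) (e : T → ℕ) :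
    f (idealOf T e) = ∏ i : T, f i.1.asIdeal ^ e i := by
  rw [idealOf, map_prod]
  exact Finset.prod_congr rfl fun i _ ↦ map_pow f _ _

open scoped Classical in
/-- The truncated Euler product is a finite partial sum of the series. -/
theorem prod_geom_eq_sum (f : Ideal (𝓞 K) →* ℂ) (T : Finset (HeightOneSpectrum (𝓞 K))) (M : ℕ) :
    ∏ v ∈ T, ∑ k ∈ Finset.range (M + 1), f v.asIdeal ^ k =
      ∑ I ∈ (Fintype.piFinset fun _ : T ↦ Finset.range (M + 1)).image (idealOf T), f I := by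
  rw [← Finset.prod_coe_sort, Finset.prod_univ_sum]
  simp_rw [← map_idealOf]
  rw [Finset.sum_image ((idealOf_injective T).injOn)]

open scoped Classical in
/-- Every finite set of ideals is contained, up to the zero ideal, in the index set of a truncated
Euler product. -/
theorem exists_subset_image (F : Finset (Ideal (𝓞 K))) :
    ∃ T₀ : Finset (HeightOneSpectrum (𝓞 K)), ∀ T : Finset (HeightOneSpectrum (𝓞 K)), T₀ ⊆ T →
      ∃ M₀ : ℕ, ∀ M : ℕ, M₀ ≤ M → ∀ I ∈ F, I ≠ ⊥ →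
        I ∈ (Fintype.piFinset fun _ : T ↦ Finset.range (M + 1)).image (idealOf T) := by
  have hfin : {v : HeightOneSpectrum (𝓞 K) | ∃ I ∈ F, I ≠ ⊥ ∧ v.asIdeal ∣ I}.Finite := by
    have : {v : HeightOneSpectrum (𝓞 K) | ∃ I ∈ F, I ≠ ⊥ ∧ v.asIdeal ∣ I} ⊆
        ⋃ I ∈ (F.filter (· ≠ ⊥) : Finset (Ideal (𝓞 K))),
          {v : HeightOneSpectrum (𝓞 K) | v.asIdeal ∣ I} := by
      rintro v ⟨I, hIF, hI0, hv⟩
      simp only [Set.mem_iUnion, Set.mem_ofPred_eq, Finset.mem_filter, exists_prop]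
      exact ⟨I, ⟨hIF, hI0⟩, hv⟩
    refine Set.Finite.subset (Set.Finite.biUnion (Finset.finite_toSet _) ?_) this
    intro I hI
    exact Ideal.finite_factors (Finset.mem_filter.mp hI).2
  refine ⟨hfin.toFinset, fun T hT ↦ ?_⟩
  obtain ⟨M₀, hM₀⟩ := exists_nat_bound F T (fun I v ↦ multiplicity v.asIdeal I)
  refine ⟨M₀, fun M hM I hIF hI0 ↦ ?_⟩
  rw [Finset.mem_image]
  refine ⟨fun i ↦ multiplicity i.1.asIdeal I, ?_, ?_⟩
  · rw [Fintype.mem_piFinset]
    intro i
    rw [Finset.mem_range, Nat.lt_succ_iff]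
    exact (hM₀ I hIF i.1 i.2).trans hM
  · refine (eq_idealOf_multiplicity hI0 T fun v hv ↦ hT ?_).symm
    rw [Set.Finite.mem_toFinset]
    exact ⟨I, hIF, hI0, hv⟩

/-- **The Euler product** of a completely multiplicative function on the ideals of `𝓞 K`. -/
theorem hasProd_euler (f : Ideal (𝓞 K) →* ℂ) (h0 : f ⊥ = 0) (hsum : Summable fun I ↦ ‖f I‖)
    (hlt : ∀ v : HeightOneSpectrum (𝓞 K), ‖f v.asIdeal‖ < 1) :
    HasProd (fun v : HeightOneSpectrum (𝓞 K) ↦ (1 - f v.asIdeal)⁻¹) (∑' I, f I) := by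
  classical
  have hS : Tendsto (fun S : Finset (Ideal (𝓞 K)) ↦ ∑ I ∈ S, f I) atTop (𝓝 (∑' I, f I)) :=
    hsum.of_norm.hasSum
  change Tendsto (fun T : Finset (HeightOneSpectrum (𝓞 K)) ↦ ∏ v ∈ T, (1 - f v.asIdeal)⁻¹) atTop
    (𝓝 (∑' I, f I))
  rw [Metric.tendsto_nhds]
  intro ε hε
  have hS' := (Metric.tendsto_nhds.mp hS) (ε / 2) (half_pos hε)
  rw [Filter.eventually_atTop] at hS' ⊢
  obtain ⟨F, hF⟩ := hS'
  obtain ⟨T₀, hT₀⟩ := exists_subset_image F
  refine ⟨T₀, fun T hT ↦ ?_⟩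
  obtain ⟨M₀, hM₀⟩ := hT₀ T hT
  -- the truncated products are close to the sum
  have hclose : ∀ M : ℕ, M₀ ≤ M →
      dist (∏ v ∈ T, ∑ k ∈ Finset.range (M + 1), f v.asIdeal ^ k) (∑' I, f I) ≤ ε / 2 := by
    intro M hM
    rw [prod_geom_eq_sum]
    set S := (Fintype.piFinset fun _ : T ↦ Finset.range (M + 1)).image (idealOf T) with hSdef
    have hsub : S ⊆ S ∪ F := Finset.subset_union_left
    have hzero : ∀ I ∈ S ∪ F, I ∉ S → f I = 0 := by
      intro I hI hIS
      have hIF : I ∈ F := by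
        rcases Finset.mem_union.mp hI with h | h
        · exact absurd h hIS
        · exact h
      by_cases hI0 : I = ⊥
      · rw [hI0, h0]
      · exact absurd (hM₀ M hM I hIF hI0) hIS
    rw [Finset.sum_subset hsub hzero]
    exact (hF (S ∪ F) Finset.subset_union_right).le
  -- let the truncation go to infinity
  have hlim : Tendsto (fun M : ℕ ↦ ∏ v ∈ T, ∑ k ∈ Finset.range (M + 1), f v.asIdeal ^ k) atTop
      (𝓝 (∏ v ∈ T, (1 - f v.asIdeal)⁻¹)) := by
    refine tendsto_finsetProd _ fun v _ ↦ ?_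
    have h1 := (hasSum_geometric_of_norm_lt_one (hlt v)).tendsto_sum_nat
    exact h1.comp (tendsto_add_atTop_nat 1)
  have hle : dist (∏ v ∈ T, (1 - f v.asIdeal)⁻¹) (∑' I, f I) ≤ ε / 2 := by
    refine le_of_tendsto (hlim.dist tendsto_const_nhds) ?_
    rw [Filter.eventually_atTop]
    exact ⟨M₀, hclose⟩
  linarith

/-- The exponential of the logarithmic sum over the places is the sum over the ideals. -/
theorem exp_tsum_log (f : Ideal (𝓞 K) →* ℂ) (h0 : f ⊥ = 0) (hsum : Summable fun I ↦ ‖f I‖)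
    (hlt : ∀ v : HeightOneSpectrum (𝓞 K), ‖f v.asIdeal‖ < 1) :
    Complex.exp (∑' v : HeightOneSpectrum (𝓞 K), -Complex.log (1 - f v.asIdeal)) = ∑' I, f I := by
  have hsv : Summable fun v : HeightOneSpectrum (𝓞 K) ↦ f v.asIdeal :=
    (hsum.of_norm).comp_injective asIdeal_injective
  have hlog : Summable fun v : HeightOneSpectrum (𝓞 K) ↦ -Complex.log (1 - f v.asIdeal) :=
    (hsv.clog_one_sub).neg
  have hP := hlog.hasSum.cexp
  have hP' : HasProd (fun v : HeightOneSpectrum (𝓞 K) ↦ (1 - f v.asIdeal)⁻¹)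
      (Complex.exp (∑' v : HeightOneSpectrum (𝓞 K), -Complex.log (1 - f v.asIdeal))) := by
    refine hP.congr_fun fun v ↦ ?_
    have hne : 1 - f v.asIdeal ≠ 0 := by
      intro h
      have h1 : f v.asIdeal = 1 := (sub_eq_zero.mp h).symm
      have := hlt v
      rw [h1, norm_one] at this
      exact lt_irrefl _ this
    rw [Function.comp_apply, Complex.exp_neg, Complex.exp_log hne]
  exact hP'.unique (hasProd_euler f h0 hsum hlt)

/-! ### The twisted Dedekind series -/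

section twisted

variable (M : Type) [Field M] [NumberField M] {m : ℕ} (χ : DirichletCharacter ℂ m)

/-- The term of the twisted Dedekind series as a multiplicative function of the ideal. -/
def ltermHom (s : ℝ) : Ideal (𝓞 M) →* ℂ where
  toFun I := Seams.lterm M χ s I
  map_one' := by
    change χ ((Ideal.absNorm (1 : Ideal (𝓞 M)) : ℕ) : ZMod m) *
      (((Ideal.absNorm (1 : Ideal (𝓞 M)) : ℝ) ^ (-s) : ℝ) : ℂ) = 1
    simp
  map_mul' I J := by
    change χ ((Ideal.absNorm (I * J) : ℕ) : ZMod m) * (((Ideal.absNorm (I * J) : ℝ) ^ (-s) : ℝ) : ℂ) =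
      (χ ((Ideal.absNorm I : ℕ) : ZMod m) * (((Ideal.absNorm I : ℝ) ^ (-s) : ℝ) : ℂ)) *
      (χ ((Ideal.absNorm J : ℕ) : ZMod m) * (((Ideal.absNorm J : ℝ) ^ (-s) : ℝ) : ℂ))
    simp only [map_mul, Nat.cast_mul]
    rw [Real.mul_rpow (Nat.cast_nonneg _) (Nat.cast_nonneg _)]
    push_cast
    ring

theorem ltermHom_apply (s : ℝ) (I : Ideal (𝓞 M)) : ltermHom M χ s I = Seams.lterm M χ s I := rfl

theorem ltermHom_bot {s : ℝ} (hs : 0 < s) : ltermHom M χ s ⊥ = 0 := by
  change χ ((Ideal.absNorm (⊥ : Ideal (𝓞 M)) : ℕ) : ZMod m) *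
    (((Ideal.absNorm (⊥ : Ideal (𝓞 M)) : ℝ) ^ (-s) : ℝ) : ℂ) = 0
  rw [Ideal.absNorm_bot, Nat.cast_zero, Nat.cast_zero,
    Real.zero_rpow (neg_ne_zero.mpr hs.ne'), Complex.ofReal_zero, mul_zero]

theorem norm_lterm_le (s : ℝ) (I : Ideal (𝓞 M)) : ‖Seams.lterm M χ s I‖ ≤ zterm M s I := by
  change ‖χ ((Ideal.absNorm I : ℕ) : ZMod m) * (((Ideal.absNorm I : ℝ) ^ (-s) : ℝ) : ℂ)‖ ≤
    (Ideal.absNorm I : ℝ) ^ (-s)
  rw [norm_mul, Complex.norm_real, Real.norm_eq_abs,
    abs_of_nonneg (Real.rpow_nonneg (Nat.cast_nonneg _) _)]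
  calc ‖χ ((Ideal.absNorm I : ℕ) : ZMod m)‖ * (Ideal.absNorm I : ℝ) ^ (-s)
      ≤ 1 * (Ideal.absNorm I : ℝ) ^ (-s) :=
        mul_le_mul_of_nonneg_right (DirichletCharacter.norm_le_one χ _)
          (Real.rpow_nonneg (Nat.cast_nonneg _) _)
    _ = (Ideal.absNorm I : ℝ) ^ (-s) := one_mul _

theorem summable_norm_lterm {s : ℝ} (hs : 1 < s) : Summable fun I ↦ ‖ltermHom M χ s I‖ :=
  Summable.of_nonneg_of_le (fun _ ↦ norm_nonneg _) (fun I ↦ norm_lterm_le M χ s I)
    (summable_zterm M hs)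

/-- The local term `χ(N v) N v ^ (-s)`. -/
def zv (s : ℝ) (v : HeightOneSpectrum (𝓞 M)) : ℂ :=
  χ ((nrm v : ℕ) : ZMod m) * ((pterm s v : ℝ) : ℂ)

theorem ltermHom_asIdeal (s : ℝ) (v : HeightOneSpectrum (𝓞 M)) :
    ltermHom M χ s v.asIdeal = zv M χ s v := rfl

theorem norm_zv_le (s : ℝ) (v : HeightOneSpectrum (𝓞 M)) : ‖zv M χ s v‖ ≤ pterm s v :=
  norm_lterm_le M χ s v.asIdeal

theorem norm_zv_le_half {s : ℝ} (hs : 1 ≤ s) (v : HeightOneSpectrum (𝓞 M)) :
    ‖zv M χ s v‖ ≤ 1 / 2 :=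
  (norm_zv_le M χ s v).trans (pterm_le_half hs v)

/-- The logarithm of the Euler product. -/
def logL (s : ℝ) : ℂ := ∑' v : HeightOneSpectrum (𝓞 M), -Complex.log (1 - zv M χ s v)

theorem exp_logL {s : ℝ} (hs : 1 < s) : Complex.exp (logL M χ s) = Seams.lfun M χ s := by
  have h := exp_tsum_log (ltermHom M χ s) (ltermHom_bot M χ (by linarith))
    (summable_norm_lterm M χ hs) (fun v ↦ by
      have := norm_zv_le_half M χ hs.le v
      rw [ltermHom_asIdeal]
      linarith)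
  exact h

theorem continuous_zv (v : HeightOneSpectrum (𝓞 M)) : Continuous fun s : ℝ ↦ zv M χ s v := by
  have h0 : (nrm v : ℝ) ≠ 0 := by
    have := two_le_nrm v
    positivity
  have h1 : Continuous fun s : ℝ ↦ (nrm v : ℝ) ^ (-s) :=
    continuous_const.rpow continuous_neg fun _ ↦ Or.inl h0
  exact continuous_const.mul (Complex.continuous_ofReal.comp h1)

theorem one_sub_mem_slitPlane {z : ℂ} (hz : ‖z‖ ≤ 1 / 2) : 1 - z ∈ Complex.slitPlane := by
  left
  have h1 : z.re ≤ ‖z‖ := Complex.re_le_norm z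
  rw [Complex.sub_re, Complex.one_re]
  linarith

theorem norm_log_one_sub_le {z : ℂ} (hz : ‖z‖ ≤ 1 / 2) : ‖Complex.log (1 - z)‖ ≤ 3 / 2 * ‖z‖ := by
  have h := Complex.norm_log_one_add_half_le_self (z := -z) (by rwa [norm_neg])
  rwa [norm_neg, ← sub_eq_add_neg] at h

theorem norm_log_one_sub_add_le {z : ℂ} (hz : ‖z‖ ≤ 1 / 2) :
    ‖-Complex.log (1 - z) - z‖ ≤ ‖z‖ ^ 2 := by
  have hlt : ‖-z‖ < 1 := by rw [norm_neg]; linarith
  have h := Complex.norm_log_one_add_sub_self_le hlt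
  rw [norm_neg, ← sub_eq_add_neg, sub_neg_eq_add] at h
  have h2 : (1 - ‖z‖)⁻¹ ≤ 2 := by
    rw [inv_le_comm₀ (by linarith) (by norm_num)]
    linarith
  have h3 : ‖-Complex.log (1 - z) - z‖ = ‖Complex.log (1 - z) + z‖ := by
    rw [← norm_neg]
    congr 1
    ring
  rw [h3]
  calc ‖Complex.log (1 - z) + z‖ ≤ ‖z‖ ^ 2 * (1 - ‖z‖)⁻¹ / 2 := h
    _ ≤ ‖z‖ ^ 2 * 2 / 2 := by
        have := sq_nonneg ‖z‖
        have := mul_le_mul_of_nonneg_left h2 this
        linarith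
    _ = ‖z‖ ^ 2 := by ring

/-- `logL` is continuous on every closed half line `[s₁, ∞)`, `s₁ > 1`. -/
theorem continuousOn_logL_Ici {s₁ : ℝ} (hs₁ : 1 < s₁) :
    ContinuousOn (logL M χ) (Set.Ici s₁) := by
  refine continuousOn_tsum (u := fun v : HeightOneSpectrum (𝓞 M) ↦ 3 / 2 * pterm s₁ v)
    (fun v ↦ ?_) ((summable_pterm M hs₁).mul_left _) (fun v s hs ↦ ?_)
  · refine ContinuousOn.neg (ContinuousOn.clog ?_ ?_)
    · exact (continuous_const.sub (continuous_zv M χ v)).continuousOn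
    · intro s hs
      exact one_sub_mem_slitPlane (norm_zv_le_half M χ (hs₁.le.trans hs) v)
  · have hs1 : 1 ≤ s := hs₁.le.trans hs
    rw [norm_neg]
    refine (norm_log_one_sub_le (norm_zv_le_half M χ hs1 v)).trans ?_
    exact mul_le_mul_of_nonneg_left ((norm_zv_le M χ s v).trans (pterm_anti hs v)) (by norm_num)

theorem continuousOn_logL : ContinuousOn (logL M χ) (Set.Ioc 1 2) := by
  intro s hs
  have hs₁ : 1 < (1 + s) / 2 := by linarith [hs.1]
  have hmem : Set.Ici ((1 + s) / 2) ∈ 𝓝 s := Ici_mem_nhds (by linarith [hs.1])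
  exact ((continuousOn_logL_Ici M χ hs₁).continuousAt hmem).continuousWithinAt

/-- `logL s = ∑_v χ(N v) N v ^ (-s) + O(1)`. -/
theorem norm_logL_sub_le {s : ℝ} (hs : 1 < s) :
    ‖logL M χ s - ∑' v : HeightOneSpectrum (𝓞 M), zv M χ s v‖ ≤
      ∑' v : HeightOneSpectrum (𝓞 M), pterm 2 v := by
  have hsz : Summable fun v : HeightOneSpectrum (𝓞 M) ↦ zv M χ s v :=
    Summable.of_norm_bounded (summable_pterm M hs) (fun v ↦ norm_zv_le M χ s v)
  have hsl : Summable fun v : HeightOneSpectrum (𝓞 M) ↦ -Complex.log (1 - zv M χ s v) :=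
    (hsz.clog_one_sub).neg
  have h2 : Summable fun v : HeightOneSpectrum (𝓞 M) ↦ pterm 2 v :=
    summable_pterm M (by norm_num)
  have hle : ∀ v : HeightOneSpectrum (𝓞 M),
      ‖-Complex.log (1 - zv M χ s v) - zv M χ s v‖ ≤ pterm 2 v := by
    intro v
    refine (norm_log_one_sub_add_le (norm_zv_le_half M χ hs.le v)).trans ?_
    refine le_trans ?_ (pterm_sq_le hs.le v)
    exact pow_le_pow_left₀ (norm_nonneg _) (norm_zv_le M χ s v) 2
  rw [logL, ← hsl.tsum_sub hsz]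
  have hsn : Summable fun v : HeightOneSpectrum (𝓞 M) ↦
      ‖-Complex.log (1 - zv M χ s v) - zv M χ s v‖ :=
    Summable.of_nonneg_of_le (fun _ ↦ norm_nonneg _) hle h2
  exact (norm_tsum_le_tsum_norm hsn).trans (hsn.tsum_le_tsum hle h2)

end twisted

/-- **(S-EL)** the logarithm of the Euler product of `L_M(s, χ ∘ N)`. -/
theorem eulerLog : Seams.EulerLog := by
  intro M _ _ m _ χ
  refine ⟨logL M χ, continuousOn_logL M χ, ∑' v : HeightOneSpectrum (𝓞 M), pterm 2 v,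
    fun s hs _ ↦ ⟨exp_logL M χ hs, norm_logL_sub_le M χ hs⟩⟩

end Fermat.Agent.S48.A.Cheb.EulerLog
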