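import Mathlib

/-!
# PROJECT D (S48), part A, brick A6/C10 (first half): irreducibility of `Φ_m` over a number field

* `irreducible_cyclotomic_of_notMem_sq` : Eisenstein at a prime `P` of a domain `R` with
  `(m : R) ∈ P`, `(m : R) ∉ P ^ 2`;
* `irreducible_cyclotomic_of_not_dvd_discr` : for a number field `L` and a prime `m` not dividing
  `discr L`, `Φ_m` is irreducible over `L`;
* `exists_bound_irreducible_cyclotomic` : all large primes qualify.
-/

set_option autoImplicit false

namespace Fermat.Agent.S48.A.Cheb.CycloIrred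

open Polynomial NumberField

/-- the integral Eisenstein polynomial `Φ_m (X + 1)`, transported to any ring -/
theorem cyclotomic_comp_eq_map (R : Type*) [CommRing R] (m : ℕ) :
    (cyclotomic m R).comp (X + 1) =
      ((cyclotomic m ℤ).comp (X + 1)).map (Int.castRingHom R) := by
  rw [Polynomial.map_comp, map_cyclotomic_int]
  simp

/-- **Eisenstein for `Φ_m`** over a domain: a prime ideal containing `m` but whose square does not. -/
theorem irreducible_cyclotomic_of_notMem_sq {R : Type*} [CommRing R] [IsDomain R]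
    (m : ℕ) [hm : Fact m.Prime] (P : Ideal R) (hP : P.IsPrime)
    (h1 : (m : R) ∈ P) (h2 : (m : R) ∉ P ^ 2) : Irreducible (cyclotomic m R) := by
  have hE := cyclotomic_comp_X_add_one_isEisensteinAt m
  set g : ℤ[X] := (cyclotomic m ℤ).comp (X + 1) with hg
  have hgm : g.Monic := by
    rw [hg, show (X + 1 : ℤ[X]) = X + C 1 by simp]
    refine (cyclotomic.monic m ℤ).comp (monic_X_add_C 1) fun h => ?_
    rw [natDegree_X_add_C] at h
    exact zero_ne_one h.symm
  set f : R[X] := g.map (Int.castRingHom R) with hf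
  have hfm : f.Monic := hgm.map _
  have hdeg : f.natDegree = g.natDegree := hgm.natDegree_map _
  have hgdeg : g.natDegree = m - 1 := by
    rw [hg, show (X + 1 : ℤ[X]) = X + C 1 by simp, natDegree_comp, natDegree_X_add_C, mul_one,
      natDegree_cyclotomic, Nat.totient_prime hm.out]
  have hg0 : g.coeff 0 = m := by
    rw [hg, coeff_zero_eq_eval_zero, eval_comp]
    simp [eval_one_cyclotomic_prime]
  have hmem : ∀ z : ℤ, z ∈ Submodule.span ℤ {(m : ℤ)} → (z : R) ∈ P := by
    intro z hz
    obtain ⟨c, rfl⟩ := Submodule.mem_span_singleton.mp hz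
    simp only [smul_eq_mul, Int.cast_mul, Int.cast_natCast]
    exact P.mul_mem_left _ h1
  have hirr : Irreducible f := by
    refine irreducible_of_eisenstein_criterion hP ?_ ?_ ?_ ?_ hfm.isPrimitive
    · rw [hfm.leadingCoeff]
      exact fun h => hP.ne_top ((Ideal.eq_top_iff_one _).mpr h)
    · intro n hn
      have hn' : n < g.natDegree := by
        have := natDegree_lt_natDegree_iff (p := (X : R[X]) ^ n) (q := f)
        rw [← hdeg]
        exact (coe_lt_degree).1 hn
      rw [hf, coeff_map]
      exact hmem _ (hE.mem hn')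
    · rw [← natDegree_pos_iff_degree_pos, hdeg, hgdeg]
      have := hm.out.two_le
      omega
    · rw [hf, coeff_map, hg0]
      simpa using h2
  have hcomp : f = algEquivAevalXAddC (1 : R) (cyclotomic m R) := by
    rw [algEquivAevalXAddC_apply, hf, hg, ← cyclotomic_comp_eq_map]
    simp [comp_eq_aeval]
  rw [hcomp] at hirr
  exact (MulEquiv.irreducible_iff (algEquivAevalXAddC (1 : R))).mp hirr

/-- an unramified prime `P` of `𝓞 L` over the rational prime `m` does not contain `m` twice -/
theorem natCast_notMem_sq_of_isUnramifiedAt (L : Type*) [Field L] [NumberField L]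
    (m : ℕ) [hm : Fact m.Prime] (P : Ideal (𝓞 L)) [hP : P.IsPrime]
    [hPm : P.LiesOver (Ideal.span {(m : ℤ)})] (hunr : Algebra.IsUnramifiedAt ℤ P) :
    ((m : ℕ) : 𝓞 L) ∉ P ^ 2 := by
  set p0 : Ideal ℤ := Ideal.span {(m : ℤ)} with hp0
  have hp0prime : p0.IsPrime :=
    (Ideal.span_singleton_prime (by exact_mod_cast hm.out.ne_zero)).2
      (Nat.prime_iff_prime_int.1 hm.out)
  have hmP : ((m : ℕ) : 𝓞 L) ∈ P := by
    have h1 : (m : ℤ) ∈ P.under ℤ := by
      rw [← hPm.over]
      exact Ideal.subset_span rfl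
    simpa using (Ideal.mem_comap.mp h1)
  have hpP : p0.map (algebraMap ℤ (𝓞 L)) ≤ P := by
    rw [Ideal.map_le_iff_le_comap]
    exact hPm.over.le
  have hPbot : P ≠ ⊥ := by
    intro h
    rw [h, Ideal.mem_bot] at hmP
    exact hm.out.ne_zero (by exact_mod_cast hmP)
  let _ := Localization.AtPrime.algebraOfLiesOver p0 P
  obtain ⟨-, H⟩ := (Algebra.isUnramifiedAt_iff_map_eq ℤ p0 P).mp hunr
  have e1 : Ideal.ramificationIdx' p0 P = 1 :=
    Ideal.ramificationIdx'_eq_one_of_map_localization hpP hPbot
      (Ideal.primeCompl_le_nonZeroDivisors _) H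
  have hnot : ¬ p0.map (algebraMap ℤ (𝓞 L)) ≤ P ^ 2 := by
    intro h
    exact (Ideal.ramificationIdx'_ne_one_iff hpP).mpr h e1
  intro hsq
  apply hnot
  rw [hp0, Ideal.map_span, Set.image_singleton, Ideal.span_singleton_le_iff_mem]
  simpa using hsq

/-- **`Φ_m` is irreducible over a number field `L` when the prime `m` does not divide `discr L`.** -/
theorem irreducible_cyclotomic_of_not_dvd_discr (L : Type*) [Field L] [NumberField L]
    (m : ℕ) [hm : Fact m.Prime] (h : ¬ (m : ℤ) ∣ discr L) : Irreducible (cyclotomic m L) := by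
  have hmprime : Prime (m : ℤ) := Nat.prime_iff_prime_int.1 hm.out
  set p0 : Ideal ℤ := Ideal.span {(m : ℤ)} with hp0
  have hp0max : p0.IsMaximal :=
    (Ideal.span_singleton_prime hmprime.ne_zero).2 hmprime |>.isMaximal
      (by simpa [hp0] using hmprime.ne_zero)
  obtain ⟨P, hPmax, hPover⟩ := Ideal.exists_maximal_ideal_liesOver_of_isIntegral p0 (S := 𝓞 L)
  have : P.IsPrime := hPmax.isPrime
  have : P.LiesOver p0 := hPover
  have hunr : Algebra.IsUnramifiedAt ℤ P :=
    (not_dvd_discr_iff_forall_liesOver L (𝓞 L) hmprime).mp h P hPmax hPover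
  have h2 := natCast_notMem_sq_of_isUnramifiedAt L m P hunr
  have h1 : ((m : ℕ) : 𝓞 L) ∈ P := by
    have h1 : (m : ℤ) ∈ P.under ℤ := by
      rw [← hPover.over]
      exact Ideal.subset_span rfl
    simpa using (Ideal.mem_comap.mp h1)
  have hirr := irreducible_cyclotomic_of_notMem_sq (R := 𝓞 L) m P inferInstance h1 h2
  have := ((cyclotomic.monic m (𝓞 L)).irreducible_iff_irreducible_map_fraction_map (K := L)).mp hirr
  rwa [map_cyclotomic] at this

/-- all large primes qualify -/
theorem exists_bound_irreducible_cyclotomic (L : Type*) [Field L] [NumberField L] :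
    ∃ B : ℕ, ∀ m : ℕ, ∀ _ : Fact m.Prime, B < m → Irreducible (cyclotomic m L) := by
  refine ⟨(discr L).natAbs, fun m hm hB => irreducible_cyclotomic_of_not_dvd_discr L m ?_⟩
  intro hdvd
  have h0 : discr L ≠ 0 := discr_ne_zero L
  have := Int.natAbs_dvd_natAbs.mpr hdvd
  rw [Int.natAbs_natCast] at this
  have hle := Nat.le_of_dvd (Int.natAbs_pos.mpr h0) this
  omega

end Fermat.Agent.S48.A.Cheb.CycloIrred
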