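import Mathlib
import Fermat.Agent.S48.A.Cheb.Seams
import Fermat.Agent.S48.A.Cheb.CycloIrred

/-!
# PROJECT D (S48), part A, brick A6/C10: `CrossLower → NFChebLower`

Given the crossing estimate for every prime `m` with `Φ_m` irreducible over `L` and every
`τ : (ZMod m)ˣ` with `ord σ ∣ ord τ`, we choose a prime `m ≡ 1 mod n ^ k` (`n = ord σ`), large
enough for `Φ_m` to be irreducible over `L` (`m ∤ discr L`, `CycloIrred`), and add up the
estimates over the `τ` with `n ∣ ord τ`; these `τ` are a proportion `≥ 1 - ω(n) / 2 ^ k` of the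
cyclic group `(ZMod m)ˣ`, and the sets of primes they produce are disjoint.
-/

set_option autoImplicit false

noncomputable section

namespace Fermat.Agent.S48.A.Cheb.NFCheb

open Finset Fermat.Agent.S48.A.Cheb.Seams

/-! ### counting in a finite cyclic group -/

/-- If `n ^ k ∣ |G|` (`k ≥ 1`) and `n ∤ ord τ`, then `τ` is killed by `|G| / r ^ k` for some prime
`r ∣ n`. -/
theorem exists_prime_pow_eq_one {G : Type*} [Group G] [Fintype G] {n k : ℕ} (hk : 1 ≤ k)
    (hdiv : n ^ k ∣ Fintype.card G) (τ : G) (hτ : ¬ n ∣ orderOf τ) :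
    ∃ r ∈ n.primeFactors, τ ^ (Fintype.card G / r ^ k) = 1 := by
  have hN0 : Fintype.card G ≠ 0 := Fintype.card_ne_zero
  have hn0 : n ≠ 0 := by
    rintro rfl
    rw [zero_pow (by omega)] at hdiv
    exact hN0 (Nat.eq_zero_of_zero_dvd hdiv)
  have ho0 : orderOf τ ≠ 0 := (orderOf_pos τ).ne'
  have hoN : orderOf τ ∣ Fintype.card G := orderOf_dvd_card
  -- a prime at which `n` has more than `ord τ`
  obtain ⟨r, hr, hlt⟩ : ∃ r : ℕ, r.Prime ∧ (orderOf τ).factorization r < n.factorization r := by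
    by_contra hcon
    refine hτ ((Nat.factorization_prime_le_iff_dvd hn0 ho0).mp fun r hr => ?_)
    by_contra hlt
    exact hcon ⟨r, hr, not_le.mp hlt⟩
  have hrn : r ∈ n.primeFactors := by
    rw [← Nat.support_factorization, Finsupp.mem_support_iff]
    omega
  refine ⟨r, hrn, ?_⟩
  rw [← orderOf_dvd_iff_pow_eq_one]
  have hb : k * n.factorization r ≤ (Fintype.card G).factorization r := by
    have := (Nat.factorization_le_iff_dvd (pow_ne_zero k hn0) hN0).mpr hdiv r
    simpa [Nat.factorization_pow] using this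
  have hmul : orderOf τ * r ^ k ∣ Fintype.card G := by
    rw [← Nat.factorization_le_iff_dvd (mul_ne_zero ho0 (pow_ne_zero k hr.ne_zero)) hN0]
    intro q
    rw [Nat.factorization_mul ho0 (pow_ne_zero k hr.ne_zero), Nat.factorization_pow,
      hr.factorization]
    simp only [Finsupp.coe_add, Finsupp.coe_smul, Pi.add_apply, Pi.smul_apply, smul_eq_mul,
      Finsupp.single_apply]
    by_cases hq : r = q
    · subst hq
      simp only [if_true, mul_one]
      have h1 : (orderOf τ).factorization r + 1 ≤ n.factorization r := hlt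
      nlinarith [hb, h1, hk]
    · simp only [hq, if_false, mul_zero, add_zero]
      exact (Nat.factorization_le_iff_dvd ho0 hN0).mpr hoN q
  exact Nat.dvd_div_of_mul_dvd (by rwa [mul_comm] at hmul)

/-- In a finite cyclic group whose order is divisible by `n ^ k`, the elements whose order is
divisible by `n` have proportion at least `1 - ω(n) / 2 ^ k`. -/
theorem card_filter_dvd_orderOf_ge {G : Type*} [Group G] [Fintype G] [DecidableEq G] [IsCyclic G]
    {n k : ℕ} (hk : 1 ≤ k) (hdiv : n ^ k ∣ Fintype.card G) :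
    (Fintype.card G : ℝ) * (1 - (n.primeFactors.card : ℝ) / 2 ^ k) ≤
      ((univ.filter fun τ : G => n ∣ orderOf τ).card : ℝ) := by
  classical
  set N := Fintype.card G with hN
  have hN0 : 0 < N := Fintype.card_pos
  have hn0 : n ≠ 0 := by
    rintro rfl
    rw [zero_pow (by omega)] at hdiv
    exact hN0.ne' (Nat.eq_zero_of_zero_dvd hdiv)
  set good := univ.filter fun τ : G => n ∣ orderOf τ with hgood
  set bad := univ.filter fun τ : G => ¬ n ∣ orderOf τ with hbad
  have hsplit : good.card + bad.card = N := by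
    rw [hgood, hbad, hN, ← Finset.card_univ]
    exact Finset.card_filter_add_card_filter_not _
  have hsub : bad ⊆ n.primeFactors.biUnion fun r => univ.filter fun τ : G => τ ^ (N / r ^ k) = 1 := by
    intro τ hτ
    rw [hbad, Finset.mem_filter] at hτ
    obtain ⟨r, hr, h1⟩ := exists_prime_pow_eq_one hk hdiv τ hτ.2
    exact Finset.mem_biUnion.mpr ⟨r, hr, Finset.mem_filter.mpr ⟨Finset.mem_univ _, h1⟩⟩
  have hcard : (bad.card : ℝ) ≤ (n.primeFactors.card : ℝ) * (N / 2 ^ k) := by
    have h1 : bad.card ≤ ∑ r ∈ n.primeFactors, (univ.filter fun τ : G => τ ^ (N / r ^ k) = 1).card :=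
      (Finset.card_le_card hsub).trans Finset.card_biUnion_le
    have h2 : ∀ r ∈ n.primeFactors,
        (((univ.filter fun τ : G => τ ^ (N / r ^ k) = 1).card : ℕ) : ℝ) ≤ (N : ℝ) / 2 ^ k := by
      intro r hr
      have hrp : r.Prime := Nat.prime_of_mem_primeFactors hr
      have hrn : r ∣ n := Nat.dvd_of_mem_primeFactors hr
      have hrk : r ^ k ∣ N := (pow_dvd_pow_of_dvd hrn k).trans hdiv
      have hpos : 0 < N / r ^ k := Nat.div_pos (Nat.le_of_dvd hN0 hrk) (pow_pos hrp.pos k)
      have h3 : (univ.filter fun τ : G => τ ^ (N / r ^ k) = 1).card ≤ N / r ^ k :=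
        IsCyclic.card_pow_eq_one_le hpos
      have h4 : ((N / r ^ k : ℕ) : ℝ) = (N : ℝ) / (r : ℝ) ^ k := by
        rw [Nat.cast_div hrk (by exact_mod_cast (pow_pos hrp.pos k).ne')]
        push_cast
        rfl
      calc (((univ.filter fun τ : G => τ ^ (N / r ^ k) = 1).card : ℕ) : ℝ)
          ≤ ((N / r ^ k : ℕ) : ℝ) := by exact_mod_cast h3
        _ = (N : ℝ) / (r : ℝ) ^ k := h4
        _ ≤ (N : ℝ) / 2 ^ k := by
            apply div_le_div_of_nonneg_left (by positivity) (by positivity)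
            exact pow_le_pow_left₀ (by norm_num) (by exact_mod_cast hrp.two_le) k
    calc (bad.card : ℝ)
        ≤ ((∑ r ∈ n.primeFactors, (univ.filter fun τ : G => τ ^ (N / r ^ k) = 1).card : ℕ) : ℝ) := by
          exact_mod_cast h1
      _ = ∑ r ∈ n.primeFactors, (((univ.filter fun τ : G => τ ^ (N / r ^ k) = 1).card : ℕ) : ℝ) := by
          push_cast
          rfl
      _ ≤ ∑ _r ∈ n.primeFactors, (N : ℝ) / 2 ^ k := Finset.sum_le_sum h2
      _ = (n.primeFactors.card : ℝ) * (N / 2 ^ k) := by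
          rw [Finset.sum_const, nsmul_eq_mul]
  have hsplitR : (good.card : ℝ) + (bad.card : ℝ) = (N : ℝ) := by exact_mod_cast hsplit
  have : (N : ℝ) * (1 - (n.primeFactors.card : ℝ) / 2 ^ k) =
      (N : ℝ) - (n.primeFactors.card : ℝ) * (N / 2 ^ k) := by ring
  rw [this]
  linarith

/-! ### the main implication -/

/-- **C10**: the crossing estimate implies Chebotarev's lower bound for one conjugacy class. -/
theorem nfChebLower_of_crossLower (h : CrossLower) : NFChebLower := by
  classical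
  intro L _ _ _ σ S ε hε
  set n := orderOf σ with hn
  have hnpos : 0 < n := orderOf_pos σ
  set c : ℝ := (Nat.card (Subgroup.centralizer {σ}) : ℝ) with hc
  have hc1 : (1 : ℝ) ≤ c := by
    rw [hc]
    exact_mod_cast Nat.card_pos
  -- the exponent `k`
  obtain ⟨k0, hk0⟩ : ∃ k : ℕ, (n.primeFactors.card : ℝ) / 2 ^ k < ε := by
    obtain ⟨k, hk⟩ := pow_unbounded_of_one_lt ((n.primeFactors.card : ℝ) / ε) (by norm_num : (1 : ℝ) < 2)
    refine ⟨k, ?_⟩
    rw [div_lt_iff₀ (by positivity)]
    rw [div_lt_iff₀ hε] at hk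
    linarith
  set k := k0 + 1 with hk
  have hk1 : 1 ≤ k := by omega
  have hkε : (n.primeFactors.card : ℝ) / 2 ^ k ≤ ε := by
    refine le_trans ?_ hk0.le
    apply div_le_div_of_nonneg_left (by positivity) (by positivity)
    exact pow_le_pow_right₀ (by norm_num) (by omega)
  -- the prime `m`
  obtain ⟨B, hB⟩ := CycloIrred.exists_bound_irreducible_cyclotomic L
  obtain ⟨m, hmprime, hBm, hmod⟩ := Nat.exists_prime_gt_modEq_one (k := n ^ k) B (pow_ne_zero k hnpos.ne')
  have : Fact m.Prime := ⟨hmprime⟩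
  have hirr : Irreducible (Polynomial.cyclotomic m L) := hB m ⟨hmprime⟩ hBm
  have hcardU : Fintype.card (ZMod m)ˣ = m - 1 := by
    rw [ZMod.card_units_eq_totient, Nat.totient_prime hmprime]
  have hdiv : n ^ k ∣ Fintype.card (ZMod m)ˣ := by
    rw [hcardU]
    exact (Nat.modEq_iff_dvd' hmprime.one_le).mp hmod.symm
  set T := univ.filter fun τ : (ZMod m)ˣ => n ∣ orderOf τ with hT
  have hTcard : ((m : ℝ) - 1) * (1 - (n.primeFactors.card : ℝ) / 2 ^ k) ≤ (T.card : ℝ) := by
    have := card_filter_dvd_orderOf_ge (G := (ZMod m)ˣ) hk1 hdiv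
    rw [hcardU, Nat.cast_sub hmprime.one_le, Nat.cast_one] at this
    exact this
  have hm1 : (0 : ℝ) < (m : ℝ) - 1 := by
    have : (2 : ℝ) ≤ m := by exact_mod_cast hmprime.two_le
    linarith
  -- the estimates for the good `τ`
  choose! C0 hC0 using fun (τ : (ZMod m)ˣ) (hτ : orderOf σ ∣ orderOf τ) => h L σ m hirr τ hτ S
  refine ⟨∑ τ ∈ T, C0 τ, fun s hs1 hs2 => ?_⟩
  choose! F hF using fun (τ : (ZMod m)ˣ) (hτ : orderOf σ ∣ orderOf τ) => hC0 τ hτ s hs1 hs2
  have hTmem : ∀ τ ∈ T, orderOf σ ∣ orderOf τ := fun τ hτ => (Finset.mem_filter.mp hτ).2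
  refine ⟨T.biUnion F, ?_, ?_⟩
  · intro p hp
    obtain ⟨τ, hτ, hpτ⟩ := Finset.mem_biUnion.mp hp
    obtain ⟨h1, h2, -, h4⟩ := (hF τ (hTmem τ hτ)).1 p hpτ
    exact ⟨h1, h2, h4⟩
  · have hdisj : (T : Set (ZMod m)ˣ).PairwiseDisjoint F := by
      intro τ hτ τ' hτ' hne
      rw [Function.onFun, Finset.disjoint_left]
      intro p hp hp'
      have e1 := ((hF τ (hTmem τ hτ)).1 p hp).2.2.1
      have e2 := ((hF τ' (hTmem τ' hτ')).1 p hp').2.2.1
      exact hne (Units.ext (e1.symm.trans e2))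
    rw [Finset.sum_biUnion hdisj]
    set ℓ := Real.log (1 / (s - 1)) with hℓ
    have hℓ0 : 0 ≤ ℓ := by
      apply Real.log_nonneg
      rw [le_div_iff₀ (by linarith)]
      linarith
    have hsum : ∑ τ ∈ T, ((1 / (c * ((m : ℝ) - 1))) * ℓ - C0 τ) ≤
        ∑ τ ∈ T, ∑ p ∈ F τ, 1 / (p : ℝ) ^ s :=
      Finset.sum_le_sum fun τ hτ => (hF τ (hTmem τ hτ)).2
    refine le_trans ?_ hsum
    rw [Finset.sum_sub_distrib, Finset.sum_const, nsmul_eq_mul]
    have hcoef : 1 / c - ε ≤ (T.card : ℝ) * (1 / (c * ((m : ℝ) - 1))) := by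
      have hcpos : 0 < c := by linarith
      have h1 : (1 - (n.primeFactors.card : ℝ) / 2 ^ k) / c ≤
          (T.card : ℝ) * (1 / (c * ((m : ℝ) - 1))) := by
        rw [mul_one_div, div_le_div_iff₀ hcpos (by positivity)]
        nlinarith [hTcard, hcpos]
      have h2 : ((n.primeFactors.card : ℝ) / 2 ^ k) / c ≤ ε := by
        refine le_trans ?_ hkε
        exact div_le_self (by positivity) hc1
      have h3 : (1 - (n.primeFactors.card : ℝ) / 2 ^ k) / c =
          1 / c - ((n.primeFactors.card : ℝ) / 2 ^ k) / c := by ring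
      linarith
    have := mul_le_mul_of_nonneg_right hcoef hℓ0
    linarith [this, mul_assoc (T.card : ℝ) (1 / (c * ((m : ℝ) - 1))) ℓ]

end Fermat.Agent.S48.A.Cheb.NFCheb
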