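import Mathlib
import Fermat.Agent.S48.A.Cheb.Seams
import Fermat.Agent.S48.A.Cheb.NRD
import Fermat.Agent.S48.A.Cheb.CycloFrob
import Fermat.Agent.S30.Density.SplittingDensity

/-!
# PROJECT D (S48), A6 = Chebotarev, brick C5b (arithmetic half):
# `LContinuous + EulerLog (+ the analytic core) → PrimeCharSumBounded`

`m` prime, `E = M(ζ_m)`, `r = [E : M]`, `H` the group generated by the norm residues mod `m`
(`|H| = r` by the lemmas of `CycloFrob`, which rest on main's `Frobenius.exists_good_inert`).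
Let `T` be the set of Dirichlet characters `χ` mod `m` with `χ ∘ N` trivial; orthogonality summed
over `H` gives `|T| · |H| = φ(m)`.  With `l_χ = log L_M(s, χ ∘ N)` (the seam `EulerLog`):

* `χ ∈ T`: `Re l_χ(s) ≤ log (1/(s-1)) + C` (`l_χ = ∑_{v ∤ m} N v ^ (-s) + O(1)`);
* `∑_χ Re l_χ(s) = φ(m) ∑_{N v ≡ 1} N v ^ (-s) + O(1) ≥ (φ(m)/r) log (1/(s-1)) - C`, because the
  places prime to `m` which split completely in `E` have norm `≡ 1 (mod m)` and logarithmic
  density `1/r` (main's `SplittingDensity.hasLogDensity_splitSet`).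

Since `|T| = φ(m)/r`, the analytic core (`CoreStatement`, helper13's
`NonVanishCore.bounded_of_sum_re_ge`) bounds `l_χ` on `(1, 2]` for `χ ∉ T`, and
`‖l_χ - ∑_v χ(N v) N v ^ (-s)‖ ≤ C` concludes.
-/

set_option autoImplicit false
set_option linter.style.haveILetI false
set_option linter.unusedSectionVars false

noncomputable section

namespace Fermat.Agent.S48.A.Cheb.NonVanish

open NumberField IsDedekindDomain Filter Topology Asymptotics
open Fermat.Agent.S30.Density Fermat.Agent.S30.Density.ZetaEuler Fermat.Agent.S30.Density.PrimeSum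
open Fermat.Agent.S48.A.Cheb.Seams

variable {M : Type} [Field M] [NumberField M] {m : ℕ}

/-! ### Explicit bounds on `(1, 2]` from a logarithmic density -/

theorem setSum_anti (A : Set (HeightOneSpectrum (𝓞 M))) {u s : ℝ} (hu : 1 < u) (hus : u ≤ s) :
    setSum M A s ≤ setSum M A u :=
  Summable.tsum_le_tsum (fun v => pterm_anti hus v.1) (summable_set M A (lt_of_lt_of_le hu hus))
    (summable_set M A hu)

theorem log_inv_nonneg {s : ℝ} (hs : 1 < s) (hs2 : s ≤ 2) : 0 ≤ Real.log (1 / (s - 1)) := by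
  apply Real.log_nonneg
  rw [le_div_iff₀ (by linarith)]
  linarith

theorem log_inv_le {u s : ℝ} (hu : 1 < u) (hus : u ≤ s) :
    Real.log (1 / (s - 1)) ≤ Real.log (1 / (u - 1)) := by
  apply Real.log_le_log (by apply one_div_pos.mpr; linarith)
  apply one_div_le_one_div_of_le (by linarith) (by linarith)

/-- A logarithmic density gives a uniform bound on the whole of `(1, 2]`. -/
theorem exists_bound_of_hasLogDensity {A : Set (HeightOneSpectrum (𝓞 M))} {c : ℝ}
    (h : HasLogDensity M A c) :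
    ∃ C : ℝ, ∀ s : ℝ, 1 < s → s ≤ 2 → |setSum M A s - c * Real.log (1 / (s - 1))| ≤ C := by
  obtain ⟨C1, hC1⟩ := h.bound
  obtain ⟨u, hu, hsub⟩ := mem_nhdsGT_iff_exists_Ioo_subset.mp hC1
  rw [Set.mem_Ioi] at hu
  refine ⟨max C1 (setSum M A u + |c| * Real.log (1 / (u - 1))), fun s hs hs2 => ?_⟩
  by_cases hsu : s < u
  · have h1 := hsub ⟨hs, hsu⟩
    simp only [Set.mem_ofPred_eq, norm_one, mul_one, Real.norm_eq_abs] at h1
    exact h1.trans (le_max_left _ _)
  · push Not at hsu
    refine le_trans ?_ (le_max_right _ _)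
    have h1 : 0 ≤ setSum M A s := setSum_nonneg M A s
    have h2 : setSum M A s ≤ setSum M A u := setSum_anti A hu hsu
    have h3 : 0 ≤ Real.log (1 / (s - 1)) := log_inv_nonneg hs hs2
    have h4 : Real.log (1 / (s - 1)) ≤ Real.log (1 / (u - 1)) := log_inv_le hu hsu
    calc |setSum M A s - c * Real.log (1 / (s - 1))|
        ≤ |setSum M A s| + |c * Real.log (1 / (s - 1))| := abs_sub _ _
      _ = setSum M A s + |c| * Real.log (1 / (s - 1)) := by
          rw [abs_of_nonneg h1, abs_mul, abs_of_nonneg h3]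
      _ ≤ setSum M A u + |c| * Real.log (1 / (u - 1)) :=
          add_le_add h2 (mul_le_mul_of_nonneg_left h4 (abs_nonneg c))

/-! ### Counting the characters trivial on the norm residues -/

open scoped Classical in
/-- The norm residues as a finset. -/
def resFinset (M : Type) [Field M] [NumberField M] (m : ℕ) [NeZero m] : Finset (ZMod m) :=
  Finset.univ.filter fun a => a ∈ normResidues M m

theorem mem_resFinset [NeZero m] {a : ZMod m} : a ∈ resFinset M m ↔ a ∈ normResidues M m := by
  classical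
  rw [resFinset, Finset.mem_filter]
  exact and_iff_right (Finset.mem_univ a)

theorem card_resFinset [NeZero m] : (resFinset M m).card = Nat.card (normResidues M m) := by
  classical
  rw [Nat.card_eq_fintype_card, resFinset]
  exact (Fintype.card_of_subtype _ fun b => by
    rw [Finset.mem_filter]
    exact and_iff_right (Finset.mem_univ b)).symm

/-- The sum of a character over the norm residues vanishes when the character is non-trivial
on them. -/
theorem sum_resFinset_eq_zero [NeZero m] {χ : DirichletCharacter ℂ m} (h : NormNontrivial M χ) :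
    ∑ a ∈ resFinset M m, χ a = 0 := by
  classical
  obtain ⟨v, hv0, hv1⟩ := h
  set b : ZMod m := ((nrm v : ℕ) : ZMod m) with hb
  have hbu : IsUnit b := by
    by_contra hnu
    exact hv0 (MulChar.map_nonunit χ hnu)
  have hbH : b ∈ normResidues M m :=
    NRD.mem_normResidues_of_coprime ((ZMod.isUnit_iff_coprime _ _).mp hbu)
  have h1 : ∑ a ∈ resFinset M m, χ (b * a) = ∑ a ∈ resFinset M m, χ a := by
    refine Finset.sum_nbij (fun a => b * a) ?_ ?_ ?_ (fun _ _ => rfl)
    · intro a ha
      exact mem_resFinset.mpr ((normResidues M m).mul_mem hbH (mem_resFinset.mp ha))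
    · intro a _ a' _ haa
      exact hbu.mul_left_cancel haa
    · -- surjectivity from injectivity on a finite set
      have hinj : Set.InjOn (fun a => b * a) (resFinset M m : Set (ZMod m)) :=
        fun a _ a' _ haa => hbu.mul_left_cancel haa
      have hmaps : Set.MapsTo (fun a => b * a) (resFinset M m : Set (ZMod m)) (resFinset M m) :=
        fun a ha => mem_resFinset.mpr ((normResidues M m).mul_mem hbH (mem_resFinset.mp ha))
      exact Finset.surjOn_of_injOn_of_card_le _ hmaps hinj le_rfl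
  simp only [map_mul] at h1
  rw [← Finset.mul_sum] at h1
  have h2 : (χ b - 1) * ∑ a ∈ resFinset M m, χ a = 0 := by
    rw [sub_mul, h1, one_mul, sub_self]
  rcases mul_eq_zero.mp h2 with h3 | h3
  · exact absurd (sub_eq_zero.mp h3) hv1
  · exact h3

/-- `#{χ : χ ∘ N trivial} · |H| = φ(m)`. -/
theorem ktriv_mul_card [NeZero m] :
    NRD.ktriv M m * Nat.card (normResidues M m) = m.totient := by
  classical
  have h1 : ∑ a ∈ resFinset M m, ∑ χ : DirichletCharacter ℂ m, χ a = (m.totient : ℂ) := by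
    simp_rw [DirichletCharacter.sum_characters_eq ℂ]
    rw [Finset.sum_ite_eq' (resFinset M m) (1 : ZMod m)]
    rw [if_pos (mem_resFinset.mpr (normResidues M m).one_mem)]
  rw [Finset.sum_comm] at h1
  rw [← Finset.sum_filter_not_add_sum_filter _
    (fun χ : DirichletCharacter ℂ m => NormNontrivial M χ)] at h1
  have h2 : ∑ χ ∈ Finset.univ.filter (fun χ : DirichletCharacter ℂ m => NormNontrivial M χ),
      ∑ a ∈ resFinset M m, χ a = 0 :=
    Finset.sum_eq_zero fun χ hχ => sum_resFinset_eq_zero (Finset.mem_filter.mp hχ).2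
  have h3 : ∑ χ ∈ Finset.univ.filter (fun χ : DirichletCharacter ℂ m => ¬ NormNontrivial M χ),
      ∑ a ∈ resFinset M m, χ a =
      ((NRD.ktriv M m : ℕ) : ℂ) * ((Nat.card (normResidues M m) : ℕ) : ℂ) := by
    rw [Finset.sum_congr rfl (g := fun _ => ((resFinset M m).card : ℂ))]
    · rw [Finset.sum_const, nsmul_eq_mul, NRD.ktriv, card_resFinset]
    · intro χ hχ
      rw [Finset.sum_congr rfl (g := fun _ => (1 : ℂ))]
      · simp
      · intro a ha
        exact NRD.apply_eq_one_of_mem_normResidues (Finset.mem_filter.mp hχ).2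
          (mem_resFinset.mp ha)
  rw [h2, h3, add_zero] at h1
  generalize Nat.card (normResidues M m) = n at h1 ⊢
  exact_mod_cast h1

/-! ### The cyclotomic layer `E = M(ζ_m)` -/

section Layer

variable {E : Type} [Field E] [NumberField E] [Algebra M E] [IsGalois M E] {ζ : E}

/-- The group generated by the norm residues has order `[M(ζ_m) : M]`. -/
theorem card_normResidues [Fact m.Prime] (hζ : IsPrimitiveRoot ζ m)
    (htop : IntermediateField.adjoin M {ζ} = ⊤) (g : E ≃ₐ[M] E) (hgen : Subgroup.zpowers g = ⊤) :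
    Nat.card (normResidues M m) = Module.finrank M E := by
  have hm : m.Prime := Fact.out
  haveI : NeZero m := ⟨hm.ne_zero⟩
  obtain ⟨t, hg⟩ := CycloFrob.exists_apply_eq_pow hζ g
  have hmem := CycloFrob.exponent_mem hζ htop hg hgen
  have hH : normResidues M m = Submonoid.powers (t : ZMod m) :=
    le_antisymm (CycloFrob.normResidues_le hζ hg hgen) (Submonoid.powers_le.mpr hmem)
  have hord : orderOf (t : ZMod m) = Module.finrank M E := by
    rw [CycloFrob.orderOf_exponent hζ htop hg, FrobSetup.orderOf_eq_finrank g hgen]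
  have hfin : IsOfFinOrder (t : ZMod m) := by
    rw [← orderOf_pos_iff, hord]
    exact Module.finrank_pos
  rw [hH, CycloFrob.card_powers_eq hfin, hord]

/-- A place prime to `m` which splits completely in `M(ζ_m)` has norm `≡ 1 (mod m)`. -/
theorem natCast_nrm_eq_one_of_splits [Fact m.Prime] (hζ : IsPrimitiveRoot ζ m)
    (v : HeightOneSpectrum (𝓞 M)) (hv : (nrm v).Coprime m)
    (hs : Splitting.SplitsCompletely E v.asIdeal) : ((nrm v : ℕ) : ZMod m) = 1 := by
  have hm : m.Prime := Fact.out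
  haveI : NeZero m := ⟨hm.ne_zero⟩
  obtain ⟨Q, hQ1, hQ2⟩ := CycloFrob.exists_prime_over (E := E) v
  haveI := hQ1
  haveI := hQ2
  obtain ⟨-, hf⟩ := hs Q hQ1 hQ2
  haveI : v.asIdeal.IsMaximal := v.isMaximal
  have hQne : Q ≠ ⊥ := Ideal.ne_bot_of_liesOver_of_ne_bot v.ne_bot Q
  haveI hQmax : Q.IsMaximal := Ring.DimensionLEOne.maximalOfPrime hQne hQ1
  haveI hfin : Finite (𝓞 M ⧸ v.asIdeal) := Ring.HasFiniteQuotients.finiteQuotient v.ne_bot
  haveI hfinQ : Finite (𝓞 E ⧸ Q) := Ring.HasFiniteQuotients.finiteQuotient hQne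
  have hcard : Nat.card (𝓞 E ⧸ Q) = nrm v := by
    have h1 := Ideal.cardQuot_pow_inertiaDeg v.asIdeal Q
    rw [hf, pow_one] at h1
    simpa [Submodule.cardQuot_apply, Ideal.absNorm_apply] using h1.symm
  let _ : Field (𝓞 E ⧸ Q) := Ideal.Quotient.field Q
  let _ : Fintype (𝓞 E ⧸ Q) := Fintype.ofFinite _
  have h2 : (Ideal.Quotient.mk Q hζ.toInteger) ^ nrm v = Ideal.Quotient.mk Q hζ.toInteger := by
    rw [← hcard, Nat.card_eq_fintype_card]
    exact FiniteField.pow_card _
  have h3 : hζ.toInteger ^ nrm v - hζ.toInteger ^ 1 ∈ Q := by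
    rw [pow_one, ← Ideal.Quotient.eq, map_pow]
    exact h2
  have h4 := CycloFrob.pow_eq_of_sub_mem hm hζ.toInteger_isPrimitiveRoot
    (CycloFrob.natCast_notMem v hv Q) h3
  have h5 : ζ ^ nrm v = ζ ^ 1 := by
    have := congrArg (fun x : 𝓞 E => (x : E)) h4
    simp only [CycloFrob.coe_toInteger_pow] at this
    exact this
  have h6 := (CycloFrob.pow_eq_pow_iff hζ _ _).mp h5
  rw [h6]
  simp

end Layer

/-- The cyclotomic layer exists: a number field `E = M(ζ)`, Galois and cyclic over `M`. -/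
theorem exists_layer (M : Type) [Field M] [NumberField M] (m : ℕ) [Fact m.Prime] :
    ∃ (E : Type) (_ : Field E) (_ : NumberField E) (_ : Algebra M E) (_ : IsGalois M E) (ζ : E)
      (g : E ≃ₐ[M] E), IsPrimitiveRoot ζ m ∧ IntermediateField.adjoin M {ζ} = ⊤ ∧
        Subgroup.zpowers g = ⊤ := by
  have hm : m.Prime := Fact.out
  haveI : NeZero m := ⟨hm.ne_zero⟩
  haveI : NumberField (CyclotomicField m M) := IsCyclotomicExtension.numberField {m} M _
  haveI : IsGalois M (CyclotomicField m M) := IsCyclotomicExtension.isGalois {m} M _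
  have hζ := IsCyclotomicExtension.zeta_spec m M (CyclotomicField m M)
  haveI : IsCyclic (CyclotomicField m M ≃ₐ[M] CyclotomicField m M) :=
    isCyclic_of_injective (hζ.autToPow M) (hζ.autToPow_injective M)
  obtain ⟨g, hg⟩ := IsCyclic.exists_generator (α := CyclotomicField m M ≃ₐ[M] CyclotomicField m M)
  refine ⟨CyclotomicField m M, inferInstance, inferInstance, inferInstance, inferInstance,
    IsCyclotomicExtension.zeta m M (CyclotomicField m M), g, hζ, ?_, ?_⟩
  · exact IntermediateField.adjoin_eq_top_of_algebra M _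
      (IsCyclotomicExtension.adjoin_primitive_root_eq_top hζ)
  · exact (Subgroup.eq_top_iff' _).mpr hg


/-! ### The main theorem -/

/-- The analytic core (helper13's `NonVanishCore.bounded_of_sum_re_ge`), as a hypothesis at
`ι : Type`. -/
def CoreStatement : Prop :=
  ∀ {ι : Type} [Fintype ι] [DecidableEq ι] (T : Finset ι) (l F : ι → ℝ → ℂ) (c : ℝ),
    (∀ i ∉ T, ContinuousOn (F i) (Set.Icc 1 2)) → (∀ i ∉ T, ContinuousOn (l i) (Set.Ioc 1 2)) →
    (∀ i ∉ T, ∀ s, 1 < s → s ≤ 2 → Complex.exp (l i s) = F i s) →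
    (∃ C, ∀ i ∈ T, ∀ s, 1 < s → s ≤ 2 → (l i s).re ≤ Real.log (1 / (s - 1)) + C) →
    ((T.card : ℝ) ≤ c) →
    (∃ C, ∀ s, 1 < s → s ≤ 2 → c * Real.log (1 / (s - 1)) - C ≤ ∑ i, (l i s).re) →
    ∀ i ∉ T, F i 1 ≠ 0 ∧ ∃ B, ∀ s, 1 < s → s ≤ 2 → ‖l i s‖ ≤ B

/-- **C5b.** Boundedness of the twisted prime sums from the continuity of the twisted Dedekind
series up to `s = 1`, the logarithm of its Euler product, and the analytic core. -/
theorem primeCharSumBounded (hcore : CoreStatement) (hLC : LContinuous) (hEL : EulerLog) :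
    PrimeCharSumBounded := by
  classical
  intro M _ _ m _ χ₀ hχ₀
  have hm : m.Prime := Fact.out
  haveI : NeZero m := ⟨hm.ne_zero⟩
  -- the logarithms
  choose l hlc Cl hl using fun χ : DirichletCharacter ℂ m => hEL M m χ
  -- the continuous extensions
  have hF : ∀ χ : DirichletCharacter ℂ m, ∃ F : ℝ → ℂ, NormNontrivial M χ →
      (ContinuousOn F (Set.Icc 1 2) ∧ ∀ s : ℝ, 1 < s → s ≤ 2 → lfun M χ s = F s) := fun χ => by
    by_cases h : NormNontrivial M χ
    · obtain ⟨F, hF⟩ := hLC M m χ h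
      exact ⟨F, fun _ => hF⟩
    · exact ⟨0, fun h' => absurd h' h⟩
  choose F hF using hF
  set T : Finset (DirichletCharacter ℂ m) :=
    Finset.univ.filter (fun χ : DirichletCharacter ℂ m => ¬ NormNontrivial M χ) with hT
  have hTmem : ∀ χ : DirichletCharacter ℂ m, χ ∉ T ↔ NormNontrivial M χ := fun χ => by
    rw [hT, Finset.mem_filter, and_iff_right (Finset.mem_univ χ), not_not]
  -- the cyclotomic layer
  obtain ⟨E, _, _, _, _, ζ, g, hζ, htop, hgen⟩ := exists_layer M m
  have hr : 0 < Module.finrank M E := Module.finrank_pos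
  have hr' : (0 : ℝ) < (Module.finrank M E : ℝ) := by exact_mod_cast hr
  have hcardH := card_normResidues hζ htop g hgen
  have hk := ktriv_mul_card (M := M) (m := m)
  rw [hcardH] at hk
  have hTk : T.card = NRD.ktriv M m := by
    rw [NRD.ktriv]
  set c : ℝ := (m.totient : ℝ) / (Module.finrank M E : ℝ) with hc
  have hcard : (T.card : ℝ) ≤ c := by
    rw [hc, le_div_iff₀ hr', hTk]
    exact_mod_cast hk.le
  have hpsum : ∀ (χ : DirichletCharacter ℂ m) (s : ℝ),
      ∑' v : HeightOneSpectrum (𝓞 M), χ ((nrm v : ℕ) : ZMod m) * ((pterm s v : ℝ) : ℂ) =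
        NRD.psum M χ s := fun χ s => rfl
  have hCle : ∀ χ : DirichletCharacter ℂ m, Cl χ ≤ ∑ χ : DirichletCharacter ℂ m, |Cl χ| :=
    fun χ => (le_abs_self _).trans
      (Finset.single_le_sum (f := fun χ => |Cl χ|) (fun _ _ => abs_nonneg _) (Finset.mem_univ χ))
  -- the characters with trivial `χ ∘ N`
  obtain ⟨Ccop, hCcop⟩ := exists_bound_of_hasLogDensity (NRD.hasLogDensity_cop (M := M) (m := m))
  have hTbound : ∃ C, ∀ χ ∈ T, ∀ s : ℝ, 1 < s → s ≤ 2 →
      (l χ s).re ≤ Real.log (1 / (s - 1)) + C := by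
    refine ⟨Ccop + ∑ χ : DirichletCharacter ℂ m, |Cl χ|, fun χ hχ s hs hs2 => ?_⟩
    have hχ' : ¬ NormNontrivial M χ := (Finset.mem_filter.mp hχ).2
    have h1 := (hl χ s hs hs2).2
    rw [hpsum, NRD.psum_of_not_normNontrivial hχ'] at h1
    have h2 : |(l χ s).re - setSum M (NRD.cop M m) s| ≤ Cl χ := by
      have h3 := (Complex.abs_re_le_norm (l χ s - ((setSum M (NRD.cop M m) s : ℝ) : ℂ))).trans h1
      rwa [Complex.sub_re, Complex.ofReal_re] at h3
    have h4 := hCcop s hs hs2
    rw [one_mul] at h4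
    have h5 := (abs_le.mp h2).2
    have h6 := (abs_le.mp h4).2
    have h7 := hCle χ
    linarith only [h5, h6, h7]
  -- the lower bound for the sum over all characters
  have hsum : ∃ C, ∀ s : ℝ, 1 < s → s ≤ 2 →
      c * Real.log (1 / (s - 1)) - C ≤ ∑ χ : DirichletCharacter ℂ m, (l χ s).re := by
    have hd1 : HasLogDensity M (SplittingDensity.splitSet M E \ (NRD.cop M m)ᶜ)
        (1 / (Module.finrank M E : ℝ)) :=
      (SplittingDensity.hasLogDensity_splitSet M E).diff_zero
        (HasLogDensity.of_finite (NRD.finite_compl_cop (M := M) (m := m)))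
    obtain ⟨Cs, hCs⟩ := exists_bound_of_hasLogDensity hd1
    refine ⟨(m.totient : ℝ) * Cs + ∑ χ : DirichletCharacter ℂ m, |Cl χ|, fun s hs hs2 => ?_⟩
    have hsub : SplittingDensity.splitSet M E \ (NRD.cop M m)ᶜ ⊆
        {v : HeightOneSpectrum (𝓞 M) | ((nrm v : ℕ) : ZMod m) = 1} := by
      rintro v ⟨hv1, hv2⟩
      have hv3 : (nrm v).Coprime m := by
        by_contra hcon
        exact hv2 hcon
      exact natCast_nrm_eq_one_of_splits hζ v hv3 hv1.2
    have h1 : setSum M (SplittingDensity.splitSet M E \ (NRD.cop M m)ᶜ) s ≤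
        setSum M {v : HeightOneSpectrum (𝓞 M) | ((nrm v : ℕ) : ZMod m) = 1} s :=
      setSum_mono M hsub hs
    have h2 := NRD.totient_mul_setSum (M := M) (b := (1 : ZMod m)) isUnit_one hs
    have h3 : ∑ χ : DirichletCharacter ℂ m, (NRD.psum M χ s).re =
        (m.totient : ℝ) * setSum M {v : HeightOneSpectrum (𝓞 M) | ((nrm v : ℕ) : ZMod m) = 1} s := by
      have h2' : ∑ χ : DirichletCharacter ℂ m, χ (1 : ZMod m)⁻¹ * NRD.psum M χ s =
          ∑ χ : DirichletCharacter ℂ m, NRD.psum M χ s :=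
        Finset.sum_congr rfl fun χ _ => by rw [inv_one, map_one, one_mul]
      rw [h2'] at h2
      have h4 := congrArg Complex.re h2
      rw [Complex.re_sum] at h4
      rw [← h4, ← Complex.ofReal_mul, Complex.ofReal_re]
    have h5 : ∀ χ : DirichletCharacter ℂ m, (NRD.psum M χ s).re - |Cl χ| ≤ (l χ s).re := fun χ => by
      have h6 := (hl χ s hs hs2).2
      rw [hpsum] at h6
      have h7 := (Complex.abs_re_le_norm (l χ s - NRD.psum M χ s)).trans h6
      rw [Complex.sub_re] at h7
      generalize (NRD.psum M χ s).re = P at h7 ⊢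
      have h8 := (abs_le.mp h7).1
      have h9 := le_abs_self (Cl χ)
      linarith only [h8, h9]
    have h10 := (abs_le.mp (hCs s hs hs2)).1
    have hφ : (0 : ℝ) ≤ (m.totient : ℝ) := Nat.cast_nonneg _
    have h11 : c * Real.log (1 / (s - 1)) =
        (m.totient : ℝ) * (1 / (Module.finrank M E : ℝ) * Real.log (1 / (s - 1))) := by
      rw [hc]
      ring
    generalize setSum M (SplittingDensity.splitSet M E \ (NRD.cop M m)ᶜ) s = S1 at h1 h10
    calc c * Real.log (1 / (s - 1)) - ((m.totient : ℝ) * Cs + ∑ χ : DirichletCharacter ℂ m, |Cl χ|)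
        = (m.totient : ℝ) * (1 / (Module.finrank M E : ℝ) * Real.log (1 / (s - 1)) - Cs) -
            ∑ χ : DirichletCharacter ℂ m, |Cl χ| := by rw [h11]; ring
      _ ≤ (m.totient : ℝ) * S1 -
            ∑ χ : DirichletCharacter ℂ m, |Cl χ| := by
          have : 1 / (Module.finrank M E : ℝ) * Real.log (1 / (s - 1)) - Cs ≤ S1 := by
            linarith only [h10]
          have := mul_le_mul_of_nonneg_left this hφ
          linarith only [this]
      _ ≤ (m.totient : ℝ) *
            setSum M {v : HeightOneSpectrum (𝓞 M) | ((nrm v : ℕ) : ZMod m) = 1} s -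
            ∑ χ : DirichletCharacter ℂ m, |Cl χ| := by
          have := mul_le_mul_of_nonneg_left h1 hφ
          linarith only [this]
      _ = ∑ χ : DirichletCharacter ℂ m, ((NRD.psum M χ s).re - |Cl χ|) := by
          rw [Finset.sum_sub_distrib, h3]
      _ ≤ ∑ χ : DirichletCharacter ℂ m, (l χ s).re := Finset.sum_le_sum fun χ _ => h5 χ
  -- the analytic core
  have key := hcore T l F c (fun χ hχ => (hF χ ((hTmem χ).mp hχ)).1) (fun χ _ => hlc χ)
    (fun χ hχ s hs hs2 => by
      rw [(hl χ s hs hs2).1]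
      exact (hF χ ((hTmem χ).mp hχ)).2 s hs hs2)
    hTbound hcard hsum
  obtain ⟨-, B, hB⟩ := key χ₀ ((hTmem χ₀).mpr hχ₀)
  refine ⟨B + Cl χ₀, fun s hs hs2 => ?_⟩
  have h1 := (hl χ₀ s hs hs2).2
  rw [hpsum] at h1 ⊢
  calc ‖NRD.psum M χ₀ s‖ = ‖l χ₀ s - (l χ₀ s - NRD.psum M χ₀ s)‖ := by
        congr 1
        ring
    _ ≤ ‖l χ₀ s‖ + ‖l χ₀ s - NRD.psum M χ₀ s‖ := norm_sub_le _ _
    _ ≤ B + Cl χ₀ := add_le_add (hB s hs hs2) h1

end Fermat.Agent.S48.A.Cheb.NonVanish
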