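/-
PROJECT D (S48), part A, A6 = Chebotarev, the ANALYTIC CORE of brick C5b (helper13).

No number field here.  `ι` is a finite index set (the Dirichlet characters mod `m`), `T ⊆ ι` the
"trivial" indices (the characters with `χ ∘ N` trivial), `l i` a logarithm of `F i` on `(1, 2]`,
`F i` continuous on `[1, 2]` for `i ∉ T`.  If `∑ᵢ Re (l i s) ≥ c log (1/(s-1)) - C` with
`|T| ≤ c` and `Re (l i s) ≤ log (1/(s-1)) + C` for `i ∈ T`, then for every `i ∉ T`:
`F i 1 ≠ 0` and `l i` is bounded on `(1, 2]`.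

* `abs_sub_le_two_pi_of_avoid` : a continuous real function on a preconnected set which avoids the
  odd multiples of `π` moves by at most `2 π`;
* `exists_im_bound`            : the continuous-branch argument: `exp ∘ l = F`, `F` continuous on
  `[1, 2]`, `F 1 ≠ 0`  ⟹  `Im l` is bounded on `(1, 2]`;
* `bounded_of_sum_re_ge`       : the statement above.

Mathlib only.
-/
import Mathlib

set_option autoImplicit false

namespace Fermat.Agent.S48.A.Cheb.NonVanishCore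

open Set Filter Topology

/-- every real number is followed, within `2 π`, by an odd multiple of `π` -/
theorem exists_odd_mul_pi (x : ℝ) :
    ∃ k : ℤ, x ≤ (2 * (k : ℝ) + 1) * Real.pi ∧ (2 * (k : ℝ) + 1) * Real.pi < x + 2 * Real.pi := by
  have hπ : 0 < Real.pi := Real.pi_pos
  refine ⟨⌈(x / Real.pi - 1) / 2⌉, ?_, ?_⟩
  · have h1 := Int.le_ceil ((x / Real.pi - 1) / 2)
    have h2 : x / Real.pi ≤ 2 * (⌈(x / Real.pi - 1) / 2⌉ : ℝ) + 1 := by linarith
    calc x = x / Real.pi * Real.pi := by field_simp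
      _ ≤ (2 * (⌈(x / Real.pi - 1) / 2⌉ : ℝ) + 1) * Real.pi :=
        mul_le_mul_of_nonneg_right h2 hπ.le
  · have h1 := Int.ceil_lt_add_one ((x / Real.pi - 1) / 2)
    have h2 : 2 * (⌈(x / Real.pi - 1) / 2⌉ : ℝ) + 1 < x / Real.pi + 2 := by linarith
    calc (2 * (⌈(x / Real.pi - 1) / 2⌉ : ℝ) + 1) * Real.pi < (x / Real.pi + 2) * Real.pi :=
        mul_lt_mul_of_pos_right h2 hπ
      _ = x + 2 * Real.pi := by field_simp

/-- a continuous real function on a preconnected set which avoids the odd multiples of `π` moves by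
at most `2 π` -/
theorem abs_sub_le_two_pi_of_avoid {S : Set ℝ} (hS : IsPreconnected S) {g : ℝ → ℝ}
    (hg : ContinuousOn g S)
    (havoid : ∀ s ∈ S, ∀ k : ℤ, g s ≠ (2 * (k : ℝ) + 1) * Real.pi) {a b : ℝ} (ha : a ∈ S)
    (hb : b ∈ S) : |g a - g b| ≤ 2 * Real.pi := by
  have himg : IsPreconnected (g '' S) := hS.image g hg
  have key : ∀ a ∈ S, ∀ b ∈ S, g a ≤ g b → g b - g a ≤ 2 * Real.pi := by
    intro a ha b hb hab
    by_contra hcon
    rw [not_le] at hcon
    obtain ⟨k, hk1, hk2⟩ := exists_odd_mul_pi (g a)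
    have hmem : (2 * (k : ℝ) + 1) * Real.pi ∈ g '' S :=
      himg.Icc_subset (mem_image_of_mem g ha) (mem_image_of_mem g hb) ⟨hk1, by linarith⟩
    obtain ⟨s, hs, hgs⟩ := hmem
    exact havoid s hs k hgs
  rcases le_total (g a) (g b) with h | h
  · rw [abs_sub_comm, abs_of_nonneg (sub_nonneg.2 h)]
    exact key a ha b hb h
  · rw [abs_of_nonneg (sub_nonneg.2 h)]
    exact key b hb a ha h

/-- if `exp z = - t • w` with `t > 0`, then `z` is far from... : the value `exp z` of a point whose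
imaginary part is `arg w` plus an odd multiple of `π` is a negative multiple of `w` -/
theorem norm_exp_sub_ge {z w : ℂ} (hw : w ≠ 0) {k : ℤ}
    (him : z.im - Complex.arg w = (2 * (k : ℝ) + 1) * Real.pi) : ‖w‖ ≤ ‖Complex.exp z - w‖ := by
  have hz : z = (z.re : ℂ) + ((Complex.arg w : ℝ) : ℂ) * Complex.I +
      (((2 * (k : ℝ) + 1) * Real.pi : ℝ) : ℂ) * Complex.I := by
    apply Complex.ext
    · simp
    · simp only [Complex.add_im, Complex.ofReal_im, Complex.mul_im, Complex.ofReal_re,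
        Complex.I_im, Complex.I_re, mul_one, mul_zero, add_zero, zero_add]
      linarith
  have hodd : Complex.exp ((((2 * (k : ℝ) + 1) * Real.pi : ℝ) : ℂ) * Complex.I) = -1 := by
    have h1 : ((((2 * (k : ℝ) + 1) * Real.pi : ℝ) : ℂ) * Complex.I) =
        (k : ℂ) * (2 * (Real.pi : ℂ) * Complex.I) + (Real.pi : ℂ) * Complex.I := by
      push_cast
      ring
    rw [h1, Complex.exp_add, Complex.exp_int_mul_two_pi_mul_I, one_mul, Complex.exp_pi_mul_I]
  have hw' : (‖w‖ : ℂ) * Complex.exp (((Complex.arg w : ℝ) : ℂ) * Complex.I) = w :=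
    Complex.norm_mul_exp_arg_mul_I w
  have hexp : Complex.exp z = -((Real.exp z.re / ‖w‖ : ℝ) : ℂ) * w := by
    have hn : (‖w‖ : ℂ) ≠ 0 := by
      rw [Ne, Complex.ofReal_eq_zero, norm_eq_zero]
      exact hw
    have hE : Complex.exp (((Complex.arg w : ℝ) : ℂ) * Complex.I) = w / (‖w‖ : ℂ) :=
      eq_div_of_mul_eq hn (by rw [mul_comm]; exact hw')
    conv_lhs => rw [hz, Complex.exp_add, Complex.exp_add, hodd, ← Complex.ofReal_exp, hE]
    push_cast
    ring
  have ht : 0 ≤ Real.exp z.re / ‖w‖ := div_nonneg (Real.exp_pos _).le (norm_nonneg _)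
  have h2 : Complex.exp z - w = -(((Real.exp z.re / ‖w‖ + 1 : ℝ)) : ℂ) * w := by
    rw [hexp]
    push_cast
    ring
  rw [h2, norm_mul, norm_neg, Complex.norm_real, Real.norm_of_nonneg (by linarith)]
  nlinarith [norm_nonneg w]

/-- **the continuous branch**: a logarithm `l` on `(1, 2]` of a function `F` continuous on `[1, 2]`
with `F 1 ≠ 0` has bounded imaginary part -/
theorem exists_im_bound {l F : ℝ → ℂ} (hF : ContinuousOn F (Icc 1 2))
    (hl : ContinuousOn l (Ioc 1 2)) (hexp : ∀ s, 1 < s → s ≤ 2 → Complex.exp (l s) = F s)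
    (hF1 : F 1 ≠ 0) : ∃ B : ℝ, ∀ s, 1 < s → s ≤ 2 → |(l s).im| ≤ B := by
  -- near `1` the values of `F` stay close to `F 1`
  have hcont : ContinuousWithinAt F (Icc 1 2) 1 := hF 1 ⟨le_rfl, one_le_two⟩
  obtain ⟨δ, hδ, hδF⟩ := Metric.continuousWithinAt_iff.1 hcont ‖F 1‖ (norm_pos_iff.2 hF1)
  obtain ⟨η, hη0, hη1, hηδ⟩ : ∃ η : ℝ, 0 < η ∧ η ≤ 1 ∧ η < δ :=
    ⟨min (δ / 2) 1, lt_min (half_pos hδ) one_pos, min_le_right _ _,
      lt_of_le_of_lt (min_le_left _ _) (half_lt_self hδ)⟩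
  have hclose : ∀ s ∈ Ioc (1 : ℝ) (1 + η), ‖F s - F 1‖ < ‖F 1‖ := by
    intro s hs
    have h1 : s ∈ Icc (1 : ℝ) 2 := ⟨hs.1.le, by linarith [hs.2]⟩
    have h2 : dist s 1 < δ := by
      rw [Real.dist_eq, abs_of_pos (by linarith [hs.1])]
      linarith [hs.2]
    have := hδF h1 h2
    rwa [dist_eq_norm] at this
  -- the imaginary part avoids the odd multiples of `π` (shifted by `arg (F 1)`)
  have hsub : Ioc (1 : ℝ) (1 + η) ⊆ Ioc 1 2 := fun s hs => ⟨hs.1, by linarith [hs.2]⟩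
  have hg : ContinuousOn (fun s => (l s).im - Complex.arg (F 1)) (Ioc (1 : ℝ) (1 + η)) :=
    ((Complex.continuous_im.comp_continuousOn hl).mono hsub).sub continuousOn_const
  have havoid : ∀ s ∈ Ioc (1 : ℝ) (1 + η), ∀ k : ℤ,
      (l s).im - Complex.arg (F 1) ≠ (2 * (k : ℝ) + 1) * Real.pi := by
    intro s hs k hk
    have h1 := norm_exp_sub_ge hF1 hk
    rw [hexp s hs.1 (hsub hs).2] at h1
    exact absurd (hclose s hs) (not_lt.2 h1)
  have hmem : (1 + η : ℝ) ∈ Ioc (1 : ℝ) (1 + η) := ⟨by linarith, le_rfl⟩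
  have hnear : ∀ s ∈ Ioc (1 : ℝ) (1 + η), |(l s).im| ≤ |(l (1 + η)).im| + 2 * Real.pi := by
    intro s hs
    have h1 := abs_sub_le_two_pi_of_avoid isPreconnected_Ioc hg havoid hs hmem
    have h2 : (l s).im = ((l s).im - Complex.arg (F 1) - ((l (1 + η)).im - Complex.arg (F 1))) +
        (l (1 + η)).im := by ring
    rw [h2]
    exact (abs_add_le _ _).trans (by linarith)
  -- compactness away from `1`
  have hcpt : IsCompact (Icc (1 + η : ℝ) 2) := isCompact_Icc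
  have hsub' : Icc (1 + η : ℝ) 2 ⊆ Ioc 1 2 := fun s hs => ⟨by linarith [hs.1], hs.2⟩
  obtain ⟨B', hB'⟩ := hcpt.exists_bound_of_continuousOn
    ((Complex.continuous_im.comp_continuousOn hl).mono hsub')
  refine ⟨max (|(l (1 + η)).im| + 2 * Real.pi) B', fun s hs1 hs2 => ?_⟩
  rcases le_or_gt s (1 + η) with h | h
  · exact (hnear s ⟨hs1, h⟩).trans (le_max_left _ _)
  · have := hB' s ⟨h.le, hs2⟩
    rw [Function.comp_apply, Real.norm_eq_abs] at this
    exact this.trans (le_max_right _ _)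

/-- **The analytic core of the non-vanishing.**  `T` = the indices with a pole, `c` = the total
order of the pole of the product; if `|T| ≤ c` then no `F i`, `i ∉ T`, vanishes at `1`, and the
logarithms `l i`, `i ∉ T`, are bounded on `(1, 2]`. -/
theorem bounded_of_sum_re_ge {ι : Type*} [Fintype ι] [DecidableEq ι] (T : Finset ι)
    (l F : ι → ℝ → ℂ) (c : ℝ) (hF : ∀ i ∉ T, ContinuousOn (F i) (Icc 1 2))
    (hl : ∀ i ∉ T, ContinuousOn (l i) (Ioc 1 2))
    (hexp : ∀ i ∉ T, ∀ s, 1 < s → s ≤ 2 → Complex.exp (l i s) = F i s)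
    (hT : ∃ C : ℝ, ∀ i ∈ T, ∀ s, 1 < s → s ≤ 2 → (l i s).re ≤ Real.log (1 / (s - 1)) + C)
    (hcard : (T.card : ℝ) ≤ c)
    (hsum : ∃ C : ℝ, ∀ s, 1 < s → s ≤ 2 →
      c * Real.log (1 / (s - 1)) - C ≤ ∑ i, (l i s).re) :
    ∀ i ∉ T, F i 1 ≠ 0 ∧ ∃ B : ℝ, ∀ s, 1 < s → s ≤ 2 → ‖l i s‖ ≤ B := by
  obtain ⟨CT, hCT⟩ := hT
  obtain ⟨CS, hCS⟩ := hsum
  -- upper bounds for the real parts off `T`
  have hub : ∀ i, ∃ b : ℝ, i ∉ T → ∀ s, 1 < s → s ≤ 2 → (l i s).re ≤ b := by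
    intro i
    by_cases hi : i ∈ T
    · exact ⟨0, fun h => absurd hi h⟩
    · obtain ⟨B, hB⟩ := isCompact_Icc.exists_bound_of_continuousOn (hF i hi)
      refine ⟨Real.log (max B 1), fun _ s hs1 hs2 => ?_⟩
      have h1 : Real.exp (l i s).re = ‖F i s‖ := by rw [← hexp i hi s hs1 hs2, Complex.norm_exp]
      have h2 : ‖F i s‖ ≤ max B 1 := (hB s ⟨hs1.le, hs2⟩).trans (le_max_left _ _)
      calc (l i s).re = Real.log (Real.exp (l i s).re) := (Real.log_exp _).symm
        _ ≤ Real.log (max B 1) := Real.log_le_log (Real.exp_pos _) (h1 ▸ h2)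
  choose b hb using hub
  -- the uniform lower bound
  obtain ⟨D, hD⟩ : ∃ D : ℝ, D = CS + (T.card : ℝ) * |CT| + ∑ i ∈ Tᶜ, |b i| := ⟨_, rfl⟩
  have hlow : ∀ j ∉ T, ∀ s, 1 < s → s ≤ 2 → -D ≤ (l j s).re := by
    intro j hj s hs1 hs2
    have hL : 0 ≤ Real.log (1 / (s - 1)) :=
      Real.log_nonneg ((one_le_div (by linarith)).2 (by linarith))
    have h1 := hCS s hs1 hs2
    rw [← Finset.sum_add_sum_compl T] at h1
    have h2 : ∑ i ∈ T, (l i s).re ≤ (T.card : ℝ) * (Real.log (1 / (s - 1)) + CT) := by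
      calc ∑ i ∈ T, (l i s).re ≤ ∑ _i ∈ T, (Real.log (1 / (s - 1)) + CT) :=
            Finset.sum_le_sum fun i hi => hCT i hi s hs1 hs2
        _ = (T.card : ℝ) * (Real.log (1 / (s - 1)) + CT) := by
            rw [Finset.sum_const, nsmul_eq_mul]
    have hjc : j ∈ Tᶜ := Finset.mem_compl.2 hj
    have h3 : ∑ i ∈ Tᶜ, (l i s).re ≤ (l j s).re + ∑ i ∈ Tᶜ, |b i| := by
      rw [← Finset.add_sum_erase _ _ hjc]
      have h4 : ∑ i ∈ Tᶜ.erase j, (l i s).re ≤ ∑ i ∈ Tᶜ.erase j, |b i| :=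
        Finset.sum_le_sum fun i hi =>
          (hb i (Finset.mem_compl.1 (Finset.mem_of_mem_erase hi)) s hs1 hs2).trans (le_abs_self _)
      have h5 : ∑ i ∈ Tᶜ.erase j, |b i| ≤ ∑ i ∈ Tᶜ, |b i| :=
        Finset.sum_le_sum_of_subset_of_nonneg (Finset.erase_subset _ _)
          fun _ _ _ => abs_nonneg _
      linarith
    have h6 : (T.card : ℝ) * CT ≤ (T.card : ℝ) * |CT| :=
      mul_le_mul_of_nonneg_left (le_abs_self _) (Nat.cast_nonneg _)
    have h7 : 0 ≤ (c - (T.card : ℝ)) * Real.log (1 / (s - 1)) :=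
      mul_nonneg (sub_nonneg.2 hcard) hL
    rw [hD]
    nlinarith
  intro j hj
  have hnorm : ∀ s, 1 < s → s ≤ 2 → Real.exp (-D) ≤ ‖F j s‖ := fun s hs1 hs2 => by
    rw [← hexp j hj s hs1 hs2, Complex.norm_exp]
    exact Real.exp_le_exp.2 (hlow j hj s hs1 hs2)
  -- non-vanishing at `1`
  have hF1 : F j 1 ≠ 0 := by
    intro h0
    have hcont : ContinuousWithinAt (F j) (Icc 1 2) 1 := hF j hj 1 ⟨le_rfl, one_le_two⟩
    obtain ⟨δ, hδ, hδF⟩ := Metric.continuousWithinAt_iff.1 hcont (Real.exp (-D)) (Real.exp_pos _)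
    have hη0 : 0 < min (δ / 2) 1 := lt_min (half_pos hδ) one_pos
    have hη1 : min (δ / 2) 1 ≤ 1 := min_le_right _ _
    have hηδ : min (δ / 2) 1 < δ := lt_of_le_of_lt (min_le_left _ _) (half_lt_self hδ)
    have h1 : (1 + min (δ / 2) 1 : ℝ) ∈ Icc (1 : ℝ) 2 := ⟨by linarith, by linarith⟩
    have h2 : dist (1 + min (δ / 2) 1 : ℝ) 1 < δ := by
      rw [Real.dist_eq, abs_of_pos (by linarith)]
      linarith
    have h3 := hδF h1 h2
    rw [dist_eq_norm, h0, sub_zero] at h3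
    exact absurd (hnorm _ (by linarith) h1.2) (not_le.2 h3)
  refine ⟨hF1, ?_⟩
  obtain ⟨B, hB⟩ := exists_im_bound (hF j hj) (hl j hj) (hexp j hj) hF1
  refine ⟨|b j| + |D| + B, fun s hs1 hs2 => ?_⟩
  have h1 := hlow j hj s hs1 hs2
  have h2 := hb j hj s hs1 hs2
  have h3 : |(l j s).re| ≤ |b j| + |D| := by
    rw [abs_le]
    constructor
    · have := neg_abs_le D
      have := abs_nonneg (b j)
      linarith [le_abs_self D]
    · have := le_abs_self (b j)
      have := abs_nonneg D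
      linarith
  calc ‖l j s‖ ≤ |(l j s).re| + |(l j s).im| := Complex.norm_le_abs_re_add_abs_im _
    _ ≤ |b j| + |D| + B := by linarith [hB s hs1 hs2]

end Fermat.Agent.S48.A.Cheb.NonVanishCore
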