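import Mathlib
import Fermat.Agent.S48.A.Cheb.Seams
import Fermat.Agent.S48.A.Cheb.EulerLog
import Fermat.Agent.S48.A.Cheb.NonVanishCore
import Fermat.Agent.S48.A.Cheb.NonVanish
import Fermat.Agent.S48.A.Cheb.NRD
import Fermat.Agent.S48.A.Cheb.CycloFrob
import Fermat.Agent.S48.A.Cheb.Deuring
import Fermat.Agent.S48.A.Cheb.Cross
import Fermat.Agent.S48.A.Cheb.NFCheb
import Fermat.Agent.S48.A.Cheb.Dict

/-!
# PROJECT D (S48), A6 = Chebotarev: the composition of the bricks

```
 LContinuous (C1-C4, TwistL)
   + EulerLog.eulerLog (C5a) + NonVanishCore.bounded_of_sum_re_ge + NonVanish (C5b)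
                                        ⟹ PrimeCharSumBounded
   ⟹ (C6 NRD) NormResidueDensity ⟹ (C7 CycloFrob) CycloFrobDensity
   + Deuring.deuringLower (C8) ⟹ (C9 Cross) CrossLower ⟹ (C10 NFCheb) NFChebLower
   ⟹ (C11 Dict) ChebLower
```

The only hypothesis left is `Seams.LContinuous`: the continuity on `[1, 2]` of the twisted Dedekind
series `L_M(s, χ ∘ N)` for `χ ∘ N` non-trivial.
-/

set_option autoImplicit false

namespace Fermat.Agent.S48.A.Cheb.Main

open Fermat.Agent.S48.A.Cheb

/-- The analytic core is a theorem. -/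
theorem coreStatement : NonVanish.CoreStatement :=
  fun T l F c h1 h2 h3 h4 h5 h6 => NonVanishCore.bounded_of_sum_re_ge T l F c h1 h2 h3 h4 h5 h6

theorem primeCharSumBounded_of_lContinuous (hLC : Seams.LContinuous) :
    Seams.PrimeCharSumBounded :=
  NonVanish.primeCharSumBounded coreStatement hLC EulerLog.eulerLog

theorem normResidueDensity_of_lContinuous (hLC : Seams.LContinuous) : Seams.NormResidueDensity :=
  NRD.normResidueDensity (primeCharSumBounded_of_lContinuous hLC)

theorem cycloFrobDensity_of_lContinuous (hLC : Seams.LContinuous) : Seams.CycloFrobDensity :=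
  CycloFrob.cycloFrobDensity (normResidueDensity_of_lContinuous hLC)

theorem crossLower_of_lContinuous (hLC : Seams.LContinuous) : Seams.CrossLower :=
  Cross.crossLower (cycloFrobDensity_of_lContinuous hLC) Deuring.deuringLower

theorem nfChebLower_of_lContinuous (hLC : Seams.LContinuous) : Seams.NFChebLower :=
  NFCheb.nfChebLower_of_crossLower (crossLower_of_lContinuous hLC)

/-- **Chebotarev, lower bound form (I6), from the continuity of the twisted Dedekind series.** -/
theorem chebLower_of_lContinuous (hLC : Seams.LContinuous) : Seams.ChebLower :=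
  Dict.chebLower_of_nfChebLower (nfChebLower_of_lContinuous hLC)

/-- The same in the vocabulary of `A/Defs.lean` (the literal consumed by the assembly). -/
theorem defsChebLower_of_lContinuous (hLC : Seams.LContinuous) : Fermat.Agent.S48.A.ChebLower :=
  Dict.defsChebLower_of_nfChebLower (nfChebLower_of_lContinuous hLC)

end Fermat.Agent.S48.A.Cheb.Main
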