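/-
PROJECT D (S48), part A, brick A6 (Chebotarev), helper4's cut #5634, side brick of C4:
every ideal class of a Dedekind domain has an integral representative prime to a given
non-zero ideal (helper7).  Mathlib only.
-/
import Mathlib

set_option autoImplicit false

namespace Fermat.Agent.S48.A.Cheb.ClassRep

open nonZeroDivisors NumberField

/-- In a Dedekind domain every ideal class contains an integral ideal prime to a given non-zero
ideal `I`. -/
theorem exists_mk0_eq_isCoprime {R : Type*} [CommRing R] [IsDedekindDomain R]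
    (C : ClassGroup R) (I : Ideal R) (hI : I ≠ ⊥) :
    ∃ J : (Ideal R)⁰, ClassGroup.mk0 J = C ∧ IsCoprime (J : Ideal R) I := by
  obtain ⟨J', hJ'⟩ := ClassGroup.mk0_surjective C⁻¹
  have hJ'0 : (J' : Ideal R) ≠ ⊥ := nonZeroDivisors.coe_ne_zero J'
  have hle : (J' : Ideal R) * I ≤ J' := Ideal.mul_le_left
  have hne : (J' : Ideal R) * I ≠ 0 := mul_ne_zero hJ'0 hI
  obtain ⟨a, ha⟩ := IsDedekindDomain.exists_sup_span_eq hle hne
  have haJ : Ideal.span {a} ≤ (J' : Ideal R) := by rw [← ha]; exact le_sup_right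
  obtain ⟨K, hK⟩ := Ideal.dvd_iff_le.mpr haJ
  have hcop : I ⊔ K = ⊤ := by
    have h1 : (J' : Ideal R) * (I ⊔ K) = J' * ⊤ := by
      rw [Ideal.mul_sup, ← hK, ha, Ideal.mul_top]
    exact mul_left_cancel₀ hJ'0 h1
  by_cases hK0 : K = ⊥
  · have hI' : I = ⊤ := by rw [hK0, sup_bot_eq] at hcop; exact hcop
    obtain ⟨J, hJ⟩ := ClassGroup.mk0_surjective C
    refine ⟨J, hJ, ?_⟩
    rw [Ideal.isCoprime_iff_sup_eq, hI', sup_top_eq]
  · have hKmem : K ∈ (Ideal R)⁰ := mem_nonZeroDivisors_iff_ne_zero.mpr hK0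
    refine ⟨⟨K, hKmem⟩, ?_, ?_⟩
    · have hmem : (J' : Ideal R) * K ∈ (Ideal R)⁰ :=
        mem_nonZeroDivisors_iff_ne_zero.mpr (mul_ne_zero hJ'0 hK0)
      have h1 : ClassGroup.mk0 ⟨(J' : Ideal R) * K, hmem⟩ = 1 := by
        rw [ClassGroup.mk0_eq_one_iff]
        exact ⟨⟨a, by rw [← hK, Ideal.submodule_span_eq]⟩⟩
      have h2 : (⟨(J' : Ideal R) * K, hmem⟩ : (Ideal R)⁰) = J' * ⟨K, hKmem⟩ := rfl
      rw [h2, map_mul, hJ'] at h1
      exact (inv_mul_eq_one.mp h1).symm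
    · rw [Ideal.isCoprime_iff_sup_eq, sup_comm]
      exact hcop

/-- the literal of #5634: every ideal class of `𝓞 K` has an integral representative prime to `m`. -/
theorem exists_mk0_eq_isCoprime_span_natCast (K : Type*) [Field K] [NumberField K]
    (C : ClassGroup (𝓞 K)) (m : ℕ) (hm : m ≠ 0) :
    ∃ J : (Ideal (𝓞 K))⁰, ClassGroup.mk0 J = C ∧
      IsCoprime (J : Ideal (𝓞 K)) (Ideal.span {(m : 𝓞 K)}) := by
  refine exists_mk0_eq_isCoprime C _ ?_
  rw [Ne, Ideal.span_singleton_eq_bot]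
  exact_mod_cast hm

end Fermat.Agent.S48.A.Cheb.ClassRep
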