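/-
PROJECT D (S48), part A, brick A6 = CHEBOTAREV (helper4, chief A6): THE END OF THE CHAIN.

`chebLower : Fermat.Agent.S48.A.ChebLower`, the lower Chebotarev bound in the form consumed by
A5b, is a theorem: `Cheb/Main.lean` (the composition of the bricks C5-C11) applied to
`TwistL/LCont.lean` (`LContinuous`, helper24's analytic core).
-/
import Mathlib
import Fermat.Agent.S48.A.Cheb.Main
import Fermat.Agent.S48.A.TwistL.LCont

set_option autoImplicit false

namespace Fermat.Agent.S48.A.Cheb.Final

/-- **(S-LC)** -/
theorem lContinuous : Fermat.Agent.S48.A.Cheb.Seams.LContinuous :=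
  Fermat.Agent.S48.A.TwistL.LCont.lContinuous

/-- **Chebotarev, lower bound, for number fields** -/
theorem seamsChebLower : Fermat.Agent.S48.A.Cheb.Seams.ChebLower :=
  Fermat.Agent.S48.A.Cheb.Main.chebLower_of_lContinuous lContinuous

/-- **Chebotarev, lower bound, in the form of `A/Defs.lean`** -/
theorem chebLower : Fermat.Agent.S48.A.ChebLower :=
  Fermat.Agent.S48.A.Cheb.Main.defsChebLower_of_lContinuous lContinuous

end Fermat.Agent.S48.A.Cheb.Final
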